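/-
NEXT-GATE S48 / (N8b)-(B5), file 1 (helper99): the absolute norm modulo `m`, UP TO SIGN, as a
character-carrying quotient of the (wide) ray class group of `GC/RaySI`.

* `GammaPM m := (ZMod m)ˣ ⧸ zpowers (-1)`.
* `normPM E m : RayClassGroup (modIdeal E m) →* GammaPM m`, `[I] ↦ [N I mod m]`
  (well defined: `a ≡ 1 mod m 𝓞_E ⟹ N(a) ≡ 1 mod m`, by `det (1 + m • A) ≡ 1`).
* `GN E m := RayClassGroup (modIdeal E m) ⧸ ker (normPM E m)`, `phiN E m : PhiData _ (GN E m)`
  (RaySI's `phiH`), `countHyp_phiN` (RaySI's `rayCountStmt`), and the INJECTIVE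
  `iotaN E m : GN E m →* GammaPM m` with `iotaN (phiN I) = [N I mod m]`.
-/
import Mathlib
import Fermat.Agent.S14.CR.CycFrob
import Fermat.Agent.GC.RaySI.RayFinal
import Fermat.Agent.GC.RaySI.RayZeta

set_option autoImplicit false

open NumberField nonZeroDivisors

namespace Fermat.Agent.DS.N8b.NormPM

open Fermat.Agent.GC.RaySI Fermat.Agent.S14.CR

variable (E : Type*) [Field E] [NumberField E] (m : ℕ)

/-- the modulus ideal `(m)` of `𝓞 E` -/
abbrev modIdeal : Ideal (𝓞 E) := Ideal.span {(m : 𝓞 E)}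

theorem modIdeal_ne_bot [NeZero m] : modIdeal E m ≠ ⊥ := by
  rw [Ne, Ideal.span_singleton_eq_bot]
  exact_mod_cast NeZero.ne m

/-- `Γ_m = (ℤ/m)ˣ / {±1}` -/
abbrev GammaPM (m : ℕ) : Type := (ZMod m)ˣ ⧸ Subgroup.zpowers (-1 : (ZMod m)ˣ)

variable {E m}

/-- `a ≡ 1 mod m 𝓞_E ⟹ N_{E/ℚ}(a) ≡ 1 mod m`. -/
theorem int_dvd_norm_sub_one {a : 𝓞 E} (ha : a - 1 ∈ modIdeal E m) :
    (m : ℤ) ∣ Algebra.norm ℤ a - 1 := by
  classical
  obtain ⟨c, hc⟩ := Ideal.mem_span_singleton'.mp ha
  have h1 : a = 1 + (m : ℤ) • c := by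
    have : (m : ℤ) • c = c * (m : 𝓞 E) := by
      rw [zsmul_eq_mul, mul_comm]
      norm_cast
    rw [this, hc]
    ring
  let b := RingOfIntegers.basis E
  rw [Algebra.norm_eq_matrix_det b, h1, map_add, map_one, map_smul, Matrix.det_one_add_smul]
  refine ⟨(Algebra.leftMulMatrix b c).trace +
    (Matrix.det (1 + (Polynomial.X : Polynomial ℤ) •
      (Algebra.leftMulMatrix b c).map Polynomial.C)).divX.divX.eval (m : ℤ) * (m : ℤ), ?_⟩
  ring

/-- `absNormUnit` only depends on the ideal. -/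
theorem absNormUnit_congr {I J : Ideal (𝓞 E)} (h : I = J)
    (hI : IsCoprime I (Ideal.span {(m : 𝓞 E)})) (hJ : IsCoprime J (Ideal.span {(m : 𝓞 E)})) :
    absNormUnit m I hI = absNormUnit m J hJ := by
  subst h
  rfl

/-- the norm class of a principal ideal `(a)`, `a ≡ 1 mod m`, is `±1`. -/
theorem absNormUnit_span_mem_zpowers {a : 𝓞 E} (ha : a - 1 ∈ modIdeal E m)
    (hc : IsCoprime (Ideal.span {a}) (Ideal.span {(m : 𝓞 E)})) :
    absNormUnit m (Ideal.span {a}) hc ∈ Subgroup.zpowers (-1 : (ZMod m)ˣ) := by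
  have hdvd := int_dvd_norm_sub_one ha
  have h1 : ((Algebra.norm ℤ a : ℤ) : ZMod m) = 1 := by
    have := (ZMod.intCast_eq_intCast_iff_dvd_sub 1 (Algebra.norm ℤ a) m).mpr hdvd
    rw [← this]
    simp
  have hcoe : ((absNormUnit m (Ideal.span {a}) hc : (ZMod m)ˣ) : ZMod m) =
      (((Algebra.norm ℤ a).natAbs : ℕ) : ZMod m) := by
    rw [coe_absNormUnit, Ideal.absNorm_span_singleton]
  rcases Int.natAbs_eq (Algebra.norm ℤ a) with h | h
  · -- `N a = natAbs`
    have : absNormUnit m (Ideal.span {a}) hc = 1 := by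
      apply Units.ext
      rw [hcoe, Units.val_one, ← h1]
      conv_rhs => rw [h]
      simp
    rw [this]
    exact one_mem _
  · have : absNormUnit m (Ideal.span {a}) hc = -1 := by
      apply Units.ext
      rw [hcoe, Units.val_neg, Units.val_one]
      have h2 : (((Algebra.norm ℤ a).natAbs : ℕ) : ZMod m) = -((Algebra.norm ℤ a : ℤ) : ZMod m) := by
        conv_rhs => rw [h]
        simp
      rw [h2, h1]
    rw [this]
    exact Subgroup.mem_zpowers _

variable (E m)

/-- the norm unit of an ideal coprime to `m` -/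
noncomputable def nu (I : coprimeSubmonoid (modIdeal E m)) : (ZMod m)ˣ :=
  absNormUnit m (RayClass.idl I) (RayClass.idl_coprime I)

theorem nu_one : nu E m 1 = 1 := by
  unfold nu
  rw [← absNormUnit_top (F := E) m]
  exact absNormUnit_congr (by simp [Ideal.one_eq_top]) _ _

theorem nu_mul (I J : coprimeSubmonoid (modIdeal E m)) : nu E m (I * J) = nu E m I * nu E m J := by
  unfold nu
  rw [← absNormUnit_mul m (RayClass.idl I) (RayClass.idl J) (RayClass.idl_coprime I)
    (RayClass.idl_coprime J)]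
  exact absNormUnit_congr (RayClass.idl_mul I J) _ _

/-- the norm class on the ideals coprime to `m`, with values in `Γ_m`. -/
noncomputable def normPM₀ : coprimeSubmonoid (modIdeal E m) →* GammaPM m where
  toFun I := QuotientGroup.mk (nu E m I)
  map_one' := by rw [nu_one, QuotientGroup.mk_one]
  map_mul' I J := by rw [nu_mul, QuotientGroup.mk_mul]

theorem normPM₀_apply (I : coprimeSubmonoid (modIdeal E m)) :
    normPM₀ E m I = QuotientGroup.mk (nu E m I) := rfl

theorem normPM₀_eq_of_rayRel {I J : coprimeSubmonoid (modIdeal E m)}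
    (h : RayClass.RayRel (modIdeal E m) I J) : normPM₀ E m I = normPM₀ E m J := by
  obtain ⟨a, b, ha0, hb0, ha, hb, hab⟩ := h
  have hca : IsCoprime (Ideal.span {a}) (Ideal.span {(m : 𝓞 E)}) :=
    RayClass.isCoprime_span_of_sub_one ha
  have hcb : IsCoprime (Ideal.span {b}) (Ideal.span {(m : 𝓞 E)}) :=
    RayClass.isCoprime_span_of_sub_one hb
  have hua := absNormUnit_span_mem_zpowers ha hca
  have hub := absNormUnit_span_mem_zpowers hb hcb
  set ua := absNormUnit m (Ideal.span {a}) hca with hua_def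
  set ub := absNormUnit m (Ideal.span {b}) hcb with hub_def
  have hmul : ua * nu E m I = ub * nu E m J := by
    unfold nu
    rw [hua_def, hub_def,
      ← absNormUnit_mul m (Ideal.span {a}) (RayClass.idl I) hca (RayClass.idl_coprime I),
      ← absNormUnit_mul m (Ideal.span {b}) (RayClass.idl J) hcb (RayClass.idl_coprime J)]
    exact absNormUnit_congr hab _ _
  rw [normPM₀_apply, normPM₀_apply, QuotientGroup.eq]
  have : (nu E m I)⁻¹ * nu E m J = ua * ub⁻¹ := by
    rw [inv_mul_eq_iff_eq_mul]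
    apply mul_left_cancel (a := ub)
    rw [← hmul, mul_left_comm ub (nu E m I), mul_left_comm ub ua, mul_inv_cancel, mul_one,
      mul_comm]
  rw [this]
  exact Subgroup.mul_mem _ hua (Subgroup.inv_mem _ hub)

/-- **the norm class modulo `m` up to sign on the ray class group.** -/
noncomputable def normPM : RayClassGroup (modIdeal E m) →* GammaPM m :=
  Con.lift (RayClass.rayCon (modIdeal E m)) (normPM₀ E m)
    (fun _ _ h => normPM₀_eq_of_rayRel E m h)

theorem normPM_mk (I : coprimeSubmonoid (modIdeal E m)) :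
    normPM E m (RayClass.mk (modIdeal E m) I) = QuotientGroup.mk (nu E m I) := rfl

/-- the image group of the norm classes -/
abbrev GN : Type _ := RayClassGroup (modIdeal E m) ⧸ (normPM E m).ker

noncomputable instance : Fintype (GN E m) := Fintype.ofFinite _

/-- **the `PhiData` of the norm classes up to sign.** -/
noncomputable def phiN : PhiData (modIdeal E m) (GN E m) where
  phi := phiH (normPM E m).ker
  phi_one := phiH_one _
  phi_mul I J hI hJ := phiH_mul _ I J hI hJ

theorem countHyp_phiN [NeZero m] : CountHyp (phiN E m) :=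
  countHyp_phiH (modIdeal_ne_bot E m) (rayCountStmt E (modIdeal_ne_bot E m)) (normPM E m).ker

/-- the injection of the image group into `Γ_m`. -/
noncomputable def iotaN : GN E m →* GammaPM m := QuotientGroup.kerLift (normPM E m)

theorem iotaN_injective : Function.Injective (iotaN E m) :=
  QuotientGroup.kerLift_injective (normPM E m)

theorem iotaN_phiN (I : (Ideal (𝓞 E))⁰) (hI : IsCoprime (I : Ideal (𝓞 E)) (modIdeal E m)) :
    iotaN E m ((phiN E m).phi I) = QuotientGroup.mk (absNormUnit m (I : Ideal (𝓞 E)) hI) := by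
  show iotaN E m (phiH (normPM E m).ker I) = _
  rw [phiH_of_coprime _ hI]
  exact normPM_mk E m ⟨I, hI⟩

/-- `phiN I = 1` iff `N I ≡ ±1 mod m`. -/
theorem phiN_eq_one_iff (I : (Ideal (𝓞 E))⁰) (hI : IsCoprime (I : Ideal (𝓞 E)) (modIdeal E m)) :
    (phiN E m).phi I = 1 ↔
      absNormUnit m (I : Ideal (𝓞 E)) hI ∈ Subgroup.zpowers (-1 : (ZMod m)ˣ) := by
  rw [← (iotaN_injective E m).eq_iff, map_one, iotaN_phiN E m I hI, QuotientGroup.eq_one_iff]

end Fermat.Agent.DS.N8b.NormPM
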