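/-
NEXT-GATE S48 / (N8b)-(B5), file 2 (helper99): "norm-compatible" abelian extensions.

`M/E` Galois, `κ : Gal(M/E) →* Γ_m = (ℤ/m)ˣ/±1` INJECTIVE, and the Frobenius element of every
unramified prime `𝔔` of `M` whose prime `𝔮 = 𝔔 ∩ 𝓞_E` is coprime to `m` is sent to `[N𝔮 mod m]`
(`IsNormCompat`).  Typical instance: `M ⊂ E(ζ_m)^+`, `κ` the cyclotomic character up to sign;
the property is stable under the crossing step (`M ↦ L'M / L'`).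

Outputs, for `D = NormPM.phiN E m`:
* `isGoodPrime_of_splitIn` : a prime of `E` coprime to `m` which splits completely in `M` is a good
  prime of `phiN` (`N𝔮 ≡ ±1 mod m`);
* `finrank_le_card_GN` : `[M:E] ≤ #GN` (Frobenius' theorem `GJ/Frob/Main`);
* `exists_hlow` : the hypothesis `hlow` of `RayNonvanish` (helper61), i.e.
  `log (1/(s-1)) - c ≤ #GN * ∑_{𝔭 ∈ T} N𝔭^(-s)` for a finite set `T` of good primes;
* `iotaN_phiN_eq_kappa` / `frob_eq_iff` : the dictionary `Frob_𝔔 = τ ↔ iotaN (phiN 𝔮) = κ τ`.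
-/
import Mathlib
import Fermat.Agent.DS.N8b.NormPM
import Fermat.Agent.GJ.Frob.Main
import Fermat.Agent.GJ.Frob.Key
import Fermat.Agent.GJ.Frob.CompareSum
import Fermat.Agent.GJ.Frob.PrimeSumBounds

set_option autoImplicit false
set_option linter.style.haveILetI false

open NumberField nonZeroDivisors

namespace Fermat.Agent.DS.N8b.NormCompat

open Fermat.Agent.GC.RaySI Fermat.Agent.S14 Fermat.Agent.S14.CR Fermat.Agent.S14.NonSplit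
open Fermat.Agent.DS.N8b.NormPM Fermat.Agent.GJ.Frob Fermat.Agent.GJ.FrobLeaf

variable (E M : Type*) [Field E] [NumberField E] [Field M] [NumberField M] [Algebra E M]
  [IsGalois E M] (m : ℕ)

/-- **Norm compatibility** of `κ : Gal(M/E) →* Γ_m`: Frobenius elements at unramified primes
coprime to `m` go to the class of the absolute norm. -/
def IsNormCompat (κ : (M ≃ₐ[E] M) →* GammaPM m) : Prop :=
  ∀ (𝔔 : Ideal (𝓞 M)) [𝔔.IsPrime], 𝔔 ≠ ⊥ → 𝔔.ramificationIdx (𝓞 E) = 1 →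
    ∀ (hc : IsCoprime (𝔔.under (𝓞 E)) (modIdeal E m)) (σ : M ≃ₐ[E] M),
      IsArithFrobAt (𝓞 E) σ 𝔔 → κ σ = QuotientGroup.mk (absNormUnit m (𝔔.under (𝓞 E)) hc)

variable {E M m}

/-- the dictionary at one prime. -/
theorem iotaN_phiN_eq_kappa {κ : (M ≃ₐ[E] M) →* GammaPM m} (hκ : IsNormCompat E M m κ)
    (𝔔 : Ideal (𝓞 M)) [𝔔.IsPrime] (h𝔔 : 𝔔 ≠ ⊥) (he : 𝔔.ramificationIdx (𝓞 E) = 1)
    (h0 : 𝔔.under (𝓞 E) ≠ ⊥) (hc : IsCoprime (𝔔.under (𝓞 E)) (modIdeal E m))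
    {σ : M ≃ₐ[E] M} (hσ : IsArithFrobAt (𝓞 E) σ 𝔔) :
    iotaN E m ((phiN E m).phi ⟨𝔔.under (𝓞 E), mem_nonZeroDivisors_of_ne_zero h0⟩) = κ σ := by
  rw [iotaN_phiN E m ⟨𝔔.under (𝓞 E), mem_nonZeroDivisors_of_ne_zero h0⟩ hc]
  exact (hκ 𝔔 h𝔔 he hc σ hσ).symm

/-- `Frob_𝔔 = τ ↔ iotaN (phiN 𝔮) = κ τ`. -/
theorem frob_eq_iff {κ : (M ≃ₐ[E] M) →* GammaPM m} (hκ : IsNormCompat E M m κ)
    (hinj : Function.Injective κ)
    (𝔔 : Ideal (𝓞 M)) [𝔔.IsPrime] (h𝔔 : 𝔔 ≠ ⊥) (he : 𝔔.ramificationIdx (𝓞 E) = 1)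
    (h0 : 𝔔.under (𝓞 E) ≠ ⊥) (hc : IsCoprime (𝔔.under (𝓞 E)) (modIdeal E m))
    {σ : M ≃ₐ[E] M} (hσ : IsArithFrobAt (𝓞 E) σ 𝔔) (τ : M ≃ₐ[E] M) :
    σ = τ ↔
      iotaN E m ((phiN E m).phi ⟨𝔔.under (𝓞 E), mem_nonZeroDivisors_of_ne_zero h0⟩) = κ τ := by
  rw [iotaN_phiN_eq_kappa hκ 𝔔 h𝔔 he h0 hc hσ]
  exact hinj.eq_iff.symm

/-- a prime of `E` coprime to `m` which splits completely in `M` is a good prime of `phiN`. -/
theorem isGoodPrime_of_splitIn {κ : (M ≃ₐ[E] M) →* GammaPM m} (hκ : IsNormCompat E M m κ)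
    {𝔭 : Ideal (𝓞 E)} (h0 : 𝔭 ≠ ⊥) (hc : IsCoprime 𝔭 (modIdeal E m)) (hs : SplitIn E M 𝔭) :
    IsGoodPrime (phiN E m) 𝔭 := by
  obtain ⟨P, hP, hPu, he, hf⟩ := hs
  subst hPu
  haveI := hP
  have hP0 : P ≠ ⊥ := by
    rintro rfl
    exact h0 (Ideal.under_bot ..)
  refine ⟨h0, hc, ?_⟩
  haveI : Finite (𝓞 M ⧸ P) := Ideal.finiteQuotientOfFreeOfNeBot _ hP0
  set σ := arithFrobAt (𝓞 E) (M ≃ₐ[E] M) P with hσdef
  have hσ : IsArithFrobAt (𝓞 E) σ P := IsArithFrobAt.arithFrobAt (𝓞 E) (M ≃ₐ[E] M) P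
  have hI : P.inertia (M ≃ₐ[E] M) = ⊥ := inertia_eq_bot_of_e_eq_one P hP0 he
  have hord : orderOf σ = 1 := by rw [orderOf_eq_inertiaDeg hP0 hI hσ, hf]
  have hσ1 : σ = 1 := orderOf_eq_one_iff.mp hord
  have h1 := iotaN_phiN_eq_kappa hκ P hP0 he h0 hc hσ
  rw [hσ1, map_one] at h1
  exact (iotaN_injective E m) (h1.trans (map_one _).symm)

variable (E M m)

/-- the primes of `E` which are not coprime to `m` (inside a finite set) -/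
theorem mem_badIdeals_of_not_isCoprime [NeZero m] {𝔭 : Ideal (𝓞 E)} [𝔭.IsPrime] (h0 : 𝔭 ≠ ⊥)
    (h : ¬ IsCoprime 𝔭 (modIdeal E m)) : 𝔭 ∈ badIdeals E (modIdeal E m) :=
  mem_badIdeals_of_not_cop (modIdeal_ne_bot E m) h0 h

variable {E M m}

/-- **`[M:E] ≤ #GN`**: every element of `Gal(M/E)` is a power of a Frobenius element at an
unramified prime coprime to `m`, so `κ (Gal(M/E)) ⊆ iotaN (GN)`. -/
theorem finrank_le_card_GN [NeZero m] {κ : (M ≃ₐ[E] M) →* GammaPM m}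
    (hκ : IsNormCompat E M m κ) (hinj : Function.Injective κ) :
    Module.finrank E M ≤ Fintype.card (GN E m) := by
  classical
  have hrange : ∀ g : M ≃ₐ[E] M, κ g ∈ (iotaN E m).range := by
    intro g
    obtain ⟨P, σ, j, hP, hP0, hPB, -, he, -, hσ, hg⟩ :=
      exists_frob_pow_eq E M g (badIdeals E (modIdeal E m))
    haveI := hP
    have h0 : P.under (𝓞 E) ≠ ⊥ := under_ne_bot_of_ne_bot P hP0
    have hc : IsCoprime (P.under (𝓞 E)) (modIdeal E m) := by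
      by_contra hnc
      exact hPB (mem_badIdeals_of_not_isCoprime E m h0 hnc)
    have h1 := iotaN_phiN_eq_kappa hκ P hP0 he h0 hc hσ
    rw [hg, map_pow, ← h1, ← map_pow]
    exact ⟨_, rfl⟩
  -- an injection `Gal(M/E) → GN`
  have hex : ∀ g : M ≃ₐ[E] M, ∃ x : GN E m, iotaN E m x = κ g := fun g => hrange g
  choose f hf using hex
  have hfinj : Function.Injective f := by
    intro g g' h
    apply hinj
    rw [← hf g, ← hf g', h]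
  have h1 : Nat.card (M ≃ₐ[E] M) ≤ Nat.card (GN E m) := Nat.card_le_card_of_injective f hfinj
  rw [IsGalois.card_aut_eq_finrank, Nat.card_eq_fintype_card] at h1
  exact h1

/-- **The hypothesis `hlow` of `RayNonvanish`** for `phiN E m`, from a norm-compatible `M/E`. -/
theorem exists_hlow [NeZero m] {κ : (M ≃ₐ[E] M) →* GammaPM m}
    (hκ : IsNormCompat E M m κ) (hinj : Function.Injective κ) :
    ∃ c δ : ℝ, 0 < δ ∧ ∀ s : ℝ, 1 < s → s < 1 + δ →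
      ∃ T : Finset (Ideal (𝓞 E)), (∀ 𝔭 ∈ T, 𝔭.IsPrime ∧ IsGoodPrime (phiN E m) 𝔭) ∧
        Real.log (1 / (s - 1)) - c ≤
          (Fintype.card (GN E m) : ℝ) * ∑ 𝔭 ∈ T, (Ideal.absNorm 𝔭 : ℝ) ^ (-s) := by
  classical
  obtain ⟨δ, hδ, C, hC⟩ := primeSum_two_sided M
  set d : ℝ := (Module.finrank E M : ℝ) with hd
  set nb : ℝ := ((badIdeals E (modIdeal E m)).card : ℝ) with hnb
  refine ⟨C + numRamified E M + d * nb, δ, hδ, fun s hs1 hs2 => ?_⟩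
  obtain ⟨X₀, hX₀⟩ := (hC s hs1 hs2).2
  have hs0 : 0 ≤ s := by linarith
  -- the split degree one primes of norm `≤ X₀`
  set T' : Finset (Ideal (𝓞 E)) := (degOnePrimes E X₀).filter (fun 𝔭 => SplitIn E M 𝔭) with hT'
  have hT'mem : ∀ 𝔭, 𝔭 ∈ T' ↔ 𝔭 ∈ degOnePrimes E X₀ ∧ SplitIn E M 𝔭 := by
    intro 𝔭
    rw [hT', Finset.mem_filter]
  have hcmp := abs_finrank_mul_sum_sub_primeSum_le E M X₀ s hs0 T' hT'mem
  have hlow := hX₀ X₀ le_rfl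
  -- remove the primes not coprime to `m`
  set T : Finset (Ideal (𝓞 E)) := T'.filter (fun 𝔭 => IsCoprime 𝔭 (modIdeal E m)) with hT
  have hterm0 : ∀ 𝔭 : Ideal (𝓞 E), 0 ≤ (Ideal.absNorm 𝔭 : ℝ) ^ (-s) := fun 𝔭 =>
    Real.rpow_nonneg (Nat.cast_nonneg _) _
  have hterm1 : ∀ 𝔭 : Ideal (𝓞 E), (Ideal.absNorm 𝔭 : ℝ) ^ (-s) ≤ 1 := fun 𝔭 =>
    natCast_rpow_neg_le_one _ hs0
  have hsplit : ∑ 𝔭 ∈ T', (Ideal.absNorm 𝔭 : ℝ) ^ (-s) =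
      ∑ 𝔭 ∈ T, (Ideal.absNorm 𝔭 : ℝ) ^ (-s) +
        ∑ 𝔭 ∈ T'.filter (fun 𝔭 => ¬ IsCoprime 𝔭 (modIdeal E m)),
          (Ideal.absNorm 𝔭 : ℝ) ^ (-s) :=
    (Finset.sum_filter_add_sum_filter_not T' _ _).symm
  have hbadsub : T'.filter (fun 𝔭 => ¬ IsCoprime 𝔭 (modIdeal E m)) ⊆
      badIdeals E (modIdeal E m) := by
    intro 𝔭 h𝔭
    rw [Finset.mem_filter] at h𝔭
    obtain ⟨h1, h2⟩ := h𝔭
    have h3 := ((hT'mem 𝔭).mp h1).1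
    haveI : 𝔭.IsPrime := (mem_degOnePrimes.mp h3).1
    exact mem_badIdeals_of_not_isCoprime E m (ne_bot_of_mem_degOnePrimes h3) h2
  have hbad : ∑ 𝔭 ∈ T'.filter (fun 𝔭 => ¬ IsCoprime 𝔭 (modIdeal E m)),
      (Ideal.absNorm 𝔭 : ℝ) ^ (-s) ≤ nb := by
    calc ∑ 𝔭 ∈ T'.filter (fun 𝔭 => ¬ IsCoprime 𝔭 (modIdeal E m)), (Ideal.absNorm 𝔭 : ℝ) ^ (-s)
        ≤ ∑ _𝔭 ∈ T'.filter (fun 𝔭 => ¬ IsCoprime 𝔭 (modIdeal E m)), (1 : ℝ) :=
          Finset.sum_le_sum fun 𝔭 _ => hterm1 𝔭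
      _ = ((T'.filter (fun 𝔭 => ¬ IsCoprime 𝔭 (modIdeal E m))).card : ℝ) := by simp
      _ ≤ nb := by
          rw [hnb]
          exact_mod_cast Finset.card_le_card hbadsub
  refine ⟨T, fun 𝔭 h𝔭 => ?_, ?_⟩
  · rw [hT, Finset.mem_filter] at h𝔭
    obtain ⟨h1, hc⟩ := h𝔭
    obtain ⟨h2, h3⟩ := (hT'mem 𝔭).mp h1
    exact ⟨(mem_degOnePrimes.mp h2).1,
      isGoodPrime_of_splitIn hκ (ne_bot_of_mem_degOnePrimes h2) hc h3⟩
  · have hST : 0 ≤ ∑ 𝔭 ∈ T, (Ideal.absNorm 𝔭 : ℝ) ^ (-s) :=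
      Finset.sum_nonneg fun 𝔭 _ => hterm0 𝔭
    have hcard : d ≤ (Fintype.card (GN E m) : ℝ) := by
      rw [hd]
      exact_mod_cast finrank_le_card_GN hκ hinj
    have hd0 : 0 ≤ d := by rw [hd]; exact Nat.cast_nonneg _
    have h1 : d * ∑ 𝔭 ∈ T', (Ideal.absNorm 𝔭 : ℝ) ^ (-s) ≥
        primeSum M X₀ s - numRamified E M := by
      have := (abs_le.mp hcmp).1
      linarith
    have h2 : d * ∑ 𝔭 ∈ T', (Ideal.absNorm 𝔭 : ℝ) ^ (-s) ≤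
        d * ∑ 𝔭 ∈ T, (Ideal.absNorm 𝔭 : ℝ) ^ (-s) + d * nb := by
      rw [hsplit, mul_add]
      have := mul_le_mul_of_nonneg_left hbad hd0
      linarith
    have h3 : d * ∑ 𝔭 ∈ T, (Ideal.absNorm 𝔭 : ℝ) ^ (-s) ≤
        (Fintype.card (GN E m) : ℝ) * ∑ 𝔭 ∈ T, (Ideal.absNorm 𝔭 : ℝ) ^ (-s) :=
      mul_le_mul_of_nonneg_right hcard hST
    linarith

end Fermat.Agent.DS.N8b.NormCompat
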