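/-
NEXT-GATE / S48-(N8b)-(B6), abstract part (helper24): the Dirichlet step
"nonvanishing of the `L`-functions at `1⁺` ⟹ every class gets its share of `log 1/(s-1)`".

Setting.  `ι` an index type of "primes", `N : ι → ℝ` their norms (`2 ≤ N i`, `∑ N i ^ (-s)`
summable for `s > 1`), `cls : ι → G` a class map into a finite commutative group, characters
`ψ : AddChar (Additive G) ℂ` (the convention of `GC/RaySI`).  `X` is a finite set of characters
which are trivial on all classes `cls i`.  Hypotheses: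

* `hmain` : `∑' i, N i ^ (-s) = log (1/(s-1)) + O(1)` as `s → 1⁺`;
* `hlim`  : for `ψ ∉ X` the Euler product in exp-log form
  `exp (∑' i, -log (1 - ψ (cls i) N i ^ (-s)))` (this is `L(s, ψ)`, cf. `S14/SIan/EulerIdeal`)
  tends to a NONZERO limit as `s → 1⁺`.

Conclusion (`classSum_isBigO`, `classSum_bound`): for every `a : G`
`∑' i, [cls i = a] N i ^ (-s) = κ_a log (1/(s-1)) + O(1)` with
`κ_a = (∑ ψ ∈ X, ψ a⁻¹) / |G|`.

The only delicate point is the control of the ARGUMENT of `log L(s, ψ)`: the sum-of-logs branch is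
continuous in `s`, `L(s, ψ)` stays in a disc around `ℓ ≠ 0` avoiding `0`, so the branch differs
from a fixed continuous logarithm by a constant multiple of `2πi` (`bounded_of_exp_near`).
Mathlib only.
-/
import Mathlib

set_option autoImplicit false

namespace Fermat.Agent.DS.N8b

open Filter Topology

/-! ### The branch lemma -/

/-- The zero set of `exp - 1` is uniformly discrete. -/
theorem discreteTopology_exp_eq_one : DiscreteTopology {z : ℂ // Complex.exp z = 1} := by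
  refine DiscreteTopology.of_forall_le_dist (r := 2 * Real.pi) (by positivity) ?_
  intro x y hxy
  obtain ⟨n, hn⟩ := Complex.exp_eq_one_iff.mp x.2
  obtain ⟨k, hk⟩ := Complex.exp_eq_one_iff.mp y.2
  have hnk : n ≠ k := by
    rintro rfl
    exact hxy (Subtype.ext (hn.trans hk.symm))
  show 2 * Real.pi ≤ dist (x : ℂ) (y : ℂ)
  rw [Complex.dist_eq, hn, hk]
  have h1 : (n : ℂ) * (2 * Real.pi * Complex.I) - k * (2 * Real.pi * Complex.I) =
      ((n - k : ℤ) : ℂ) * ((2 * Real.pi : ℝ) : ℂ) * Complex.I := by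
    push_cast; ring
  rw [h1, norm_mul, norm_mul, Complex.norm_I, mul_one, Complex.norm_intCast, Complex.norm_real,
    Real.norm_of_nonneg (by positivity : (0 : ℝ) ≤ 2 * Real.pi)]
  have h2 : (1 : ℝ) ≤ |((n - k : ℤ) : ℝ)| := by
    rw [← Int.cast_abs]
    exact_mod_cast Int.one_le_abs (sub_ne_zero.mpr hnk)
  nlinarith [Real.pi_pos]

/-- **Branch lemma.**  If `g` is continuous on a preconnected set `S` and `exp (g s)` stays in the
closed disc of radius `‖ℓ‖/2` around `ℓ ≠ 0`, then `g` is bounded on `S`. -/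
theorem bounded_of_exp_near {g : ℝ → ℂ} {S : Set ℝ} (hS : IsPreconnected S) {ℓ : ℂ} (hℓ : ℓ ≠ 0)
    (hg : ContinuousOn g S)
    (hnear : ∀ s ∈ S, ‖Complex.exp (g s) - ℓ‖ ≤ ‖ℓ‖ / 2) :
    ∃ C, ∀ s ∈ S, ‖g s‖ ≤ C := by
  rcases S.eq_empty_or_nonempty with rfl | ⟨s0, hs0⟩
  · exact ⟨0, fun s hs => absurd hs (Set.notMem_empty s)⟩
  set w : ℝ → ℂ := fun s => Complex.exp (g s) / ℓ - 1 with hw
  have hw_norm : ∀ s ∈ S, ‖w s‖ ≤ 1 / 2 := by
    intro s hs
    have h1 : w s = (Complex.exp (g s) - ℓ) / ℓ := by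
      simp only [hw]; field_simp
    rw [h1, norm_div, div_le_iff₀ (norm_pos_iff.mpr hℓ)]
    linarith [hnear s hs]
  have hmem : ∀ s ∈ S, 1 + w s ∈ Complex.slitPlane := fun s hs =>
    Complex.mem_slitPlane_of_norm_lt_one (lt_of_le_of_lt (hw_norm s hs) (by norm_num))
  set Λ : ℝ → ℂ := fun s => Complex.log (1 + w s) with hΛ
  have hΛ_norm : ∀ s ∈ S, ‖Λ s‖ ≤ 3 / 4 := fun s hs => by
    calc ‖Λ s‖ ≤ 3 / 2 * ‖w s‖ := Complex.norm_log_one_add_half_le_self (hw_norm s hs)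
    _ ≤ 3 / 4 := by linarith [hw_norm s hs]
  have hw_cont : ContinuousOn w S :=
    ((Complex.continuous_exp.comp_continuousOn hg).div_const ℓ).sub continuousOn_const
  have hΛ_cont : ContinuousOn Λ S :=
    ContinuousOn.clog (continuousOn_const.add hw_cont) hmem
  set D : ℝ → ℂ := fun s => g s - Complex.log ℓ - Λ s with hD
  have hD_exp : ∀ s ∈ S, Complex.exp (D s) = 1 := by
    intro s hs
    have h1 : (1 + w s) ≠ 0 := Complex.slitPlane_ne_zero (hmem s hs)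
    have h2 : 1 + w s = Complex.exp (g s) / ℓ := by simp only [hw]; ring
    simp only [hD, hΛ, Complex.exp_sub, Complex.exp_log hℓ, Complex.exp_log h1]
    rw [h2]
    have h3 : Complex.exp (g s) ≠ 0 := Complex.exp_ne_zero _
    field_simp
  have hD_cont : ContinuousOn D S := (hg.sub continuousOn_const).sub hΛ_cont
  have hconst : ∀ s ∈ S, D s = D s0 := by
    intro s hs
    have hT : IsDiscrete {z : ℂ | Complex.exp z = 1} :=
      isDiscrete_iff_discreteTopology.mpr discreteTopology_exp_eq_one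
    exact hS.constant_of_mapsTo hT hD_cont (fun x hx => hD_exp x hx) hs hs0
  refine ⟨‖D s0‖ + ‖Complex.log ℓ‖ + 3 / 4, fun s hs => ?_⟩
  have h1 : g s = D s0 + Complex.log ℓ + Λ s := by
    rw [← hconst s hs]; simp only [hD]; ring
  rw [h1]
  calc ‖D s0 + Complex.log ℓ + Λ s‖ ≤ ‖D s0‖ + ‖Complex.log ℓ‖ + ‖Λ s‖ := norm_add₃_le
  _ ≤ ‖D s0‖ + ‖Complex.log ℓ‖ + 3 / 4 := by linarith [hΛ_norm s hs]

/-! ### Elementary estimates -/

theorem rpow_neg_le_half {n s : ℝ} (hn : 2 ≤ n) (hs : 1 ≤ s) : n ^ (-s) ≤ 1 / 2 := by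
  have hn0 : (0 : ℝ) ≤ n := by linarith
  rw [Real.rpow_neg hn0]
  have h1 : n ^ (1 : ℝ) ≤ n ^ s := Real.rpow_le_rpow_of_exponent_le (by linarith) hs
  rw [Real.rpow_one] at h1
  have h2 : (2 : ℝ) ≤ n ^ s := le_trans hn h1
  have h3 := inv_anti₀ (by norm_num : (0 : ℝ) < 2) h2
  linarith

theorem rpow_neg_sq_le {n s : ℝ} (hn : 2 ≤ n) (hs : 1 ≤ s) :
    (n ^ (-s)) ^ 2 ≤ n ^ (-(2 : ℝ)) := by
  have hn0 : (0 : ℝ) < n := by linarith
  rw [sq, ← Real.rpow_add hn0]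
  exact Real.rpow_le_rpow_of_exponent_le (by linarith) (by linarith)

theorem norm_neg_log_one_sub_sub_le {z : ℂ} (hz : ‖z‖ ≤ 1 / 2) :
    ‖-Complex.log (1 - z) - z‖ ≤ ‖z‖ ^ 2 := by
  have h1 : ‖-z‖ < 1 := by rw [norm_neg]; linarith
  have h := Complex.norm_log_one_add_sub_self_le h1
  rw [norm_neg] at h
  have h2 : -Complex.log (1 - z) - z = -(Complex.log (1 + -z) - -z) := by
    rw [← sub_eq_add_neg]; ring
  rw [h2, norm_neg]
  refine h.trans ?_
  have h3 : (1 - ‖z‖)⁻¹ ≤ 2 := by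
    have := inv_anti₀ (by norm_num : (0 : ℝ) < 1 / 2) (by linarith : (1 : ℝ) / 2 ≤ 1 - ‖z‖)
    norm_num at this
    linarith
  have h4 : 0 ≤ ‖z‖ ^ 2 := by positivity
  have h5 : 0 ≤ (1 - ‖z‖)⁻¹ := inv_nonneg.mpr (by linarith)
  nlinarith

theorem norm_neg_log_one_sub_le {z : ℂ} (hz : ‖z‖ ≤ 1 / 2) :
    ‖-Complex.log (1 - z)‖ ≤ 3 / 2 * ‖z‖ := by
  have h := Complex.norm_log_one_add_half_le_self (z := -z) (by rwa [norm_neg])
  rwa [norm_neg, ← sub_eq_add_neg, ← norm_neg] at h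

section Series

variable {ι : Type*} {N : ι → ℝ} {c : ι → ℂ}

theorem norm_coeff_term_le (hN : ∀ i, 2 ≤ N i) (hc : ∀ i, ‖c i‖ ≤ 1) (s : ℝ) (i : ι) :
    ‖c i * ((N i ^ (-s) : ℝ) : ℂ)‖ ≤ N i ^ (-s) := by
  have h0 : 0 ≤ N i ^ (-s) := Real.rpow_nonneg (by linarith [hN i]) _
  rw [norm_mul, Complex.norm_real, Real.norm_of_nonneg h0]
  exact mul_le_of_le_one_left h0 (hc i)

theorem norm_coeff_term_le_half (hN : ∀ i, 2 ≤ N i) (hc : ∀ i, ‖c i‖ ≤ 1) {s : ℝ} (hs : 1 ≤ s)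
    (i : ι) : ‖c i * ((N i ^ (-s) : ℝ) : ℂ)‖ ≤ 1 / 2 :=
  (norm_coeff_term_le hN hc s i).trans (rpow_neg_le_half (hN i) hs)

theorem summable_coeff_term (hN : ∀ i, 2 ≤ N i) (hc : ∀ i, ‖c i‖ ≤ 1)
    (hsum : ∀ s : ℝ, 1 < s → Summable (fun i => N i ^ (-s))) {s : ℝ} (hs : 1 < s) :
    Summable (fun i => c i * ((N i ^ (-s) : ℝ) : ℂ)) :=
  Summable.of_norm_bounded (hsum s hs) (norm_coeff_term_le hN hc s)

theorem summable_logTerm (hN : ∀ i, 2 ≤ N i) (hc : ∀ i, ‖c i‖ ≤ 1)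
    (hsum : ∀ s : ℝ, 1 < s → Summable (fun i => N i ^ (-s))) {s : ℝ} (hs : 1 < s) :
    Summable (fun i => -Complex.log (1 - c i * ((N i ^ (-s) : ℝ) : ℂ))) := by
  refine Summable.of_norm_bounded ((hsum s hs).mul_left (3 / 2)) fun i => ?_
  refine (norm_neg_log_one_sub_le (norm_coeff_term_le_half hN hc hs.le i)).trans ?_
  exact mul_le_mul_of_nonneg_left (norm_coeff_term_le hN hc s i) (by norm_num)

/-- `log L` and the prime sum differ by a bounded amount, uniformly in `s > 1`. -/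
theorem norm_tsum_logTerm_sub_le (hN : ∀ i, 2 ≤ N i) (hc : ∀ i, ‖c i‖ ≤ 1)
    (hsum : ∀ s : ℝ, 1 < s → Summable (fun i => N i ^ (-s))) {s : ℝ} (hs : 1 < s) :
    ‖(∑' i, -Complex.log (1 - c i * ((N i ^ (-s) : ℝ) : ℂ))) -
        ∑' i, c i * ((N i ^ (-s) : ℝ) : ℂ)‖ ≤ ∑' i, N i ^ (-(2 : ℝ)) := by
  have h2 : Summable (fun i => N i ^ (-(2 : ℝ))) := hsum 2 (by norm_num)
  have hpt : ∀ i, ‖-Complex.log (1 - c i * ((N i ^ (-s) : ℝ) : ℂ)) -
      c i * ((N i ^ (-s) : ℝ) : ℂ)‖ ≤ N i ^ (-(2 : ℝ)) := by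
    intro i
    refine (norm_neg_log_one_sub_sub_le (norm_coeff_term_le_half hN hc hs.le i)).trans ?_
    refine le_trans ?_ (rpow_neg_sq_le (hN i) hs.le)
    exact pow_le_pow_left₀ (norm_nonneg _) (norm_coeff_term_le hN hc s i) 2
  have hn : Summable (fun i => ‖-Complex.log (1 - c i * ((N i ^ (-s) : ℝ) : ℂ)) -
      c i * ((N i ^ (-s) : ℝ) : ℂ)‖) :=
    Summable.of_nonneg_of_le (fun _ => norm_nonneg _) hpt h2
  rw [← (summable_logTerm hN hc hsum hs).tsum_sub (summable_coeff_term hN hc hsum hs)]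
  exact (norm_tsum_le_tsum_norm hn).trans (hn.tsum_le_tsum hpt h2)

/-- The sum-of-logs branch of `log L(s)` is continuous on `(1, ∞)`. -/
theorem continuousOn_tsum_logTerm (hN : ∀ i, 2 ≤ N i) (hc : ∀ i, ‖c i‖ ≤ 1)
    (hsum : ∀ s : ℝ, 1 < s → Summable (fun i => N i ^ (-s))) :
    ContinuousOn (fun s : ℝ => ∑' i, -Complex.log (1 - c i * ((N i ^ (-s) : ℝ) : ℂ)))
      (Set.Ioi 1) := by
  intro s1 hs1
  have hs1' : (1 : ℝ) < s1 := hs1
  set s0 : ℝ := (1 + s1) / 2 with hs0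
  have h10 : 1 < s0 := by rw [hs0]; linarith
  have h01 : s0 < s1 := by rw [hs0]; linarith
  have hcont : ContinuousOn (fun s : ℝ => ∑' i, -Complex.log (1 - c i * ((N i ^ (-s) : ℝ) : ℂ)))
      (Set.Ioi s0) := by
    refine continuousOn_tsum (u := fun i => 3 / 2 * N i ^ (-s0)) ?_
      ((hsum s0 h10).mul_left (3 / 2)) ?_
    · intro i
      have hNi : N i ≠ 0 := by linarith [hN i]
      have hx : Continuous (fun s : ℝ => N i ^ (-s)) :=
        continuous_const.rpow continuous_neg (fun _ => Or.inl hNi)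
      refine ContinuousOn.neg (ContinuousOn.clog ?_ ?_)
      · exact (continuous_const.sub
          (continuous_const.mul (Complex.continuous_ofReal.comp hx))).continuousOn
      · intro s hs
        have hs' : 1 ≤ s := le_of_lt (lt_trans h10 hs)
        have h := Complex.mem_slitPlane_of_norm_lt_one
          (z := -(c i * ((N i ^ (-s) : ℝ) : ℂ)))
          (by rw [norm_neg]
              exact lt_of_le_of_lt (norm_coeff_term_le_half hN hc hs' i) (by norm_num))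
        rwa [← sub_eq_add_neg] at h
    · intro i s hs
      have hs' : 1 ≤ s := le_of_lt (lt_trans h10 hs)
      refine (norm_neg_log_one_sub_le (norm_coeff_term_le_half hN hc hs' i)).trans ?_
      refine mul_le_mul_of_nonneg_left ((norm_coeff_term_le hN hc s i).trans ?_) (by norm_num)
      exact Real.rpow_le_rpow_of_exponent_le (by linarith [hN i])
        (neg_le_neg (le_of_lt hs))
  exact (hcont.continuousAt (Ioi_mem_nhds h01)).continuousWithinAt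

/-- If `L(s) = exp (∑' -log (1 - c_i N_i^{-s}))` tends to a nonzero limit as `s → 1⁺`, then the
"prime sum" `∑' c_i N_i^{-s}` stays bounded as `s → 1⁺`. -/
theorem bounded_tsum_of_tendsto (hN : ∀ i, 2 ≤ N i) (hc : ∀ i, ‖c i‖ ≤ 1)
    (hsum : ∀ s : ℝ, 1 < s → Summable (fun i => N i ^ (-s))) {ℓ : ℂ} (hℓ : ℓ ≠ 0)
    (hlim : Tendsto (fun s : ℝ =>
      Complex.exp (∑' i, -Complex.log (1 - c i * ((N i ^ (-s) : ℝ) : ℂ)))) (𝓝[>] 1) (𝓝 ℓ)) :
    ∃ C : ℝ, ∀ᶠ s in 𝓝[>] (1 : ℝ), ‖∑' i, c i * ((N i ^ (-s) : ℝ) : ℂ)‖ ≤ C := by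
  have hev := Metric.tendsto_nhds.mp hlim (‖ℓ‖ / 2) (half_pos (norm_pos_iff.mpr hℓ))
  obtain ⟨u, hu, hsub⟩ := mem_nhdsGT_iff_exists_Ioo_subset.mp hev
  have hu' : (1 : ℝ) < u := hu
  obtain ⟨C, hC⟩ := bounded_of_exp_near (S := Set.Ioo 1 u) isPreconnected_Ioo hℓ
    ((continuousOn_tsum_logTerm hN hc hsum).mono Set.Ioo_subset_Ioi_self)
    (fun s hs => by
      have := hsub hs
      simp only [Set.mem_ofPred_eq, dist_eq_norm] at this
      exact this.le)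
  refine ⟨C + ∑' i, N i ^ (-(2 : ℝ)), ?_⟩
  filter_upwards [Ioo_mem_nhdsGT hu'] with s hs
  have h1 := norm_tsum_logTerm_sub_le hN hc hsum hs.1
  have h2 := hC s hs
  calc ‖∑' i, c i * ((N i ^ (-s) : ℝ) : ℂ)‖
      = ‖(∑' i, -Complex.log (1 - c i * ((N i ^ (-s) : ℝ) : ℂ))) -
          ((∑' i, -Complex.log (1 - c i * ((N i ^ (-s) : ℝ) : ℂ))) -
            ∑' i, c i * ((N i ^ (-s) : ℝ) : ℂ))‖ := by rw [sub_sub_cancel]
    _ ≤ _ := (norm_sub_le _ _).trans (add_le_add h2 h1)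

end Series

/-! ### Orthogonality and the class sums -/

section ClassSum

variable {ι G : Type*} [CommGroup G] [Fintype G] [DecidableEq G]

/-- Orthogonality, swapped with the infinite sum: `|G| ∑' [cls i = a] x_i` is the sum over all
characters of `ψ a⁻¹ ∑' ψ (cls i) x_i`. -/
theorem card_mul_tsum_class_eq {x : ι → ℝ} (hx0 : ∀ i, 0 ≤ x i) (hx : Summable x) (cls : ι → G)
    (a : G) :
    (Fintype.card G : ℂ) * ∑' i, (if cls i = a then ((x i : ℝ) : ℂ) else 0) =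
      ∑ ψ : AddChar (Additive G) ℂ, ψ (Additive.ofMul a⁻¹) *
        ∑' i, ψ (Additive.ofMul (cls i)) * ((x i : ℝ) : ℂ) := by
  have hsm : ∀ ψ : AddChar (Additive G) ℂ, Summable (fun i =>
      ψ (Additive.ofMul a⁻¹) * (ψ (Additive.ofMul (cls i)) * ((x i : ℝ) : ℂ))) := by
    intro ψ
    refine Summable.of_norm_bounded hx fun i => ?_
    rw [norm_mul, norm_mul, AddChar.norm_apply, AddChar.norm_apply, one_mul, one_mul,
      Complex.norm_real, Real.norm_of_nonneg (hx0 i)]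
  simp_rw [← tsum_mul_left]
  rw [← Summable.tsum_finsetSum (fun ψ _ => hsm ψ)]
  refine tsum_congr fun i => ?_
  have h1 : ∀ ψ : AddChar (Additive G) ℂ,
      ψ (Additive.ofMul a⁻¹) * (ψ (Additive.ofMul (cls i)) * ((x i : ℝ) : ℂ)) =
        ψ (Additive.ofMul (a⁻¹ * cls i)) * ((x i : ℝ) : ℂ) := by
    intro ψ
    rw [ofMul_mul, AddChar.map_add_eq_mul, mul_assoc]
  simp_rw [h1]
  rw [← Finset.sum_mul, AddChar.sum_apply_eq_ite]
  have hc : Fintype.card (Additive G) = Fintype.card G := Fintype.card_congr Additive.toMul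
  by_cases h : cls i = a
  · have h2 : Additive.ofMul (a⁻¹ * cls i) = 0 := by
      rw [h, inv_mul_cancel]; rfl
    rw [if_pos h, if_pos h2, hc]
  · have h2 : Additive.ofMul (a⁻¹ * cls i) ≠ 0 := by
      intro h3
      apply h
      have h4 : a⁻¹ * cls i = 1 := h3
      exact (inv_mul_eq_one.mp h4).symm
    rw [if_neg h, if_neg h2, zero_mul, mul_zero]

/-- **Abstract Dirichlet step** (filter form).  `X` a finite set of characters trivial on all
classes; `∑' N i ^ (-s) = log (1/(s-1)) + O(1)`; for `ψ ∉ X` the Euler product in exp-log form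
tends to a nonzero limit as `s → 1⁺`.  Then the class `a` gets
`κ_a log (1/(s-1)) + O(1)` with `κ_a = (∑ ψ ∈ X, ψ a⁻¹) / |G|`. -/
theorem classSum_eventually_le
    (N : ι → ℝ) (hN : ∀ i, 2 ≤ N i)
    (hsum : ∀ s : ℝ, 1 < s → Summable (fun i => N i ^ (-s)))
    (cls : ι → G)
    (X : Finset (AddChar (Additive G) ℂ))
    (hX : ∀ ψ ∈ X, ∀ i, ψ (Additive.ofMul (cls i)) = 1)
    (hmain : ∃ C : ℝ, ∀ᶠ s in 𝓝[>] (1 : ℝ),
      |∑' i, N i ^ (-s) - Real.log (1 / (s - 1))| ≤ C)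
    (hlim : ∀ ψ : AddChar (Additive G) ℂ, ψ ∉ X → ∃ ℓ : ℂ, ℓ ≠ 0 ∧
      Tendsto (fun s : ℝ => Complex.exp (∑' i,
        -Complex.log (1 - ψ (Additive.ofMul (cls i)) * ((N i ^ (-s) : ℝ) : ℂ))))
        (𝓝[>] 1) (𝓝 ℓ))
    (a : G) :
    ∃ C : ℝ, ∀ᶠ s in 𝓝[>] (1 : ℝ),
      ‖∑' i, (if cls i = a then ((N i ^ (-s) : ℝ) : ℂ) else 0) -
        (∑ ψ ∈ X, ψ (Additive.ofMul a⁻¹)) / (Fintype.card G : ℂ) *
          ((Real.log (1 / (s - 1)) : ℝ) : ℂ)‖ ≤ C := by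
  classical
  obtain ⟨Cm, hCm⟩ := hmain
  -- the contribution of each character
  have hchar : ∀ ψ : AddChar (Additive G) ℂ, ∃ C : ℝ, ∀ᶠ s in 𝓝[>] (1 : ℝ),
      ‖ψ (Additive.ofMul a⁻¹) * ((∑' i, ψ (Additive.ofMul (cls i)) * ((N i ^ (-s) : ℝ) : ℂ)) -
        (if ψ ∈ X then ((Real.log (1 / (s - 1)) : ℝ) : ℂ) else 0))‖ ≤ C := by
    intro ψ
    by_cases hψ : ψ ∈ X
    · refine ⟨Cm, ?_⟩
      filter_upwards [hCm] with s hs
      rw [norm_mul, AddChar.norm_apply, one_mul, if_pos hψ]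
      have h1 : (∑' i, ψ (Additive.ofMul (cls i)) * ((N i ^ (-s) : ℝ) : ℂ)) =
          ((∑' i, N i ^ (-s) : ℝ) : ℂ) := by
        rw [Complex.ofReal_tsum]
        exact tsum_congr fun i => by rw [hX ψ hψ i, one_mul]
      rw [h1, ← Complex.ofReal_sub, Complex.norm_real, Real.norm_eq_abs]
      exact hs
    · obtain ⟨ℓ, hℓ, hl⟩ := hlim ψ hψ
      obtain ⟨C, hC⟩ := bounded_tsum_of_tendsto (c := fun i => ψ (Additive.ofMul (cls i))) hN
        (fun i => (AddChar.norm_apply ψ _).le) hsum hℓ hl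
      refine ⟨C, ?_⟩
      filter_upwards [hC] with s hs
      rw [norm_mul, AddChar.norm_apply, one_mul, if_neg hψ, sub_zero]
      exact hs
  choose Cψ hCψ using hchar
  have hcard : (Fintype.card G : ℂ) ≠ 0 := Nat.cast_ne_zero.mpr Fintype.card_ne_zero
  have hcard1 : (1 : ℝ) ≤ (Fintype.card G : ℝ) := by
    exact_mod_cast Fintype.card_pos
  refine ⟨∑ ψ : AddChar (Additive G) ℂ, Cψ ψ, ?_⟩
  filter_upwards [(Filter.eventually_all (l := 𝓝[>] (1 : ℝ))).mpr hCψ,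
    eventually_mem_nhdsWithin] with s hs hs1
  have hs1' : (1 : ℝ) < s := hs1
  have hkey : (Fintype.card G : ℂ) *
      (∑' i, (if cls i = a then ((N i ^ (-s) : ℝ) : ℂ) else 0) -
        (∑ ψ ∈ X, ψ (Additive.ofMul a⁻¹)) / (Fintype.card G : ℂ) *
          ((Real.log (1 / (s - 1)) : ℝ) : ℂ)) =
      ∑ ψ : AddChar (Additive G) ℂ, ψ (Additive.ofMul a⁻¹) *
        ((∑' i, ψ (Additive.ofMul (cls i)) * ((N i ^ (-s) : ℝ) : ℂ)) -
          (if ψ ∈ X then ((Real.log (1 / (s - 1)) : ℝ) : ℂ) else 0)) := by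
    simp_rw [mul_sub, Finset.sum_sub_distrib]
    rw [card_mul_tsum_class_eq (fun i => Real.rpow_nonneg (by linarith [hN i]) _)
      (hsum s hs1') cls a]
    congr 1
    · rw [← mul_assoc, mul_div_cancel₀ _ hcard, Finset.sum_mul]
      simp_rw [mul_ite, mul_zero]
      rw [Finset.sum_ite_mem, Finset.univ_inter]
  have hnorm : ‖(Fintype.card G : ℂ) *
      (∑' i, (if cls i = a then ((N i ^ (-s) : ℝ) : ℂ) else 0) -
        (∑ ψ ∈ X, ψ (Additive.ofMul a⁻¹)) / (Fintype.card G : ℂ) *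
          ((Real.log (1 / (s - 1)) : ℝ) : ℂ))‖ ≤ ∑ ψ : AddChar (Additive G) ℂ, Cψ ψ := by
    rw [hkey]
    exact (norm_sum_le _ _).trans (Finset.sum_le_sum fun ψ _ => hs ψ)
  rw [norm_mul, Complex.norm_natCast] at hnorm
  refine le_trans ?_ hnorm
  exact le_mul_of_one_le_left (norm_nonneg _) hcard1

theorem eventually_nhdsGT_one_iff {p : ℝ → Prop} :
    (∀ᶠ s in 𝓝[>] (1 : ℝ), p s) ↔ ∃ δ : ℝ, 0 < δ ∧ ∀ s : ℝ, 1 < s → s < 1 + δ → p s := by
  constructor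
  · intro h
    obtain ⟨u, hu, hsub⟩ := mem_nhdsGT_iff_exists_Ioo_subset.mp h
    have hu' : (1 : ℝ) < u := hu
    exact ⟨u - 1, sub_pos.mpr hu', fun s h1 h2 => hsub ⟨h1, by linarith⟩⟩
  · rintro ⟨δ, hδ, h⟩
    filter_upwards [Ioo_mem_nhdsGT (show (1 : ℝ) < 1 + δ by linarith)] with s hs
    exact h s hs.1 hs.2

/-- **Abstract Dirichlet step**, `δ`-form of `classSum_eventually_le`. -/
theorem classSum_bound
    (N : ι → ℝ) (hN : ∀ i, 2 ≤ N i)
    (hsum : ∀ s : ℝ, 1 < s → Summable (fun i => N i ^ (-s)))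
    (cls : ι → G)
    (X : Finset (AddChar (Additive G) ℂ))
    (hX : ∀ ψ ∈ X, ∀ i, ψ (Additive.ofMul (cls i)) = 1)
    (hmain : ∃ C δ : ℝ, 0 < δ ∧ ∀ s : ℝ, 1 < s → s < 1 + δ →
      |∑' i, N i ^ (-s) - Real.log (1 / (s - 1))| ≤ C)
    (hlim : ∀ ψ : AddChar (Additive G) ℂ, ψ ∉ X → ∃ ℓ : ℂ, ℓ ≠ 0 ∧
      Tendsto (fun s : ℝ => Complex.exp (∑' i,
        -Complex.log (1 - ψ (Additive.ofMul (cls i)) * ((N i ^ (-s) : ℝ) : ℂ))))
        (𝓝[>] 1) (𝓝 ℓ))
    (a : G) :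
    ∃ C δ : ℝ, 0 < δ ∧ ∀ s : ℝ, 1 < s → s < 1 + δ →
      ‖∑' i, (if cls i = a then ((N i ^ (-s) : ℝ) : ℂ) else 0) -
        (∑ ψ ∈ X, ψ (Additive.ofMul a⁻¹)) / (Fintype.card G : ℂ) *
          ((Real.log (1 / (s - 1)) : ℝ) : ℂ)‖ ≤ C := by
  obtain ⟨Cm, δm, hδm, hm⟩ := hmain
  obtain ⟨C, hC⟩ := classSum_eventually_le N hN hsum cls X hX
    ⟨Cm, eventually_nhdsGT_one_iff.mpr ⟨δm, hδm, hm⟩⟩ hlim a
  obtain ⟨δ, hδ, h⟩ := eventually_nhdsGT_one_iff.mp hC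
  exact ⟨C, δ, hδ, h⟩

/-- **Abstract Dirichlet step, equidistribution form**: if ALL nontrivial characters have an Euler
product tending to a nonzero limit at `1⁺`, every class gets `(1/|G|) log (1/(s-1)) + O(1)`
(real form). -/
theorem classSum_bound_of_nonvanishing
    (N : ι → ℝ) (hN : ∀ i, 2 ≤ N i)
    (hsum : ∀ s : ℝ, 1 < s → Summable (fun i => N i ^ (-s)))
    (cls : ι → G)
    (hmain : ∃ C δ : ℝ, 0 < δ ∧ ∀ s : ℝ, 1 < s → s < 1 + δ →
      |∑' i, N i ^ (-s) - Real.log (1 / (s - 1))| ≤ C)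
    (hlim : ∀ ψ : AddChar (Additive G) ℂ, ψ ≠ 0 → ∃ ℓ : ℂ, ℓ ≠ 0 ∧
      Tendsto (fun s : ℝ => Complex.exp (∑' i,
        -Complex.log (1 - ψ (Additive.ofMul (cls i)) * ((N i ^ (-s) : ℝ) : ℂ))))
        (𝓝[>] 1) (𝓝 ℓ))
    (a : G) :
    ∃ C δ : ℝ, 0 < δ ∧ ∀ s : ℝ, 1 < s → s < 1 + δ →
      |∑' i, (if cls i = a then N i ^ (-s) else 0) -
        1 / (Fintype.card G : ℝ) * Real.log (1 / (s - 1))| ≤ C := by
  classical
  obtain ⟨C, δ, hδ, h⟩ := classSum_bound N hN hsum cls {0}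
    (fun ψ hψ i => by rw [Finset.mem_singleton.mp hψ]; rfl) hmain
    (fun ψ hψ => hlim ψ (fun h0 => hψ (Finset.mem_singleton.mpr h0))) a
  refine ⟨C, δ, hδ, fun s h1 h2 => ?_⟩
  have h3 := h s h1 h2
  have h4 : (∑' i, (if cls i = a then ((N i ^ (-s) : ℝ) : ℂ) else 0)) =
      ((∑' i, (if cls i = a then N i ^ (-s) else 0) : ℝ) : ℂ) := by
    rw [Complex.ofReal_tsum]
    exact tsum_congr fun i => by split_ifs <;> simp
  have h5 : (∑ ψ ∈ ({0} : Finset (AddChar (Additive G) ℂ)), ψ (Additive.ofMul a⁻¹)) = 1 := by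
    rw [Finset.sum_singleton]; rfl
  rw [h4, h5] at h3
  have h6 : (1 : ℂ) / (Fintype.card G : ℂ) * ((Real.log (1 / (s - 1)) : ℝ) : ℂ) =
      ((1 / (Fintype.card G : ℝ) * Real.log (1 / (s - 1)) : ℝ) : ℂ) := by
    push_cast; ring
  rw [h6, ← Complex.ofReal_sub, Complex.norm_real, Real.norm_eq_abs] at h3
  exact h3

end ClassSum

end Fermat.Agent.DS.N8b
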