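/-
NEXT-GATE / S48-(N8b) NONVANISH (helper61; statement (2) of helper99's plan, board 3309).

Abstract over `GC/RaySI`: for a `PhiData m G` with the counting hypothesis `CountHyp D` (equal
density of all fibres, power-saving error) and a LOWER bound for the primes killed by `phi`
(`hlow`: `log (1/(s-1)) - c ≤ |G| ∑_{𝔭 ∈ T} N𝔭^(-s)` for a suitable finite set `T` of good primes,
for every `s` near `1⁺`), all the `L`-series `L(s,ψ) = ∑ ψ(phi I) N I^(-s)`, `ψ ≠ 0`, are bounded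
BELOW in absolute value near `1⁺`.

Proof.  `∏_ψ ‖L(s,ψ)‖ = exp (∑_𝔭 locSum) ≥ exp (|G| ∑_T N𝔭^(-s)) ≥ e^(-c)/(s-1)`, while
`‖L(s,0)‖ ≤ ζ_K(s) ≤ 2ρ/(s-1)` and `‖L(s,ψ)‖ ≤ M` for `ψ ≠ 0` (`norm_tsum_fch_le`).
-/
import Fermat.Agent.GC.RaySI.RayZeta
import Fermat.Agent.S14.SIan.MainAux

set_option autoImplicit false

open NumberField nonZeroDivisors IsDedekindDomain

namespace Fermat.Agent.DS.N8b

open Fermat.Agent.GC.RaySI Fermat.Agent.S14.SIan Fermat.Agent.S14.NonSplit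

variable {K : Type*} [Field K] [NumberField K]
variable {m : Ideal (𝓞 K)} {G : Type*} [CommGroup G] [Fintype G] (D : PhiData m G)

/-- The `L`-series of the trivial character is at most `2ρ/(s-1)` near `1⁺`. -/
theorem exists_norm_tsum_fch_zero_le :
    ∃ δ : ℝ, 0 < δ ∧ ∀ s : ℝ, 1 < s → s < 1 + δ →
      ‖∑' I, fch D (0 : AddChar (Additive G) ℂ) s I‖ ≤ 2 * dedekindZeta_residue K / (s - 1) := by
  obtain ⟨δ, hδ, hz⟩ := exists_zetaR_bounds K
  refine ⟨δ, hδ, fun s hs hsδ => ?_⟩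
  have h1 := norm_tsum_fch_zero_le D hs
  have h2 : ∑' I, nrm K s I ≤ zetaR K s := tsum_nonZeroDivisors_le_zetaR K hs
  have h3 := (hz s hs hsδ).2
  have hs0 : 0 < s - 1 := by linarith
  have h4 : zetaR K s ≤ 2 * dedekindZeta_residue K / (s - 1) := by
    rw [le_div_iff₀ hs0]
    linarith
  exact h1.trans (h2.trans h4)

/-- **Nonvanishing at `1⁺`**: under the counting hypothesis and the lower bound `hlow` for the
primes killed by `phi`, the `L`-series of the nontrivial characters are bounded below near `1⁺`. -/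
theorem exists_le_norm_tsum_fch (hC : CountHyp D)
    (hlow : ∃ c δ : ℝ, 0 < δ ∧ ∀ s : ℝ, 1 < s → s < 1 + δ → ∃ T : Finset (Ideal (𝓞 K)),
      (∀ 𝔭 ∈ T, 𝔭.IsPrime ∧ IsGoodPrime D 𝔭) ∧
      Real.log (1 / (s - 1)) - c ≤
        (Fintype.card G : ℝ) * ∑ 𝔭 ∈ T, (Ideal.absNorm 𝔭 : ℝ) ^ (-s)) :
    ∃ c' δ' : ℝ, 0 < c' ∧ 0 < δ' ∧ ∀ s : ℝ, 1 < s → s < 1 + δ' →
      ∀ ψ : AddChar (Additive G) ℂ, ψ ≠ 0 → c' ≤ ‖∑' I, fch D ψ s I‖ := by
  classical
  obtain ⟨c, δ, hδ, hlow⟩ := hlow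
  obtain ⟨δ₁, hδ₁, hzero⟩ := exists_norm_tsum_fch_zero_le D
  obtain ⟨B₀, hB₀⟩ := fibZeta_sub_le D hC
  set ρ : ℝ := dedekindZeta_residue K with hρ
  have hρpos : 0 < ρ := dedekindZeta_residue_pos K
  set M : ℝ := max 1 ((Fintype.card G : ℝ) * B₀) with hM
  have hM1 : 1 ≤ M := le_max_left _ _
  have hM0 : 0 < M := lt_of_lt_of_le one_pos hM1
  set N : ℕ := Fintype.card (AddChar (Additive G) ℂ) with hN
  have hden : 0 < 2 * ρ * M ^ N := by positivity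
  refine ⟨Real.exp (-c) / (2 * ρ * M ^ N), min δ (min δ₁ 1), by positivity,
    lt_min hδ (lt_min hδ₁ one_pos), fun s hs hsδ ψ₀ hψ₀ => ?_⟩
  have hsδ0 : s < 1 + δ := lt_of_lt_of_le hsδ (by gcongr; exact min_le_left _ _)
  have hsδ1 : s < 1 + δ₁ :=
    lt_of_lt_of_le hsδ (by gcongr; exact (min_le_right _ _).trans (min_le_left _ _))
  have hs2 : s ≤ 2 := by
    have : s < 1 + 1 :=
      lt_of_lt_of_le hsδ (by gcongr; exact (min_le_right _ _).trans (min_le_right _ _))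
    linarith
  have hs0 : 0 < s - 1 := by linarith
  -- the product of all `‖L(s,ψ)‖` from below
  obtain ⟨T, hT, hTlow⟩ := hlow s hs hsδ0
  have h1 := card_mul_sum_le_tsum_locSum D hs T hT
  have h2 := prod_norm_tsum_fch_eq D hs
  have hlowP : Real.exp (-c) / (s - 1) ≤ ∏ ψ : AddChar (Additive G) ℂ, ‖∑' I, fch D ψ s I‖ := by
    rw [h2]
    have h3 : Real.exp (Real.log (1 / (s - 1)) - c) ≤ Real.exp (∑' 𝔭, locSum D s 𝔭) :=
      Real.exp_le_exp.mpr (hTlow.trans h1)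
    have h4 : Real.exp (Real.log (1 / (s - 1)) - c) = Real.exp (-c) / (s - 1) := by
      rw [sub_eq_add_neg, Real.exp_add, Real.exp_log (by positivity)]
      field_simp
    rwa [h4] at h3
  -- the product from above
  set E : Finset (AddChar (Additive G) ℂ) := (Finset.univ.erase ψ₀).erase 0 with hE
  have h0mem : (0 : AddChar (Additive G) ℂ) ∈ Finset.univ.erase ψ₀ :=
    Finset.mem_erase.mpr ⟨fun h => hψ₀ h.symm, Finset.mem_univ _⟩
  have hsplit : ∏ ψ : AddChar (Additive G) ℂ, ‖∑' I, fch D ψ s I‖ =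
      ‖∑' I, fch D ψ₀ s I‖ * (‖∑' I, fch D 0 s I‖ * ∏ ψ ∈ E, ‖∑' I, fch D ψ s I‖) := by
    rw [← Finset.mul_prod_erase Finset.univ (fun ψ : AddChar (Additive G) ℂ =>
      ‖∑' I, fch D ψ s I‖) (Finset.mem_univ ψ₀),
      ← Finset.mul_prod_erase (Finset.univ.erase ψ₀) (fun ψ : AddChar (Additive G) ℂ =>
      ‖∑' I, fch D ψ s I‖) h0mem]
  have hEle : ∏ ψ ∈ E, ‖∑' I, fch D ψ s I‖ ≤ M ^ N := by
    have h5 : ∏ ψ ∈ E, ‖∑' I, fch D ψ s I‖ ≤ M ^ E.card := by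
      rw [← Finset.prod_const]
      refine Finset.prod_le_prod (fun ψ _ => norm_nonneg _) fun ψ hψ => ?_
      have hψ0 : ψ ≠ 0 := (Finset.mem_erase.mp hψ).1
      exact (norm_tsum_fch_le D hψ0 hs (hB₀ s hs hs2)).trans (le_max_right _ _)
    refine h5.trans (pow_le_pow_right₀ hM1 ?_)
    exact (Finset.card_le_univ E)
  have hE0 : 0 ≤ ∏ ψ ∈ E, ‖∑' I, fch D ψ s I‖ := Finset.prod_nonneg fun ψ _ => norm_nonneg _
  have hz := hzero s hs hsδ1
  have hupper : ∏ ψ : AddChar (Additive G) ℂ, ‖∑' I, fch D ψ s I‖ ≤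
      ‖∑' I, fch D ψ₀ s I‖ * (2 * ρ / (s - 1) * M ^ N) := by
    rw [hsplit]
    refine mul_le_mul_of_nonneg_left ?_ (norm_nonneg _)
    exact mul_le_mul hz hEle hE0 (by positivity)
  -- conclusion
  have hfin : Real.exp (-c) / (s - 1) ≤ ‖∑' I, fch D ψ₀ s I‖ * (2 * ρ / (s - 1) * M ^ N) :=
    hlowP.trans hupper
  rw [div_le_iff₀ hden]
  have h6 : ‖∑' I, fch D ψ₀ s I‖ * (2 * ρ / (s - 1) * M ^ N) =
      ‖∑' I, fch D ψ₀ s I‖ * (2 * ρ * M ^ N) / (s - 1) := by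
    field_simp
  rw [h6, div_le_div_iff_of_pos_right hs0] at hfin
  exact hfin

end Fermat.Agent.DS.N8b
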