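/-
NEXT-GATE / S48-(N8b)-(B6), concrete part (helper24): the abelian Chebotarev lower bound.

(A) RaySI level.  `D : PhiData 𝔪 G` (GC/RaySI), `𝔪 ≠ ⊥`, `CountHyp D`, and the lower bound `hlow`
for the primes killed by `phi` (shape of helper61 `RayNonvanish`).  Index the primes of `K` coprime
to `𝔪` by `CopPrime 𝔪`; then for every class `a : G`
  `∑'_{𝔭 coprime to 𝔪, phi 𝔭 = a} N𝔭^(-s) = (1/#G) log (1/(s-1)) + O(1)`  (`exists_classSum_bound`).
Inputs: `ClassSumAbs.classSum_bound_of_nonvanishing` (abstract Dirichlet step), helper98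
`exists_tendsto_tsum_fch` (limit of `L(s,ψ)` at `1⁺`), helper61 `exists_le_norm_tsum_fch`
(the limit is nonzero), `S14.SIan.euler_exp_log` (Euler product in exp-log form),
`S14.NonSplit.exp_sum_le_zetaR` + `GJ.FrobLeaf.primeSum_two_sided` (main term).

(B) = `DS/N8b/AbelianCheb.lean` (`abelianCheb_lower`, the interface (IF-4) of helper55, board 3363).
-/
import Mathlib
import Fermat.Agent.DS.N8b.ClassSumAbs
import Fermat.Agent.DS.N8b.RayNonvanish
import Fermat.Agent.DS.N8b.RayPartialSum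
import Fermat.Agent.GC.RaySI.RayMain
import Fermat.Agent.GJ.Frob.PrimeSumBounds
import Fermat.Agent.S14.NonSplit.Upper

set_option autoImplicit false
set_option linter.style.haveILetI false

open NumberField nonZeroDivisors IsDedekindDomain Filter Topology

namespace Fermat.Agent.DS.N8b.CycDensity

open Fermat.Agent.GC.RaySI Fermat.Agent.S14.SIan Fermat.Agent.S14.NonSplit
open Fermat.Agent.GJ.FrobLeaf Fermat.Agent.DS.N8b

section RayLevel

variable {K : Type*} [Field K] [NumberField K]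
variable {m : Ideal (𝓞 K)} {G : Type*} [CommGroup G] [Fintype G] [DecidableEq G]
  (D : PhiData m G)

variable (m) in
/-- The primes of `K` coprime to `m`. -/
abbrev CopPrime : Type _ := {𝔭 : HeightOneSpectrum (𝓞 K) // Cop m (primeIdeal0 K 𝔭)}

/-- The underlying ideal of a prime coprime to `m`. -/
def CopPrime.ideal (𝔭 : CopPrime m) : Ideal (𝓞 K) := 𝔭.1.asIdeal

omit [NumberField K] in
theorem CopPrime.ideal_injective : Function.Injective (CopPrime.ideal (m := m)) := by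
  intro a b h
  exact Subtype.ext (HeightOneSpectrum.ext h)

/-- The absolute norm of a prime coprime to `m`, as a real number. -/
noncomputable def pN (𝔭 : CopPrime m) : ℝ := (Ideal.absNorm 𝔭.ideal : ℝ)

/-- The class of a prime coprime to `m`. -/
noncomputable def pcls (𝔭 : CopPrime m) : G := D.phi (primeIdeal0 K 𝔭.1)

theorem two_le_pN (𝔭 : CopPrime m) : 2 ≤ pN 𝔭 := by
  unfold pN CopPrime.ideal
  exact_mod_cast two_le_absNorm 𝔭.1.isPrime 𝔭.1.ne_bot

theorem summable_pN {s : ℝ} (hs : 1 < s) : Summable (fun 𝔭 : CopPrime m => pN 𝔭 ^ (-s)) := by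
  have h := (summable_nrm K hs).comp_injective (i := fun 𝔭 : CopPrime m => primeIdeal0 K 𝔭.1) (by
    intro a b h
    exact Subtype.ext (HeightOneSpectrum.ext (congrArg Subtype.val h)))
  exact h

theorem pN_rpow_nonneg (s : ℝ) (𝔭 : CopPrime m) : 0 ≤ pN 𝔭 ^ (-s) :=
  Real.rpow_nonneg (Nat.cast_nonneg _) _

/-- finite sums over a set of coprime primes given as ideals -/
theorem sum_le_tsum_pN {s : ℝ} (hs : 1 < s) (T : Finset (Ideal (𝓞 K)))
    (hT : ∀ P ∈ T, P.IsPrime ∧ P ≠ ⊥ ∧ IsCoprime P m) :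
    ∑ P ∈ T, (Ideal.absNorm P : ℝ) ^ (-s) ≤ ∑' 𝔭 : CopPrime m, pN 𝔭 ^ (-s) := by
  have hrange : ∀ P ∈ T, P ∈ Set.range (CopPrime.ideal (m := m)) := by
    intro P hP
    obtain ⟨hPp, hP0, hc⟩ := hT P hP
    exact ⟨⟨⟨P, hPp, hP0⟩, hc⟩, rfl⟩
  rw [← Finset.sum_preimage CopPrime.ideal T CopPrime.ideal_injective.injOn
    (fun P => (Ideal.absNorm P : ℝ) ^ (-s)) (fun P hP hnr => absurd (hrange P hP) hnr)]
  exact (summable_pN hs).sum_le_tsum _ (fun 𝔭 _ => pN_rpow_nonneg s 𝔭)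

/-- **Main term**: the sum over all primes coprime to `m` is `log (1/(s-1)) + O(1)`. -/
theorem exists_tsum_pN_bound (hm : m ≠ ⊥) :
    ∃ C δ : ℝ, 0 < δ ∧ ∀ s : ℝ, 1 < s → s < 1 + δ →
      |∑' 𝔭 : CopPrime m, pN 𝔭 ^ (-s) - Real.log (1 / (s - 1))| ≤ C := by
  classical
  obtain ⟨δ, hδ, C, hC⟩ := primeSum_two_sided K
  obtain ⟨δ₂, hδ₂, hz⟩ := exists_zetaR_bounds K
  set ρ := dedekindZeta_residue K with hρdef
  have hρ : 0 < ρ := dedekindZeta_residue_pos K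
  set nb : ℝ := ((badIdeals K m).card : ℝ) with hnb
  refine ⟨max (Real.log (2 * ρ) + zetaR K 2) (C + nb), min δ δ₂, lt_min hδ hδ₂,
    fun s hs1 hs2 => ?_⟩
  have hsδ : s < 1 + δ := lt_of_lt_of_le hs2 (by linarith [min_le_left δ δ₂])
  have hsδ₂ : s < 1 + δ₂ := lt_of_lt_of_le hs2 (by linarith [min_le_right δ δ₂])
  have hs0 : 0 < s - 1 := by linarith
  have hinv : 0 < 1 / (s - 1) := by positivity
  have hsnn : 0 ≤ s := by linarith
  rw [abs_le]
  constructor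
  · -- lower bound
    obtain ⟨X₀, hX₀⟩ := (hC s hs1 hsδ).2
    have hlow := hX₀ X₀ le_rfl
    set T : Finset (Ideal (𝓞 K)) := (degOnePrimes K X₀).filter (fun P => IsCoprime P m) with hT
    have hterm1 : ∀ P : Ideal (𝓞 K), (Ideal.absNorm P : ℝ) ^ (-s) ≤ 1 := fun P =>
      natCast_rpow_neg_le_one _ hsnn
    have hsplit : primeSum K X₀ s = ∑ P ∈ T, (Ideal.absNorm P : ℝ) ^ (-s) +
        ∑ P ∈ (degOnePrimes K X₀).filter (fun P => ¬ IsCoprime P m),
          (Ideal.absNorm P : ℝ) ^ (-s) :=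
      (Finset.sum_filter_add_sum_filter_not (degOnePrimes K X₀) _ _).symm
    have hbadsub : (degOnePrimes K X₀).filter (fun P => ¬ IsCoprime P m) ⊆ badIdeals K m := by
      intro P hP
      rw [Finset.mem_filter] at hP
      obtain ⟨h1, h2⟩ := hP
      haveI : P.IsPrime := (mem_degOnePrimes.mp h1).1
      exact mem_badIdeals_of_not_cop hm (ne_bot_of_mem_degOnePrimes h1) h2
    have hbad : ∑ P ∈ (degOnePrimes K X₀).filter (fun P => ¬ IsCoprime P m),
        (Ideal.absNorm P : ℝ) ^ (-s) ≤ nb := by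
      calc ∑ P ∈ (degOnePrimes K X₀).filter (fun P => ¬ IsCoprime P m),
            (Ideal.absNorm P : ℝ) ^ (-s)
          ≤ ∑ _P ∈ (degOnePrimes K X₀).filter (fun P => ¬ IsCoprime P m), (1 : ℝ) :=
            Finset.sum_le_sum fun P _ => hterm1 P
        _ = (((degOnePrimes K X₀).filter (fun P => ¬ IsCoprime P m)).card : ℝ) := by simp
        _ ≤ nb := by
            rw [hnb]
            exact_mod_cast Finset.card_le_card hbadsub
    have h2 : ∑ P ∈ T, (Ideal.absNorm P : ℝ) ^ (-s) ≤ ∑' 𝔭 : CopPrime m, pN 𝔭 ^ (-s) := by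
      refine sum_le_tsum_pN hs1 T fun P hP => ?_
      obtain ⟨h1, hc⟩ := Finset.mem_filter.mp hP
      exact ⟨(mem_degOnePrimes.mp h1).1, ne_bot_of_mem_degOnePrimes h1, hc⟩
    have := le_max_right (Real.log (2 * ρ) + zetaR K 2) (C + nb)
    linarith
  · -- upper bound
    obtain ⟨hzlo, hzhi⟩ := hz s hs1 hsδ₂
    have hzpos : 0 < zetaR K s := by
      by_contra hneg
      have : (s - 1) * zetaR K s ≤ 0 :=
        mul_nonpos_of_nonneg_of_nonpos hs0.le (not_lt.mp hneg)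
      linarith
    have h1 : ∑' 𝔭 : CopPrime m, pN 𝔭 ^ (-s) ≤ Real.log (zetaR K s) + zetaR K 2 := by
      refine (summable_pN hs1).tsum_le_of_sum_le fun S => ?_
      have h1 : ∑ 𝔭 ∈ S, pN 𝔭 ^ (-s) =
          ∑ P ∈ S.image CopPrime.ideal, (Ideal.absNorm P : ℝ) ^ (-s) :=
        (Finset.sum_image (f := fun P : Ideal (𝓞 K) => (Ideal.absNorm P : ℝ) ^ (-s))
          (fun a _ b _ h => CopPrime.ideal_injective h)).symm
      rw [h1]
      have h2 := exp_sum_le_zetaR K hs1 (S.image CopPrime.ideal) (by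
        intro P hP
        obtain ⟨𝔭, -, rfl⟩ := Finset.mem_image.mp hP
        exact ⟨𝔭.1.isPrime, 𝔭.1.ne_bot⟩)
      have h3 := Real.log_le_log (Real.exp_pos _) h2
      rw [Real.log_exp, Real.log_mul hzpos.ne' (Real.exp_pos _).ne', Real.log_exp] at h3
      exact h3
    have h2 : zetaR K s ≤ 2 * ρ * (1 / (s - 1)) := by
      rw [mul_one_div, le_div_iff₀ hs0]
      linarith
    have h3 : Real.log (zetaR K s) ≤ Real.log (2 * ρ) + Real.log (1 / (s - 1)) := by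
      rw [← Real.log_mul (by positivity) hinv.ne']
      exact Real.log_le_log hzpos h2
    have := le_max_left (Real.log (2 * ρ) + zetaR K 2) (C + nb)
    linarith

omit [DecidableEq G] in
/-- The sum of logarithms over the coprime primes is the Euler-product logarithm of `fch`. -/
theorem tsum_logTerm_eq (ψ : AddChar (Additive G) ℂ) (s : ℝ) :
    ∑' 𝔭 : CopPrime m,
        -Complex.log (1 - ψ (Additive.ofMul (pcls D 𝔭)) * ((pN 𝔭 ^ (-s) : ℝ) : ℂ)) =
      ∑' 𝔭 : HeightOneSpectrum (𝓞 K), -Complex.log (1 - fch D ψ s (primeIdeal0 K 𝔭)) := by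
  have hsupp : Function.support (fun 𝔭 : HeightOneSpectrum (𝓞 K) =>
      -Complex.log (1 - fch D ψ s (primeIdeal0 K 𝔭))) ⊆ {𝔭 | Cop m (primeIdeal0 K 𝔭)} := by
    intro 𝔭 h𝔭
    by_contra hn
    apply h𝔭
    have hn' : ¬ Cop m (primeIdeal0 K 𝔭) := hn
    simp only [fch_of_not_cop D ψ s hn', sub_zero, Complex.log_one, neg_zero]
  have h := tsum_subtype_eq_of_support_subset hsupp
  rw [← h]
  refine tsum_congr fun 𝔭 => ?_
  have h𝔭 : Cop m (primeIdeal0 K 𝔭.1) := 𝔭.2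
  rw [fch_of_cop D ψ s h𝔭]
  rfl

omit [DecidableEq G] in
variable {D} in
/-- **`hlim`**: for `ψ ≠ 0` the Euler product (exp-log form over the coprime primes) tends to a
nonzero limit at `1⁺`. -/
theorem exists_tendsto_exp_logTerm (hC : CountHyp D)
    (hlow : ∃ c δ : ℝ, 0 < δ ∧ ∀ s : ℝ, 1 < s → s < 1 + δ → ∃ T : Finset (Ideal (𝓞 K)),
      (∀ 𝔭 ∈ T, 𝔭.IsPrime ∧ IsGoodPrime D 𝔭) ∧
      Real.log (1 / (s - 1)) - c ≤
        (Fintype.card G : ℝ) * ∑ 𝔭 ∈ T, (Ideal.absNorm 𝔭 : ℝ) ^ (-s))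
    {ψ : AddChar (Additive G) ℂ} (hψ : ψ ≠ 0) :
    ∃ ℓ : ℂ, ℓ ≠ 0 ∧ Tendsto (fun s : ℝ => Complex.exp (∑' 𝔭 : CopPrime m,
      -Complex.log (1 - ψ (Additive.ofMul (pcls D 𝔭)) * ((pN 𝔭 ^ (-s) : ℝ) : ℂ))))
      (𝓝[>] 1) (𝓝 ℓ) := by
  obtain ⟨l, hl⟩ := exists_tendsto_tsum_fch D hC hψ
  obtain ⟨c', δ', hc', hδ', hge⟩ := exists_le_norm_tsum_fch D hC hlow
  refine ⟨l, ?_, ?_⟩
  · have h1 : Tendsto (fun s : ℝ => ‖∑' I, fch D ψ s I‖) (𝓝[>] 1) (𝓝 ‖l‖) := hl.norm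
    have h2 : ∀ᶠ s in 𝓝[>] (1 : ℝ), c' ≤ ‖∑' I, fch D ψ s I‖ := by
      filter_upwards [Ioo_mem_nhdsGT (show (1 : ℝ) < 1 + δ' by linarith)] with s hs
      exact hge s hs.1 hs.2 ψ hψ
    have h3 : c' ≤ ‖l‖ := ge_of_tendsto h1 h2
    intro h0
    rw [h0, norm_zero] at h3
    linarith
  · refine hl.congr' ?_
    filter_upwards [self_mem_nhdsWithin] with s hs
    have hs' : (1 : ℝ) < s := hs
    rw [tsum_logTerm_eq D ψ s]
    exact ((euler_exp_log K (fch D ψ s) (summable_norm_fch D ψ hs')).2).symm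

variable {D} in
/-- **(A)** every class of `G` carries `(1/#G) log (1/(s-1)) + O(1)` of the prime sum. -/
theorem exists_classSum_bound (hm : m ≠ ⊥) (hC : CountHyp D)
    (hlow : ∃ c δ : ℝ, 0 < δ ∧ ∀ s : ℝ, 1 < s → s < 1 + δ → ∃ T : Finset (Ideal (𝓞 K)),
      (∀ 𝔭 ∈ T, 𝔭.IsPrime ∧ IsGoodPrime D 𝔭) ∧
      Real.log (1 / (s - 1)) - c ≤
        (Fintype.card G : ℝ) * ∑ 𝔭 ∈ T, (Ideal.absNorm 𝔭 : ℝ) ^ (-s))
    (a : G) :
    ∃ C δ : ℝ, 0 < δ ∧ ∀ s : ℝ, 1 < s → s < 1 + δ →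
      |∑' 𝔭 : CopPrime m, (if pcls D 𝔭 = a then pN 𝔭 ^ (-s) else 0) -
        1 / (Fintype.card G : ℝ) * Real.log (1 / (s - 1))| ≤ C :=
  classSum_bound_of_nonvanishing pN two_le_pN (fun _ hs => summable_pN hs) (pcls D)
    (exists_tsum_pN_bound hm) (fun _ hψ => exists_tendsto_exp_logTerm hC hlow hψ) a

end RayLevel

end Fermat.Agent.DS.N8b.CycDensity
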