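/-
NEXT-GATE / S48-(N8b)-(B6), final part (helper24): `abelianCheb_lower` = the interface (IF-4) of
helper55 (board 3363) between the analytic side and the crossing argument.

For a norm-compatible `(M/F, κ)` (helper99 `NormCompat.IsNormCompat`) with `κ` injective and
`g : Gal(M/F)`: for `s → 1⁺` there are finite sets `T` of degree one primes `q` of `F`, each with a
prime `Q | q` of `M` with trivial inertia and Frobenius EXACTLY `g`, such that
  `(1/[M:F]) log (1/(s-1)) - C ≤ ∑_{q ∈ T} N q^(-s)`.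

Steps: `CycDensity.exists_classSum_bound` for `D = NormPM.phiN F m` (every class of `GN` carries
`1/#GN` of the prime sum); `#GN = [M:F]` (`≥`: helper99 `finrank_le_card_GN`; `≤`: the primes which
split completely have density `1/[M:F]` and sit in the class `1`); the dictionary
`Frob_Q = g ↔ iotaN (phiN q) = κ g`; removal of the ramified and of the non degree one primes.
-/
import Mathlib
import Fermat.Agent.DS.N8b.CycDensity
import Fermat.Agent.DS.N8b.NormCompat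
import Fermat.Agent.S14.NonSplit.Lower

set_option autoImplicit false
set_option linter.style.haveILetI false

open NumberField nonZeroDivisors IsDedekindDomain Filter Topology

namespace Fermat.Agent.DS.N8b.AbelianCheb

open Fermat.Agent.GC.RaySI Fermat.Agent.S14 Fermat.Agent.S14.CR Fermat.Agent.S14.SIan
open Fermat.Agent.S14.NonSplit
open Fermat.Agent.DS.N8b.NormPM Fermat.Agent.GJ.Frob Fermat.Agent.GJ.FrobLeaf
open Fermat.Agent.DS.N8b.NormCompat Fermat.Agent.DS.N8b.CycDensity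

section RayLevel

variable {K : Type*} [Field K] [NumberField K]
variable {m : Ideal (𝓞 K)} {G : Type*} [CommGroup G] [Fintype G] [DecidableEq G]
  (D : PhiData m G)

/-- `P` is a nonzero ideal coprime to `m` of class `a` (`IsGoodPrime D P` is the case `a = 1`). -/
def InClass (a : G) (P : Ideal (𝓞 K)) : Prop :=
  ∃ h : P ≠ ⊥, Cop m ⟨P, mem_nonZeroDivisors_of_ne_zero h⟩ ∧
    D.phi ⟨P, mem_nonZeroDivisors_of_ne_zero h⟩ = a

omit [Fintype G] in
theorem summable_class {s : ℝ} (hs : 1 < s) (a : G) :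
    Summable (fun 𝔭 : CopPrime m => if pcls D 𝔭 = a then pN 𝔭 ^ (-s) else 0) := by
  refine Summable.of_nonneg_of_le (fun 𝔭 => ?_) (fun 𝔭 => ?_) (summable_pN (m := m) hs)
  · split_ifs
    · exact pN_rpow_nonneg s 𝔭
    · exact le_rfl
  · split_ifs
    · exact le_rfl
    · exact pN_rpow_nonneg s 𝔭

omit [Fintype G] in
/-- finite sums over primes of class `a`, given as ideals, are below the class sum. -/
theorem sum_le_tsum_class {s : ℝ} (hs : 1 < s) (a : G) (T : Finset (Ideal (𝓞 K)))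
    (hT : ∀ P ∈ T, P.IsPrime ∧ InClass D a P) :
    ∑ P ∈ T, (Ideal.absNorm P : ℝ) ^ (-s) ≤
      ∑' 𝔭 : CopPrime m, (if pcls D 𝔭 = a then pN 𝔭 ^ (-s) else 0) := by
  have hrange : ∀ P ∈ T, P ∈ Set.range (CopPrime.ideal (m := m)) := by
    intro P hP
    obtain ⟨hPp, h0, hc, -⟩ := hT P hP
    exact ⟨⟨⟨P, hPp, h0⟩, hc⟩, rfl⟩
  rw [← Finset.sum_preimage (CopPrime.ideal (m := m)) T CopPrime.ideal_injective.injOn
    (fun P => (Ideal.absNorm P : ℝ) ^ (-s)) (fun P hP hnr => absurd (hrange P hP) hnr)]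
  have hcongr : ∑ 𝔭 ∈ T.preimage (CopPrime.ideal (m := m)) CopPrime.ideal_injective.injOn,
      (Ideal.absNorm 𝔭.ideal : ℝ) ^ (-s) =
      ∑ 𝔭 ∈ T.preimage (CopPrime.ideal (m := m)) CopPrime.ideal_injective.injOn,
        (if pcls D 𝔭 = a then pN 𝔭 ^ (-s) else 0) := by
    refine Finset.sum_congr rfl fun 𝔭 h𝔭 => ?_
    rw [Finset.mem_preimage] at h𝔭
    obtain ⟨-, h0, -, hphi⟩ := hT _ h𝔭
    have h1 : pcls D 𝔭 = a := hphi
    rw [if_pos h1]
    rfl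
  rw [hcongr]
  refine (summable_class D hs a).sum_le_tsum _ (fun 𝔭 _ => ?_)
  split_ifs
  · exact pN_rpow_nonneg s 𝔭
  · exact le_rfl

end RayLevel

section NormCompatLevel

variable {F M : Type*} [Field F] [NumberField F] [Field M] [NumberField M] [Algebra F M]
  [IsGalois F M] {m : ℕ}

/-- helper99's `exists_hlow` with the constant `[M:F]` instead of `#GN` (same proof). -/
theorem exists_hlow_finrank [NeZero m] {κ : (M ≃ₐ[F] M) →* GammaPM m}
    (hκ : IsNormCompat F M m κ) :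
    ∃ c δ : ℝ, 0 < δ ∧ ∀ s : ℝ, 1 < s → s < 1 + δ →
      ∃ T : Finset (Ideal (𝓞 F)), (∀ 𝔭 ∈ T, 𝔭.IsPrime ∧ IsGoodPrime (phiN F m) 𝔭) ∧
        Real.log (1 / (s - 1)) - c ≤
          (Module.finrank F M : ℝ) * ∑ 𝔭 ∈ T, (Ideal.absNorm 𝔭 : ℝ) ^ (-s) := by
  classical
  obtain ⟨δ, hδ, C, hC⟩ := primeSum_two_sided M
  set d : ℝ := (Module.finrank F M : ℝ) with hd
  set nb : ℝ := ((badIdeals F (modIdeal F m)).card : ℝ) with hnb
  refine ⟨C + numRamified F M + d * nb, δ, hδ, fun s hs1 hs2 => ?_⟩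
  obtain ⟨X₀, hX₀⟩ := (hC s hs1 hs2).2
  have hs0 : 0 ≤ s := by linarith
  set T' : Finset (Ideal (𝓞 F)) := (degOnePrimes F X₀).filter (fun 𝔭 => SplitIn F M 𝔭) with hT'
  have hT'mem : ∀ 𝔭, 𝔭 ∈ T' ↔ 𝔭 ∈ degOnePrimes F X₀ ∧ SplitIn F M 𝔭 := by
    intro 𝔭
    rw [hT', Finset.mem_filter]
  have hcmp := abs_finrank_mul_sum_sub_primeSum_le F M X₀ s hs0 T' hT'mem
  have hlow := hX₀ X₀ le_rfl
  set T : Finset (Ideal (𝓞 F)) := T'.filter (fun 𝔭 => IsCoprime 𝔭 (modIdeal F m)) with hT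
  have hterm1 : ∀ 𝔭 : Ideal (𝓞 F), (Ideal.absNorm 𝔭 : ℝ) ^ (-s) ≤ 1 := fun 𝔭 =>
    natCast_rpow_neg_le_one _ hs0
  have hsplit : ∑ 𝔭 ∈ T', (Ideal.absNorm 𝔭 : ℝ) ^ (-s) =
      ∑ 𝔭 ∈ T, (Ideal.absNorm 𝔭 : ℝ) ^ (-s) +
        ∑ 𝔭 ∈ T'.filter (fun 𝔭 => ¬ IsCoprime 𝔭 (modIdeal F m)),
          (Ideal.absNorm 𝔭 : ℝ) ^ (-s) :=
    (Finset.sum_filter_add_sum_filter_not T' _ _).symm
  have hbadsub : T'.filter (fun 𝔭 => ¬ IsCoprime 𝔭 (modIdeal F m)) ⊆
      badIdeals F (modIdeal F m) := by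
    intro 𝔭 h𝔭
    rw [Finset.mem_filter] at h𝔭
    obtain ⟨h1, h2⟩ := h𝔭
    have h3 := ((hT'mem 𝔭).mp h1).1
    haveI : 𝔭.IsPrime := (mem_degOnePrimes.mp h3).1
    exact mem_badIdeals_of_not_isCoprime F m (ne_bot_of_mem_degOnePrimes h3) h2
  have hbad : ∑ 𝔭 ∈ T'.filter (fun 𝔭 => ¬ IsCoprime 𝔭 (modIdeal F m)),
      (Ideal.absNorm 𝔭 : ℝ) ^ (-s) ≤ nb := by
    calc ∑ 𝔭 ∈ T'.filter (fun 𝔭 => ¬ IsCoprime 𝔭 (modIdeal F m)), (Ideal.absNorm 𝔭 : ℝ) ^ (-s)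
        ≤ ∑ _𝔭 ∈ T'.filter (fun 𝔭 => ¬ IsCoprime 𝔭 (modIdeal F m)), (1 : ℝ) :=
          Finset.sum_le_sum fun 𝔭 _ => hterm1 𝔭
      _ = ((T'.filter (fun 𝔭 => ¬ IsCoprime 𝔭 (modIdeal F m))).card : ℝ) := by simp
      _ ≤ nb := by
          rw [hnb]
          exact_mod_cast Finset.card_le_card hbadsub
  refine ⟨T, fun 𝔭 h𝔭 => ?_, ?_⟩
  · rw [hT, Finset.mem_filter] at h𝔭
    obtain ⟨h1, hc⟩ := h𝔭
    obtain ⟨h2, h3⟩ := (hT'mem 𝔭).mp h1
    exact ⟨(mem_degOnePrimes.mp h2).1,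
      isGoodPrime_of_splitIn hκ (ne_bot_of_mem_degOnePrimes h2) hc h3⟩
  · have hd0 : 0 ≤ d := by rw [hd]; exact Nat.cast_nonneg _
    have h1 : d * ∑ 𝔭 ∈ T', (Ideal.absNorm 𝔭 : ℝ) ^ (-s) ≥
        primeSum M X₀ s - numRamified F M := by
      have := (abs_le.mp hcmp).1
      linarith
    have h2 : d * ∑ 𝔭 ∈ T', (Ideal.absNorm 𝔭 : ℝ) ^ (-s) ≤
        d * ∑ 𝔭 ∈ T, (Ideal.absNorm 𝔭 : ℝ) ^ (-s) + d * nb := by
      rw [hsplit, mul_add]
      have := mul_le_mul_of_nonneg_left hbad hd0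
      linarith
    linarith

/-- **`#GN ≤ [M:F]`** (the reverse of helper99's `finrank_le_card_GN`): the completely split primes
have density `1/[M:F]` and lie in the class `1`, which has density `1/#GN`. -/
theorem card_GN_le_finrank [NeZero m] {κ : (M ≃ₐ[F] M) →* GammaPM m}
    (hκ : IsNormCompat F M m κ) (hinj : Function.Injective κ) :
    Fintype.card (GN F m) ≤ Module.finrank F M := by
  classical
  by_contra hlt
  rw [not_le] at hlt
  obtain ⟨c, δ₁, hδ₁, h1⟩ := exists_hlow_finrank hκ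
  obtain ⟨C, δ₂, hδ₂, h2⟩ := exists_classSum_bound (D := phiN F m) (modIdeal_ne_bot F m)
    (countHyp_phiN F m) (exists_hlow hκ hinj) 1
  set d : ℝ := (Module.finrank F M : ℝ) with hd
  set n : ℝ := (Fintype.card (GN F m) : ℝ) with hn
  have hdn : d < n := by rw [hd, hn]; exact_mod_cast hlt
  have hd0 : 0 ≤ d := by rw [hd]; exact Nat.cast_nonneg _
  have hn0 : 0 < n := lt_of_le_of_lt hd0 hdn
  set t : ℝ := 1 - d / n with ht
  have ht0 : 0 < t := by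
    rw [ht, sub_pos, div_lt_one hn0]
    exact hdn
  set K₀ : ℝ := (c + d * C) / t + 1 with hK₀
  set s : ℝ := 1 + min (min δ₁ δ₂ / 2) (Real.exp (-K₀)) with hs
  have hmin0 : 0 < min (min δ₁ δ₂ / 2) (Real.exp (-K₀)) :=
    lt_min (half_pos (lt_min hδ₁ hδ₂)) (Real.exp_pos _)
  have hs1 : 1 < s := by rw [hs]; linarith
  have hsδ : s - 1 ≤ min δ₁ δ₂ / 2 := by rw [hs]; simp
  have hsδ₁ : s < 1 + δ₁ := by
    have := min_le_left δ₁ δ₂
    have := lt_min hδ₁ hδ₂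
    linarith
  have hsδ₂ : s < 1 + δ₂ := by
    have := min_le_right δ₁ δ₂
    have := lt_min hδ₁ hδ₂
    linarith
  have hse : s - 1 ≤ Real.exp (-K₀) := by rw [hs]; simp
  have hs0 : 0 < s - 1 := by linarith
  -- `log (1/(s-1)) ≥ K₀`
  have hlog : K₀ ≤ Real.log (1 / (s - 1)) := by
    rw [Real.le_log_iff_exp_le (by positivity), one_div, le_inv_comm₀ (Real.exp_pos _) hs0,
      ← Real.exp_neg]
    exact hse
  obtain ⟨T, hT, hTsum⟩ := h1 s hs1 hsδ₁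
  have hcls := h2 s hs1 hsδ₂
  have hle : ∑ 𝔭 ∈ T, (Ideal.absNorm 𝔭 : ℝ) ^ (-s) ≤
      ∑' 𝔭 : CopPrime (modIdeal F m),
        (if pcls (phiN F m) 𝔭 = 1 then pN 𝔭 ^ (-s) else 0) :=
    sum_le_tsum_class (phiN F m) hs1 1 T (fun P hP => ⟨(hT P hP).1, (hT P hP).2⟩)
  have hup := (abs_le.mp hcls).2
  -- combine
  have h3 : Real.log (1 / (s - 1)) - c ≤
      d * (1 / n * Real.log (1 / (s - 1)) + C) := by
    refine hTsum.trans (mul_le_mul_of_nonneg_left ?_ hd0)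
    linarith
  have h4 : t * Real.log (1 / (s - 1)) ≤ c + d * C := by
    have : d * (1 / n * Real.log (1 / (s - 1)) + C) =
        d / n * Real.log (1 / (s - 1)) + d * C := by ring
    rw [this] at h3
    rw [ht]
    linarith
  have h5 : t * K₀ ≤ t * Real.log (1 / (s - 1)) := mul_le_mul_of_nonneg_left hlog ht0.le
  have h6 : t * K₀ = c + d * C + t := by
    rw [hK₀]
    field_simp
  linarith

/-- **`#GN = [M:F]`**. -/
theorem card_GN_eq_finrank [NeZero m] {κ : (M ≃ₐ[F] M) →* GammaPM m}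
    (hκ : IsNormCompat F M m κ) (hinj : Function.Injective κ) :
    Fintype.card (GN F m) = Module.finrank F M :=
  le_antisymm (card_GN_le_finrank hκ hinj) (finrank_le_card_GN hκ hinj)

/-- every `κ g` is the class of some element of `GN` (helper99, inside `finrank_le_card_GN`). -/
theorem exists_class_eq_kappa [NeZero m] {κ : (M ≃ₐ[F] M) →* GammaPM m}
    (hκ : IsNormCompat F M m κ) (g : M ≃ₐ[F] M) : ∃ a : GN F m, iotaN F m a = κ g := by
  obtain ⟨P, σ, j, hP, hP0, hPB, -, he, -, hσ, hg⟩ :=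
    exists_frob_pow_eq F M g (badIdeals F (modIdeal F m))
  haveI := hP
  have h0 : P.under (𝓞 F) ≠ ⊥ := under_ne_bot_of_ne_bot P hP0
  have hc : IsCoprime (P.under (𝓞 F)) (modIdeal F m) := by
    by_contra hnc
    exact hPB (mem_badIdeals_of_not_isCoprime F m h0 hnc)
  have h1 := iotaN_phiN_eq_kappa hκ P hP0 he h0 hc hσ
  refine ⟨((phiN F m).phi ⟨P.under (𝓞 F), mem_nonZeroDivisors_of_ne_zero h0⟩) ^ j, ?_⟩
  rw [hg, map_pow, map_pow, h1]

variable (F M) in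
/-- The finite set of primes of `F` below a prime of `M` which is ramified over `F`. -/
noncomputable def ramBelow : Finset (Ideal (𝓞 F)) :=
  (Fermat.Agent.GJ.Frob.finite_ramified F M).toFinset

omit [IsGalois F M] in
theorem ramificationIdx_eq_one_of_notMem {Q : Ideal (𝓞 M)} (hQ : Q.IsPrime) (hQ0 : Q ≠ ⊥)
    (h : Q.under (𝓞 F) ∉ ramBelow F M) : Q.ramificationIdx (𝓞 F) = 1 := by
  by_contra hne
  apply h
  unfold ramBelow
  rw [Set.Finite.mem_toFinset]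
  exact ⟨Q, hQ, hQ0, rfl, hne⟩

/-- **(IF-4) abelian Chebotarev, lower bound on degree one primes with Frobenius exactly `g`.** -/
theorem abelianCheb_lower [NeZero m] {κ : (M ≃ₐ[F] M) →* GammaPM m}
    (hκ : IsNormCompat F M m κ) (hinj : Function.Injective κ) (g : M ≃ₐ[F] M) :
    ∃ C δ : ℝ, 0 < δ ∧ ∀ s : ℝ, 1 < s → s < 1 + δ →
      ∃ T : Finset (Ideal (𝓞 F)),
        (∀ q ∈ T, q.IsPrime ∧ (Ideal.absNorm q).Prime ∧
          ∃ Q : Ideal (𝓞 M), Q.IsPrime ∧ Q.under (𝓞 F) = q ∧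
            Q.inertia (M ≃ₐ[F] M) = ⊥ ∧ IsArithFrobAt (𝓞 F) g Q) ∧
        1 / (Module.finrank F M : ℝ) * Real.log (1 / (s - 1)) - C ≤
          ∑ q ∈ T, (Ideal.absNorm q : ℝ) ^ (-s) := by
  classical
  obtain ⟨a, ha⟩ := exists_class_eq_kappa hκ g
  obtain ⟨C, δ, hδ, hcls⟩ := exists_classSum_bound (D := phiN F m) (modIdeal_ne_bot F m)
    (countHyp_phiN F m) (exists_hlow hκ hinj) a
  have hcard := card_GN_eq_finrank hκ hinj
  set c₁ : ℝ := (Module.finrank ℤ (𝓞 F) : ℝ) * ∑' n : ℕ, ((n : ℝ) ^ 2)⁻¹ with hc₁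
  set nr : ℝ := ((ramBelow F M).card : ℝ) with hnr
  refine ⟨C + 1 + c₁ + nr, δ, hδ, fun s hs1 hs2 => ?_⟩
  have hs0 : 0 ≤ s := by linarith
  have hb := hcls s hs1 hs2
  rw [hcard] at hb
  have hlo := (abs_le.mp hb).1
  -- finite approximation of the class sum
  have hsum := summable_class (phiN F m) hs1 a
  obtain ⟨S, hS⟩ := (hsum.hasSum.eventually (lt_mem_nhds (sub_one_lt
    (∑' 𝔭 : CopPrime (modIdeal F m), (if pcls (phiN F m) 𝔭 = a then pN 𝔭 ^ (-s) else 0))))).exists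
  set S' := S.filter (fun 𝔭 => pcls (phiN F m) 𝔭 = a) with hS'
  set T₀ : Finset (Ideal (𝓞 F)) := S'.image CopPrime.ideal with hT₀
  set f : Ideal (𝓞 F) → ℝ := fun q => (Ideal.absNorm q : ℝ) ^ (-s) with hf
  have hf0 : ∀ q, 0 ≤ f q := fun q => Real.rpow_nonneg (Nat.cast_nonneg _) _
  have hf1 : ∀ q, f q ≤ 1 := fun q => natCast_rpow_neg_le_one _ hs0
  have hST₀ : ∑ 𝔭 ∈ S, (if pcls (phiN F m) 𝔭 = a then pN 𝔭 ^ (-s) else 0) = ∑ q ∈ T₀, f q := by
    rw [hT₀, Finset.sum_image (fun a _ b _ h => CopPrime.ideal_injective h), hS',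
      Finset.sum_filter]
    rfl
  have hmemT₀ : ∀ q ∈ T₀, ∃ 𝔭 : CopPrime (modIdeal F m),
      pcls (phiN F m) 𝔭 = a ∧ 𝔭.ideal = q := by
    intro q hq
    obtain ⟨𝔭, h𝔭, rfl⟩ := Finset.mem_image.mp hq
    exact ⟨𝔭, (Finset.mem_filter.mp h𝔭).2, rfl⟩
  set T := T₀.filter (fun q => (Ideal.absNorm q).Prime ∧ q ∉ ramBelow F M) with hT
  set T₁ := T₀.filter (fun q => ¬ (Ideal.absNorm q).Prime) with hT₁
  set T₂ := T₀.filter (fun q => (Ideal.absNorm q).Prime ∧ q ∈ ramBelow F M) with hT₂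
  have hpt : ∀ q, f q ≤
      (if (Ideal.absNorm q).Prime ∧ q ∉ ramBelow F M then f q else 0) +
        (if (Ideal.absNorm q).Prime ∧ q ∈ ramBelow F M then f q else 0) +
          (if ¬ (Ideal.absNorm q).Prime then f q else 0) := by
    intro q
    by_cases hp : (Ideal.absNorm q).Prime <;> by_cases hr : q ∈ ramBelow F M <;> simp [hp, hr]
  have hsplit : ∑ q ∈ T₀, f q ≤ ∑ q ∈ T, f q + ∑ q ∈ T₂, f q + ∑ q ∈ T₁, f q := by
    rw [hT, hT₁, hT₂, Finset.sum_filter, Finset.sum_filter, Finset.sum_filter,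
      ← Finset.sum_add_distrib, ← Finset.sum_add_distrib]
    exact Finset.sum_le_sum fun q _ => hpt q
  have hT₁le : ∑ q ∈ T₁, f q ≤ c₁ := by
    refine sum_not_degOne_le F hs1.le T₁ fun q hq => ?_
    obtain ⟨hq0, hnp⟩ := Finset.mem_filter.mp hq
    obtain ⟨𝔭, -, rfl⟩ := hmemT₀ q hq0
    exact ⟨𝔭.1.isPrime, 𝔭.1.ne_bot, hnp⟩
  have hT₂le : ∑ q ∈ T₂, f q ≤ nr := by
    calc ∑ q ∈ T₂, f q ≤ ∑ _q ∈ T₂, (1 : ℝ) := Finset.sum_le_sum fun q _ => hf1 q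
      _ = (T₂.card : ℝ) := by simp
      _ ≤ nr := by
          rw [hnr]
          have hsub : T₂ ⊆ ramBelow F M := fun q hq => (Finset.mem_filter.mp hq).2.2
          exact_mod_cast Finset.card_le_card hsub
  refine ⟨T, fun q hq => ?_, ?_⟩
  · obtain ⟨hq0, hqP, hqR⟩ := Finset.mem_filter.mp hq
    obtain ⟨𝔭, h𝔭a, rfl⟩ := hmemT₀ q hq0
    haveI : 𝔭.ideal.IsPrime := 𝔭.1.isPrime
    refine ⟨𝔭.1.isPrime, hqP, ?_⟩
    obtain ⟨⟨Q, hQp, hQl⟩⟩ := (inferInstance : Nonempty (Ideal.primesOver 𝔭.ideal (𝓞 M)))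
    haveI := hQp
    have hQu : Q.under (𝓞 F) = 𝔭.ideal := hQl.over.symm
    have hq0' : 𝔭.ideal ≠ ⊥ := 𝔭.1.ne_bot
    have hQ0 : Q ≠ ⊥ := by
      rintro rfl
      apply hq0'
      rw [← hQu]
      exact Ideal.under_bot ..
    have he : Q.ramificationIdx (𝓞 F) = 1 :=
      ramificationIdx_eq_one_of_notMem hQp hQ0 (by rw [hQu]; exact hqR)
    have hI : Q.inertia (M ≃ₐ[F] M) = ⊥ := inertia_eq_bot_of_e_eq_one Q hQ0 he
    haveI : Finite (𝓞 M ⧸ Q) := Ideal.finiteQuotientOfFreeOfNeBot _ hQ0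
    set σ := arithFrobAt (𝓞 F) (M ≃ₐ[F] M) Q with hσdef
    have hσ : IsArithFrobAt (𝓞 F) σ Q := IsArithFrobAt.arithFrobAt (𝓞 F) (M ≃ₐ[F] M) Q
    have h0 : Q.under (𝓞 F) ≠ ⊥ := by rw [hQu]; exact hq0'
    have hc : IsCoprime (Q.under (𝓞 F)) (modIdeal F m) := by
      rw [hQu]
      exact 𝔭.2
    have h1 := iotaN_phiN_eq_kappa hκ Q hQ0 he h0 hc hσ
    have h2 : (phiN F m).phi ⟨Q.under (𝓞 F), mem_nonZeroDivisors_of_ne_zero h0⟩ = a := by
      rw [← h𝔭a]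
      unfold pcls
      congr 1
      exact Subtype.ext hQu
    rw [h2, ha] at h1
    have hσg : σ = g := (hinj h1).symm
    exact ⟨Q, hQp, hQu, hI, hσg ▸ hσ⟩
  · rw [hST₀] at hS
    linarith

end NormCompatLevel

end Fermat.Agent.DS.N8b.AbelianCheb
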