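/-
NEXT-GATE S48 / (N8b)-(B5), file 3 (helper99): the RESIDUE form of norm compatibility.

`IsResCompat E M m κ`: for every prime `𝔔 ≠ ⊥` of `M` whose prime `𝔮 = 𝔔 ∩ 𝓞_E` is coprime to `m`,
every `σ ∈ Gal(M/E)` and every `n : ℕ` with `σ x ≡ x ^ (N𝔮 ^ n) mod 𝔔` for all `x ∈ 𝓞_M`:
`κ σ = [N𝔮 mod m] ^ n` in `Γ_m`.

This is STRONGER than `NormCompat.IsNormCompat` (take `n = 1`; for `n = 0` it says that the inertia
groups of the primes coprime to `m` lie in `ker κ`) and, unlike `IsNormCompat`, it is stable under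
* `comap`   : `M ⊆ M'` Galois over `K`, `κ' = κ ∘ restrictNormal`            (IF-2),
* `restrict`: `K ⊆ F ⊆ M`, `κ_F = κ ∘ restrictScalars`                       (IF-3)
(for `IsNormCompat`, (IF-3) fails as stated: a prime of `M` can be unramified over `F` and ramified
over `K`).  The cyclotomic instances satisfy the residue form (file `CycInst`).
-/
import Mathlib
import Fermat.Agent.DS.N8b.NormCompat
import Fermat.Agent.GJ.Frob.Alg
import Fermat.Agent.S14.CR.FrobTower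

set_option autoImplicit false
set_option linter.style.haveILetI false

open NumberField nonZeroDivisors

namespace Fermat.Agent.DS.N8b.ResCompat

open Fermat.Agent.S14 Fermat.Agent.S14.CR
open Fermat.Agent.DS.N8b.NormPM Fermat.Agent.DS.N8b.NormCompat

section Def

variable (E M : Type*) [Field E] [NumberField E] [Field M] [NumberField M] [Algebra E M]
  [IsGalois E M] (m : ℕ)

/-- **Norm compatibility, residue form.** -/
def IsResCompat (κ : (M ≃ₐ[E] M) →* GammaPM m) : Prop :=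
  ∀ (𝔔 : Ideal (𝓞 M)) [𝔔.IsPrime], 𝔔 ≠ ⊥ →
    ∀ (hc : IsCoprime (𝔔.under (𝓞 E)) (modIdeal E m)) (σ : M ≃ₐ[E] M) (n : ℕ),
      (∀ x : 𝓞 M, σ • x - x ^ (Ideal.absNorm (𝔔.under (𝓞 E)) ^ n) ∈ 𝔔) →
        κ σ = (QuotientGroup.mk (absNormUnit m (𝔔.under (𝓞 E)) hc) : GammaPM m) ^ n

variable {E M m}

/-- the residue form implies the Frobenius form. -/
theorem IsResCompat.isNormCompat {κ : (M ≃ₐ[E] M) →* GammaPM m} (hκ : IsResCompat E M m κ) :
    IsNormCompat E M m κ := by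
  intro 𝔔 _ h𝔔 _ hc σ hσ
  have h := hκ 𝔔 h𝔔 hc σ 1 (fun x => by
    have hx := hσ x
    rw [MulSemiringAction.toAlgHom_apply, CRCyc.natCard_quot_eq_absNorm] at hx
    rw [pow_one]
    exact hx)
  rw [pow_one] at h
  exact h

end Def

section Coprime

variable {E : Type*} [Field E] [NumberField E] {m : ℕ}

/-- a nonzero prime is coprime to `(m)` iff it does not contain `m`. -/
theorem isCoprime_modIdeal_iff {P : Ideal (𝓞 E)} [P.IsPrime] (hP : P ≠ ⊥) :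
    IsCoprime P (modIdeal E m) ↔ (m : 𝓞 E) ∉ P := by
  haveI : P.IsMaximal := Ring.DimensionLEOne.maximalOfPrime hP inferInstance
  rw [Ideal.isCoprime_iff_sup_eq]
  constructor
  · intro h hm
    have hle : modIdeal E m ≤ P := (Ideal.span_singleton_le_iff_mem _).2 hm
    rw [sup_eq_left.2 hle] at h
    exact (Ideal.IsPrime.ne_top inferInstance) h
  · intro hm
    by_contra hne
    have h1 : P = P ⊔ modIdeal E m := Ideal.IsMaximal.eq_of_le inferInstance hne le_sup_left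
    apply hm
    rw [h1]
    exact Ideal.mem_sup_right (Ideal.mem_span_singleton_self _)

variable {M : Type*} [Field M] [NumberField M] [Algebra E M]

omit [NumberField E] [NumberField M] in
theorem natCast_mem_under_iff (𝔔 : Ideal (𝓞 M)) :
    (m : 𝓞 E) ∈ 𝔔.under (𝓞 E) ↔ (m : 𝓞 M) ∈ 𝔔 := by
  rw [Ideal.under_def, Ideal.mem_comap, map_natCast]

/-- `𝔔 ∩ 𝓞_E` is coprime to `(m)` iff `m ∉ 𝔔`. -/
theorem isCoprime_under_iff (𝔔 : Ideal (𝓞 M)) [𝔔.IsPrime] (h𝔔 : 𝔔 ≠ ⊥) :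
    IsCoprime (𝔔.under (𝓞 E)) (modIdeal E m) ↔ (m : 𝓞 M) ∉ 𝔔 := by
  rw [isCoprime_modIdeal_iff (under_ne_bot_of_ne_bot 𝔔 h𝔔), natCast_mem_under_iff]

end Coprime

section Apply

variable {E M : Type*} [Field E] [NumberField E] [Field M] [NumberField M] [Algebra E M]
  [IsGalois E M] {m : ℕ}

/-- the shape of the N8 contract (board 3363 (R3)): `m ∉ 𝔔` and `σ` a Frobenius element at `𝔔`
(no hypothesis on the inertia group is needed in the residue form). -/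
theorem IsResCompat.apply_frob {κ : (M ≃ₐ[E] M) →* GammaPM m} (hκ : IsResCompat E M m κ)
    (𝔔 : Ideal (𝓞 M)) [𝔔.IsPrime] (h𝔔 : 𝔔 ≠ ⊥) (hm : (m : 𝓞 M) ∉ 𝔔) (σ : M ≃ₐ[E] M)
    (hσ : IsArithFrobAt (𝓞 E) σ 𝔔) :
    κ σ = QuotientGroup.mk
      (absNormUnit m (𝔔.under (𝓞 E)) ((isCoprime_under_iff 𝔔 h𝔔).2 hm)) := by
  have h := hκ 𝔔 h𝔔 ((isCoprime_under_iff 𝔔 h𝔔).2 hm) σ 1 (fun x => by
    have hx := hσ x
    rw [MulSemiringAction.toAlgHom_apply, CRCyc.natCard_quot_eq_absNorm] at hx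
    rw [pow_one]
    exact hx)
  rw [pow_one] at h
  exact h

omit [IsGalois E M] in
/-- the inertia groups at the primes not containing `m` lie in `ker κ`. -/
theorem IsResCompat.apply_inertia {κ : (M ≃ₐ[E] M) →* GammaPM m} (hκ : IsResCompat E M m κ)
    (𝔔 : Ideal (𝓞 M)) [𝔔.IsPrime] (h𝔔 : 𝔔 ≠ ⊥) (hm : (m : 𝓞 M) ∉ 𝔔) (σ : M ≃ₐ[E] M)
    (hσ : σ ∈ 𝔔.inertia (M ≃ₐ[E] M)) : κ σ = 1 := by
  have h := hκ 𝔔 h𝔔 ((isCoprime_under_iff 𝔔 h𝔔).2 hm) σ 0 (fun x => by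
    rw [pow_zero, pow_one]
    exact hσ x)
  rw [pow_zero] at h
  exact h

omit [IsGalois E M] in
/-- if `κ` is injective, the primes not containing `m` are unramified. -/
theorem IsResCompat.inertia_eq_bot {κ : (M ≃ₐ[E] M) →* GammaPM m} (hκ : IsResCompat E M m κ)
    (hinj : Function.Injective κ)
    (𝔔 : Ideal (𝓞 M)) [𝔔.IsPrime] (h𝔔 : 𝔔 ≠ ⊥) (hm : (m : 𝓞 M) ∉ 𝔔) :
    𝔔.inertia (M ≃ₐ[E] M) = ⊥ := by
  rw [eq_bot_iff]
  intro σ hσ
  rw [Subgroup.mem_bot]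
  apply hinj
  rw [hκ.apply_inertia 𝔔 h𝔔 hm σ hσ, map_one]

end Apply

section Comap

variable {K M M' : Type*} [Field K] [NumberField K] [Field M] [NumberField M]
  [Field M'] [NumberField M'] [Algebra K M] [Algebra M M'] [Algebra K M'] [IsScalarTower K M M']
  [IsGalois K M] [IsGalois K M'] {m : ℕ}

omit [IsGalois K M'] in
/-- **(IF-2)** `M ⊆ M'` both Galois over `K`: `κ ∘ restrictNormal` is norm compatible for `M'/K`
if `κ` is for `M/K`. -/
theorem IsResCompat.comap {κ : (M ≃ₐ[K] M) →* GammaPM m} (hκ : IsResCompat K M m κ) :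
    IsResCompat K M' m (κ.comp (AlgEquiv.restrictNormalHom M)) := by
  intro 𝔔' _ h𝔔' hc σ n hx
  have hQ0 : 𝔔'.under (𝓞 M) ≠ ⊥ := under_ne_bot_of_ne_bot 𝔔' h𝔔'
  have hu : (𝔔'.under (𝓞 M)).under (𝓞 K) = 𝔔'.under (𝓞 K) := Ideal.under_under ..
  have hc' : IsCoprime ((𝔔'.under (𝓞 M)).under (𝓞 K)) (modIdeal K m) := by
    rw [hu]
    exact hc
  have h := hκ (𝔔'.under (𝓞 M)) hQ0 hc' (σ.restrictNormal M) n (fun x => by
    rw [Ideal.under_def, Ideal.mem_comap, map_sub, map_pow, algebraMap_restrictNormal_smul,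
      ← Ideal.under_def, hu]
    exact hx _)
  rw [MonoidHom.comp_apply]
  show κ (σ.restrictNormal M) = _
  rw [h, absNormUnit_congr hu hc' hc]

end Comap

section Restrict

variable {K F M : Type*} [Field K] [NumberField K] [Field F] [NumberField F]
  [Field M] [NumberField M] [Algebra K F] [Algebra F M] [Algebra K M] [IsScalarTower K F M]
  [IsGalois K M] [IsGalois F M] {m : ℕ}

omit [IsGalois K M] [IsGalois F M] in
/-- **(IF-3)** `K ⊆ F ⊆ M`: `κ ∘ restrictScalars` is norm compatible for `M/F` if `κ` is for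
`M/K`. -/
theorem IsResCompat.restrict {κ : (M ≃ₐ[K] M) →* GammaPM m} (hκ : IsResCompat K M m κ) :
    IsResCompat F M m (κ.comp (AlgEquiv.restrictScalarsHom K)) := by
  intro 𝔔 _ h𝔔 hc t n hx
  have hmQ : (m : 𝓞 M) ∉ 𝔔 := (isCoprime_under_iff 𝔔 h𝔔).1 hc
  have hcK : IsCoprime (𝔔.under (𝓞 K)) (modIdeal K m) := (isCoprime_under_iff 𝔔 h𝔔).2 hmQ
  have hu : (𝔔.under (𝓞 F)).under (𝓞 K) = 𝔔.under (𝓞 K) := Ideal.under_under ..
  haveI : (𝔔.under (𝓞 F)).LiesOver (𝔔.under (𝓞 K)) := ⟨hu.symm⟩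
  have hN : Ideal.absNorm (𝔔.under (𝓞 K)) ^ (𝔔.under (𝓞 F)).inertiaDeg (𝓞 K) =
      Ideal.absNorm (𝔔.under (𝓞 F)) :=
    Ideal.absNorm_pow_inertiaDeg (𝔔.under (𝓞 K)) (𝔔.under (𝓞 F))
  have h := hκ 𝔔 h𝔔 hcK (t.restrictScalars K) ((𝔔.under (𝓞 F)).inertiaDeg (𝓞 K) * n)
    (fun x => by
      rw [pow_mul, hN]
      exact hx x)
  rw [MonoidHom.comp_apply, AlgEquiv.restrictScalarsHom_apply, h, pow_mul, ← QuotientGroup.mk_pow]
  congr 2
  apply Units.ext
  rw [Units.val_pow_eq_pow_val, coe_absNormUnit, coe_absNormUnit, ← hN, Nat.cast_pow]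

end Restrict

end Fermat.Agent.DS.N8b.ResCompat
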