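/-
NEXT-GATE S48 / (N8b)-(B5), file 4 (helper99): the cyclotomic instance of `IsResCompat` (IF-1).

`K ⊆ M ⊆ C` number fields, `C/K` and `M/K` Galois, `ζ ∈ C` a primitive `m`-th root of unity which
generates `C` over `K` (in the weak form `σ ζ = ζ → σ = 1`), and `M` is the fixed field of
`{σ | σ ζ = ζ ∨ σ ζ = ζ⁻¹}` (hypothesis `hM`; e.g. `M = K(ζ + ζ⁻¹)`).  Then the cyclotomic
character up to sign descends to an INJECTIVE `kappa : Gal(M/K) →* Γ_m` and
`IsResCompat K M m kappa`.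
-/
import Mathlib
import Fermat.Agent.DS.N8b.NormCompatRes

set_option autoImplicit false
set_option linter.style.haveILetI false

open NumberField nonZeroDivisors
open scoped Pointwise

namespace Fermat.Agent.DS.N8b.CycInst

open Fermat.Agent.S14 Fermat.Agent.S14.CR
open Fermat.Agent.DS.N8b.NormPM Fermat.Agent.DS.N8b.NormCompat Fermat.Agent.DS.N8b.ResCompat

section Char

variable {K C : Type*} [Field K] [Field C] [Algebra K C] {m : ℕ} [NeZero m] {ζ : C}
  (hζ : IsPrimitiveRoot ζ m)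

omit [NeZero m] in
include hζ in
theorem pow_mod_eq (a : ℕ) : ζ ^ (a % m) = ζ ^ a := by
  conv_rhs => rw [← Nat.div_add_mod a m, pow_add, pow_mul, hζ.pow_eq_one, one_pow, one_mul]

/-- `χ(σ) = a mod m ↔ σ ζ = ζ ^ a`. -/
theorem autToPow_eq_iff (σ : C ≃ₐ[K] C) (a : ℕ) :
    ((hζ.autToPow K σ : (ZMod m)ˣ) : ZMod m) = a ↔ σ ζ = ζ ^ a := by
  have h1 := hζ.autToPow_spec K σ
  constructor
  · intro h
    rw [← h1, h, ZMod.val_natCast, pow_mod_eq hζ]
  · intro hs
    rw [hs] at h1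
    have hfin : IsOfFinOrder ζ :=
      isOfFinOrder_iff_pow_eq_one.mpr ⟨m, NeZero.pos m, hζ.pow_eq_one⟩
    have h2 := hfin.pow_eq_pow_iff_modEq.mp h1
    rw [← hζ.eq_orderOf] at h2
    have h3 := (ZMod.natCast_eq_natCast_iff _ _ m).mpr h2
    rwa [ZMod.natCast_zmod_val] at h3

theorem autToPow_eq_one_iff (σ : C ≃ₐ[K] C) : hζ.autToPow K σ = 1 ↔ σ ζ = ζ := by
  have h := autToPow_eq_iff (K := K) hζ σ 1
  rw [pow_one, Nat.cast_one] at h
  rw [← h, Units.ext_iff, Units.val_one]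

theorem autToPow_eq_neg_one_iff (σ : C ≃ₐ[K] C) : hζ.autToPow K σ = -1 ↔ σ ζ = ζ⁻¹ := by
  have h := autToPow_eq_iff (K := K) hζ σ (m - 1)
  have hm : 1 ≤ m := NeZero.pos m
  have h1 : ((m - 1 : ℕ) : ZMod m) = -1 := by
    rw [Nat.cast_sub hm, ZMod.natCast_self, Nat.cast_one, zero_sub]
  have h2 : ζ ^ (m - 1) = ζ⁻¹ := by
    have hz : ζ ≠ 0 := hζ.ne_zero (NeZero.ne m)
    apply mul_right_cancel₀ hz
    rw [← pow_succ, Nat.sub_add_cancel hm, hζ.pow_eq_one, inv_mul_cancel₀ hz]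
  rw [h1, h2] at h
  rw [← h, Units.ext_iff, Units.val_neg, Units.val_one]

/-- the cyclotomic character up to sign. -/
noncomputable def chiPM : (C ≃ₐ[K] C) →* GammaPM m :=
  (QuotientGroup.mk' (Subgroup.zpowers (-1 : (ZMod m)ˣ))).comp (hζ.autToPow K)

theorem chiPM_apply (σ : C ≃ₐ[K] C) :
    chiPM hζ σ = QuotientGroup.mk (hζ.autToPow K σ) := rfl

theorem mem_zpowers_neg_one_iff {G : Type*} [Group G] [HasDistribNeg G] (u : G) :
    u ∈ Subgroup.zpowers (-1 : G) ↔ u = 1 ∨ u = -1 := by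
  constructor
  · rintro ⟨k, rfl⟩
    rcases Int.even_or_odd k with hk | hk
    · left
      exact hk.neg_one_zpow
    · right
      exact hk.neg_one_zpow
  · rintro (rfl | rfl)
    · exact one_mem _
    · exact Subgroup.mem_zpowers _

theorem chiPM_eq_one_iff (σ : C ≃ₐ[K] C) : chiPM hζ σ = 1 ↔ (σ ζ = ζ ∨ σ ζ = ζ⁻¹) := by
  rw [chiPM_apply, QuotientGroup.eq_one_iff, mem_zpowers_neg_one_iff, autToPow_eq_one_iff,
    autToPow_eq_neg_one_iff]

end Char

section Kappa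

variable {K M C : Type*} [Field K] [Field M] [Field C] [Algebra K M] [Algebra M C] [Algebra K C]
  [IsScalarTower K M C] [Normal K M] [Normal K C] {m : ℕ} [NeZero m] {ζ : C}
  (hζ : IsPrimitiveRoot ζ m)

omit [NeZero m] [Normal K C] in
theorem restrictNormal_eq_one_iff (σ : C ≃ₐ[K] C) :
    σ.restrictNormal M = 1 ↔ ∀ x : M, σ (algebraMap M C x) = algebraMap M C x := by
  constructor
  · intro h x
    rw [← AlgEquiv.restrictNormal_commutes σ M x, h, AlgEquiv.one_apply]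
  · intro h
    ext x
    apply (algebraMap M C).injective
    rw [AlgEquiv.restrictNormal_commutes σ M x, h, AlgEquiv.one_apply]

/-- the hypothesis "`M` is the fixed field of `{σ | σ ζ = ζ ^ ±1}`". -/
def FixedByPM (M : Type*) [Field M] [Algebra K M] [Algebra M C] (ζ : C) : Prop :=
  ∀ σ : C ≃ₐ[K] C, (∀ x : M, σ (algebraMap M C x) = algebraMap M C x) ↔ (σ ζ = ζ ∨ σ ζ = ζ⁻¹)

variable (hM : FixedByPM (K := K) M ζ)

include hM in
omit [Normal K C] in
theorem ker_restrictNormalHom_eq :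
    (AlgEquiv.restrictNormalHom M : (C ≃ₐ[K] C) →* (M ≃ₐ[K] M)).ker = (chiPM hζ).ker := by
  ext σ
  rw [MonoidHom.mem_ker, MonoidHom.mem_ker, chiPM_eq_one_iff, ← hM σ]
  exact restrictNormal_eq_one_iff σ

/-- **the character `κ₀ : Gal(M/K) →* Γ_m`**, `κ₀ (σ|_M) = [χ_cyc σ]`. -/
noncomputable def kappa : (M ≃ₐ[K] M) →* GammaPM m :=
  (AlgEquiv.restrictNormalHom M : (C ≃ₐ[K] C) →* (M ≃ₐ[K] M)).liftOfSurjective
    (AlgEquiv.restrictNormalHom_surjective C) ⟨chiPM hζ, (ker_restrictNormalHom_eq hζ hM).le⟩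

theorem kappa_restrictNormal (σ : C ≃ₐ[K] C) :
    kappa hζ hM (σ.restrictNormal M) = chiPM hζ σ :=
  MonoidHom.liftOfRightInverse_comp_apply _ _ _ ⟨chiPM hζ, (ker_restrictNormalHom_eq hζ hM).le⟩ σ

theorem kappa_injective : Function.Injective (kappa hζ hM) := by
  rw [injective_iff_map_eq_one]
  intro s hs
  obtain ⟨σ, rfl⟩ := AlgEquiv.restrictNormalHom_surjective C (K₁ := M) s
  show AlgEquiv.restrictNormalHom M σ = 1
  rw [← MonoidHom.mem_ker, ker_restrictNormalHom_eq hζ hM, MonoidHom.mem_ker]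
  exact (kappa_restrictNormal hζ hM σ).symm.trans hs

end Kappa

section Main

variable {K M C : Type*} [Field K] [NumberField K] [Field M] [NumberField M]
  [Field C] [NumberField C] [Algebra K M] [Algebra M C] [Algebra K C] [IsScalarTower K M C]
  [IsGalois K M] [IsGalois K C] {m : ℕ} [NeZero m] {ζ : C} (hζ : IsPrimitiveRoot ζ m)

include hζ in
omit [NeZero m] in
/-- the primes of `C` not containing `m` are unramified over `K`. -/
theorem inertia_eq_bot_of_not_mem (hgen : ∀ σ : C ≃ₐ[K] C, σ ζ = ζ → σ = 1)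
    (P : Ideal (𝓞 C)) [P.IsPrime] (hP : P ≠ ⊥) (hm : (m : 𝓞 C) ∉ P) :
    P.inertia (C ≃ₐ[K] C) = ⊥ := by
  rw [eq_bot_iff]
  intro σ hσ
  rw [Subgroup.mem_bot]
  haveI : Finite (𝓞 C ⧸ P) := Ideal.finiteQuotientOfFreeOfNeBot _ hP
  set s := arithFrobAt (𝓞 K) (C ≃ₐ[K] C) P with hsdef
  have hs : IsArithFrobAt (𝓞 K) s P := IsArithFrobAt.arithFrobAt (𝓞 K) (C ≃ₐ[K] C) P
  have hσs : IsArithFrobAt (𝓞 K) (σ * s) P := by
    intro x
    rw [MulSemiringAction.toAlgHom_apply, mul_smul]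
    have h1 := hσ (s • x)
    have h2 := hs x
    rw [MulSemiringAction.toAlgHom_apply] at h2
    have h3 := add_mem h1 h2
    rwa [sub_add_sub_cancel] at h3
  apply hgen
  have hz0 : (s.symm ζ) ^ m = 1 := by rw [← map_pow, hζ.pow_eq_one, map_one]
  have e1 := frob_zeta K C (σ * s) P hP hσs hm (s.symm ζ) hz0
  have e2 := frob_zeta K C s P hP hs hm (s.symm ζ) hz0
  rw [AlgEquiv.mul_apply, AlgEquiv.apply_symm_apply] at e1
  rw [AlgEquiv.apply_symm_apply] at e2
  rw [e1, ← e2]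

variable (hM : FixedByPM (K := K) M ζ)

/-- **(IF-1), general base field.** -/
theorem isResCompat_kappa (hgen : ∀ σ : C ≃ₐ[K] C, σ ζ = ζ → σ = 1) :
    IsResCompat K M m (kappa hζ hM) := by
  intro 𝔔 _ h𝔔 hc σ n hx
  have hmQ : (m : 𝓞 M) ∉ 𝔔 := (isCoprime_under_iff 𝔔 h𝔔).1 hc
  obtain ⟨P, hPprime, hP0, hPu⟩ := exists_prime_over M C h𝔔
  haveI := hPprime
  have hmP : (m : 𝓞 C) ∉ P := by
    rw [← natCast_mem_under_iff (E := M), hPu]
    exact hmQ
  haveI : Finite (𝓞 C ⧸ P) := Ideal.finiteQuotientOfFreeOfNeBot _ hP0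
  set s' := arithFrobAt (𝓞 K) (C ≃ₐ[K] C) P with hs'def
  have hs' : IsArithFrobAt (𝓞 K) s' P := IsArithFrobAt.arithFrobAt (𝓞 K) (C ≃ₐ[K] C) P
  have hPK : P.under (𝓞 K) = 𝔔.under (𝓞 K) := by rw [← hPu, Ideal.under_under]
  -- `χ(s') = N𝔮`
  have hz : s' ζ = ζ ^ Ideal.absNorm (𝔔.under (𝓞 K)) := by
    rw [← hPK]
    exact frob_zeta K C s' P hP0 hs' hmP ζ hζ.pow_eq_one
  have hchi : hζ.autToPow K s' = absNormUnit m (𝔔.under (𝓞 K)) hc := by
    apply Units.ext
    rw [coe_absNormUnit]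
    exact (autToPow_eq_iff hζ s' _).2 hz
  -- `s := s'|_M` is a Frobenius element at `𝔔`
  set s := s'.restrictNormal M with hsdef
  have hs : IsArithFrobAt (𝓞 K) s 𝔔 := by
    have h := isArithFrobAt_restrictNormal (Ω := M) hs'
    rwa [hPu] at h
  have hκs : kappa hζ hM s = QuotientGroup.mk (absNormUnit m (𝔔.under (𝓞 K)) hc) := by
    rw [hsdef, kappa_restrictNormal, chiPM_apply, hchi]
  -- the inertia group of `𝔔` is trivial
  have hIP : P.inertia (C ≃ₐ[K] C) = ⊥ := inertia_eq_bot_of_not_mem hζ hgen P hP0 hmP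
  have heP : P.ramificationIdx (𝓞 K) = 1 :=
    Fermat.Agent.GJ.FrobAlg.ramificationIdx_eq_one_of_inertia_eq_bot' P hP0 hIP
  have heQ : 𝔔.ramificationIdx (𝓞 K) = 1 := by
    haveI : P.LiesOver 𝔔 := ⟨hPu.symm⟩
    have h := Ideal.ramificationIdx_tower (R := 𝓞 K) 𝔔 P
    rw [heP] at h
    exact Nat.eq_one_of_mul_eq_one_right h.symm
  have hIQ : 𝔔.inertia (M ≃ₐ[K] M) = ⊥ :=
    Fermat.Agent.GJ.Frob.inertia_eq_bot_of_e_eq_one 𝔔 h𝔔 heQ
  -- `σ = s ^ n`
  have hσ : σ = s ^ n := by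
    have hst : (s ^ n)⁻¹ • 𝔔 = 𝔔 := by
      have h1 : s ∈ MulAction.stabilizer (M ≃ₐ[K] M) 𝔔 := hs.mem_stabilizer
      exact (Subgroup.inv_mem _ (Subgroup.pow_mem _ h1 n) :)
    have hmem : (s ^ n)⁻¹ * σ ∈ 𝔔.inertia (M ≃ₐ[K] M) := by
      intro x
      have h1 := hx x
      have h2 := isArithFrobAt_pow_sub hs n x
      rw [CRCyc.natCard_quot_eq_absNorm] at h2
      have h3 : σ • x - s ^ n • x ∈ 𝔔 := by
        have := sub_mem h1 h2
        rwa [sub_sub_sub_cancel_right] at this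
      have h4 := Ideal.smul_mem_pointwise_smul (s ^ n)⁻¹ _ 𝔔 h3
      rw [hst, smul_sub, inv_smul_smul, ← mul_smul] at h4
      exact h4
    rw [hIQ, Subgroup.mem_bot] at hmem
    exact (inv_mul_eq_one.mp hmem).symm
  rw [hσ, map_pow, hκs]

end Main

section Concrete

variable {K M C : Type*} [Field K] [Field M] [Field C] [Algebra K M] [Algebra M C] [Algebra K C]
  [IsScalarTower K M C] {m : ℕ} {ζ : C}

/-- `x + x⁻¹ = y + y⁻¹ ↔ x = y ∨ x = y⁻¹` in a field. -/
theorem add_inv_eq_add_inv_iff {x y : C} (hx : x ≠ 0) (hy : y ≠ 0) :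
    x + x⁻¹ = y + y⁻¹ ↔ (x = y ∨ x = y⁻¹) := by
  constructor
  · intro h
    have h1 : (x - y) * (x * y - 1) = 0 := by
      have h2 : (x + x⁻¹) * (x * y) = (y + y⁻¹) * (x * y) := by rw [h]
      have h3 : (x + x⁻¹) * (x * y) = x * x * y + y := by
        field_simp
      have h4 : (y + y⁻¹) * (x * y) = x * y * y + x := by
        field_simp
      rw [h3, h4] at h2
      linear_combination h2
    rcases mul_eq_zero.mp h1 with h2 | h2
    · left
      exact sub_eq_zero.mp h2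
    · right
      exact eq_inv_of_mul_eq_one_left (sub_eq_zero.mp h2)
  · rintro (rfl | rfl)
    · rfl
    · rw [inv_inv, add_comm]

/-- `M = K(η)` with `η ↦ ζ + ζ⁻¹` is the fixed field of `{σ | σ ζ = ζ ^ ±1}`. -/
theorem fixedByPM_of_adjoin (hζ0 : ζ ≠ 0) (η : M) (hη : algebraMap M C η = ζ + ζ⁻¹)
    (hgenM : IntermediateField.adjoin K {η} = ⊤) : FixedByPM (K := K) M ζ := by
  intro σ
  have hσζ0 : σ ζ ≠ 0 := (map_ne_zero_iff _ σ.injective).2 hζ0
  rw [← add_inv_eq_add_inv_iff hσζ0 hζ0, ← map_inv₀, ← map_add, ← hη]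
  constructor
  · intro h
    exact h η
  · intro h x
    have hx : x ∈ IntermediateField.adjoin K {η} := hgenM ▸ IntermediateField.mem_top
    induction hx using IntermediateField.adjoin_induction with
    | mem y hy =>
      rw [Set.mem_singleton_iff] at hy
      rw [hy]
      exact h
    | algebraMap k =>
      rw [← IsScalarTower.algebraMap_apply K M C, AlgEquiv.commutes]
    | add y z _ _ hy hz => rw [map_add, map_add, hy, hz]
    | inv y _ hy => rw [map_inv₀, map_inv₀, hy]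
    | mul y z _ _ hy hz => rw [map_mul, map_mul, hy, hz]

omit [Field M] [Algebra K M] [Algebra M C] [IsScalarTower K M C] in
/-- `C = K(ζ)`: an automorphism fixing `ζ` is trivial. -/
theorem eq_one_of_adjoin_eq_top (hgenC : IntermediateField.adjoin K {ζ} = ⊤)
    (σ : C ≃ₐ[K] C) (h : σ ζ = ζ) : σ = 1 := by
  ext x
  have hx : x ∈ IntermediateField.adjoin K {ζ} := hgenC ▸ IntermediateField.mem_top
  rw [AlgEquiv.one_apply]
  induction hx using IntermediateField.adjoin_induction with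
  | mem y hy =>
    rw [Set.mem_singleton_iff] at hy
    rw [hy]
    exact h
  | algebraMap k => exact AlgEquiv.commutes σ k
  | add y z _ _ hy hz => rw [map_add, hy, hz]
  | inv y _ hy => rw [map_inv₀, hy]
  | mul y z _ _ hy hz => rw [map_mul, hy, hz]

end Concrete

section Packaged

variable {K M C : Type*} [Field K] [NumberField K] [Field M] [NumberField M]
  [Field C] [NumberField C] [Algebra K M] [Algebra M C] [Algebra K C] [IsScalarTower K M C]
  [IsGalois K M] [IsGalois K C] {m : ℕ} [NeZero m] {ζ : C}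

/-- **(IF-1), packaged**: `C = K(ζ)`, `M = K(η)`, `η ↦ ζ + ζ⁻¹`: an INJECTIVE norm compatible
`κ : Gal(M/K) →* Γ_m` (residue form, hence also `IsNormCompat`), `κ (σ|_M) = [χ_cyc σ]`. -/
theorem exists_kappa_cyc (hζ : IsPrimitiveRoot ζ m) (η : M) (hη : algebraMap M C η = ζ + ζ⁻¹)
    (hgenM : IntermediateField.adjoin K {η} = ⊤) (hgenC : IntermediateField.adjoin K {ζ} = ⊤) :
    ∃ κ : (M ≃ₐ[K] M) →* GammaPM m, Function.Injective κ ∧ IsResCompat K M m κ ∧
      IsNormCompat K M m κ ∧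
      ∀ σ : C ≃ₐ[K] C, κ (σ.restrictNormal M) = QuotientGroup.mk (hζ.autToPow K σ) := by
  have hM : FixedByPM (K := K) M ζ :=
    fixedByPM_of_adjoin (hζ.ne_zero (NeZero.ne m)) η hη hgenM
  have hres := isResCompat_kappa hζ hM (eq_one_of_adjoin_eq_top hgenC)
  exact ⟨kappa hζ hM, kappa_injective hζ hM, hres, hres.isNormCompat,
    fun σ => kappa_restrictNormal hζ hM σ⟩

end Packaged

end Fermat.Agent.DS.N8b.CycInst
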