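/-
S48-(N8b)-(B4): Dirichlet series from partial sums.

If the partial sums `∑ k ∈ Icc 1 n, f k` are `O(n ^ r)` with `0 ≤ r`, the Abel integral
`s * ∫ t in Ioi 1, (∑ k ∈ Icc 1 ⌊t⌋₊, f k) * t ^ (-(s + 1))` is continuous on the half plane
`r < re s`; by Mathlib's `LSeries_eq_mul_integral` it agrees with `LSeries f s` wherever the
L-series converges.  Hence, when `r < 1`, an L-series converging for real `s > 1` has a finite
limit as `s → 1⁺` and is bounded near `1`.  Mathlib only.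
-/
import Mathlib

set_option autoImplicit false

open Finset Filter MeasureTheory Topology Complex Asymptotics

namespace Fermat.Agent.DS.N8b

/-- The Abel-summation integral attached to the coefficient function `f`. -/
noncomputable def abelIntegral (f : ℕ → ℂ) (s : ℂ) : ℂ :=
  s * ∫ t in Set.Ioi (1 : ℝ), (∑ k ∈ Icc 1 ⌊t⌋₊, f k) * (t : ℂ) ^ (-(s + 1))

/-- A bound `O(n ^ r)` at infinity for the partial sums is a bound for all `n ≥ 1`. -/
theorem exists_forall_norm_sum_le {f : ℕ → ℂ} {r : ℝ} (hr : 0 ≤ r)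
    (hO : (fun n : ℕ ↦ ∑ k ∈ Icc 1 n, f k) =O[atTop] fun n : ℕ ↦ (n : ℝ) ^ r) :
    ∃ C : ℝ, 0 ≤ C ∧ ∀ n : ℕ, 1 ≤ n → ‖∑ k ∈ Icc 1 n, f k‖ ≤ C * (n : ℝ) ^ r := by
  obtain ⟨C₀, hC₀⟩ := hO.bound
  obtain ⟨n₀, hn₀⟩ := eventually_atTop.mp hC₀
  -- a bound for the finitely many small `n`
  obtain ⟨M, hM⟩ : ∃ M : ℝ, ∀ n ∈ Finset.range n₀, ‖∑ k ∈ Icc 1 n, f k‖ ≤ M :=
    ⟨∑ n ∈ Finset.range n₀, ‖∑ k ∈ Icc 1 n, f k‖, fun n hn ↦
      Finset.single_le_sum (f := fun n ↦ ‖∑ k ∈ Icc 1 n, f k‖) (fun _ _ ↦ norm_nonneg _) hn⟩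
  refine ⟨max (max C₀ M) 0, le_max_right _ _, fun n hn ↦ ?_⟩
  have hn1 : (1 : ℝ) ≤ (n : ℝ) ^ r :=
    Real.one_le_rpow (by exact_mod_cast hn) hr
  have hpos : (0 : ℝ) ≤ (n : ℝ) ^ r := zero_le_one.trans hn1
  by_cases h : n₀ ≤ n
  · have := hn₀ n h
    rw [Real.norm_of_nonneg hpos] at this
    refine this.trans (mul_le_mul_of_nonneg_right ?_ hpos)
    exact (le_max_left _ _).trans (le_max_left _ _)
  · have h1 := hM n (Finset.mem_range.mpr (not_le.mp h))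
    have hM' : M ≤ max (max C₀ M) 0 := (le_max_right _ _).trans (le_max_left _ _)
    calc ‖∑ k ∈ Icc 1 n, f k‖ ≤ M := h1
      _ ≤ max (max C₀ M) 0 := hM'
      _ = max (max C₀ M) 0 * 1 := (mul_one _).symm
      _ ≤ max (max C₀ M) 0 * (n : ℝ) ^ r :=
        mul_le_mul_of_nonneg_left hn1 (le_max_right _ _)


theorem norm_sum_floor_le {f : ℕ → ℂ} {r C : ℝ} (hr : 0 ≤ r) (hC0 : 0 ≤ C)
    (hC : ∀ n : ℕ, 1 ≤ n → ‖∑ k ∈ Icc 1 n, f k‖ ≤ C * (n : ℝ) ^ r) {t : ℝ} (ht : 1 ≤ t) :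
    ‖∑ k ∈ Icc 1 ⌊t⌋₊, f k‖ ≤ C * t ^ r := by
  have h1 : 1 ≤ ⌊t⌋₊ := Nat.le_floor (by simpa using ht)
  refine (hC _ h1).trans (mul_le_mul_of_nonneg_left ?_ hC0)
  exact Real.rpow_le_rpow (Nat.cast_nonneg _) (Nat.floor_le (zero_le_one.trans ht)) hr

/-- **(B4), continuity.** If the partial sums of `f` are `O(n ^ r)`, `0 ≤ r`, the Abel integral
is continuous on the half plane `r < re s`. -/
theorem continuousOn_abelIntegral {f : ℕ → ℂ} {r : ℝ} (hr : 0 ≤ r)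
    (hO : (fun n : ℕ ↦ ∑ k ∈ Icc 1 n, f k) =O[atTop] fun n : ℕ ↦ (n : ℝ) ^ r) :
    ContinuousOn (abelIntegral f) {s : ℂ | r < s.re} := by
  obtain ⟨C, hC0, hC⟩ := exists_forall_norm_sum_le hr hO
  intro s₀ hs₀
  have hs₀' : r < s₀.re := hs₀
  apply ContinuousAt.continuousWithinAt
  unfold abelIntegral
  refine continuousAt_id.mul ?_
  set η : ℝ := (s₀.re - r) / 2 with hη
  have hηpos : 0 < η := by rw [hη]; linarith
  refine continuousAt_of_dominated (bound := fun t : ℝ ↦ C * t ^ (-(1 + η))) ?_ ?_ ?_ ?_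
  · filter_upwards with s
    refine Measurable.aestronglyMeasurable ?_
    refine Measurable.mul ?_ ?_
    · exact (measurable_from_nat (f := fun n : ℕ ↦ ∑ k ∈ Icc 1 n, f k)).comp Nat.measurable_floor
    · exact Complex.measurable_ofReal.pow_const _
  · have hev : ∀ᶠ s : ℂ in 𝓝 s₀, r + η < s.re := by
      have : r + η < s₀.re := by rw [hη]; linarith
      exact Complex.continuous_re.continuousAt.eventually (lt_mem_nhds this)
    filter_upwards [hev] with s hs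
    rw [ae_restrict_iff' measurableSet_Ioi]
    filter_upwards with t ht
    have ht1 : (1 : ℝ) < t := ht
    have ht0 : (0 : ℝ) < t := zero_lt_one.trans ht1
    rw [norm_mul, Complex.norm_cpow_eq_rpow_re_of_pos ht0]
    have h1 := norm_sum_floor_le hr hC0 hC ht1.le
    have h2 : t ^ (-(s + 1)).re ≤ t ^ (-(r + η + 1)) := by
      refine Real.rpow_le_rpow_of_exponent_le ht1.le ?_
      simp only [neg_re, add_re, one_re]
      linarith
    calc ‖∑ k ∈ Icc 1 ⌊t⌋₊, f k‖ * t ^ (-(s + 1)).re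
        ≤ (C * t ^ r) * t ^ (-(r + η + 1)) :=
          mul_le_mul h1 h2 (Real.rpow_nonneg ht0.le _) (mul_nonneg hC0 (Real.rpow_nonneg ht0.le _))
      _ = C * t ^ (-(1 + η)) := by
          rw [mul_assoc, ← Real.rpow_add ht0]
          congr 2
          ring
  · exact (integrableOn_Ioi_rpow_of_lt (by linarith) zero_lt_one).const_mul C
  · rw [ae_restrict_iff' measurableSet_Ioi]
    filter_upwards with t ht
    have ht0 : (t : ℂ) ≠ 0 := by
      exact_mod_cast (zero_lt_one.trans (show (1 : ℝ) < t from ht)).ne'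
    refine continuousAt_const.mul ?_
    exact ContinuousAt.const_cpow (by fun_prop) (Or.inl ht0)


/-- Mathlib's Abel summation formula, restated with `abelIntegral`. -/
theorem LSeries_eq_abelIntegral (f : ℕ → ℂ) {r : ℝ} (hr : 0 ≤ r) {s : ℂ} (hs : r < s.re)
    (hS : LSeriesSummable f s)
    (hO : (fun n : ℕ ↦ ∑ k ∈ Icc 1 n, f k) =O[atTop] fun n : ℕ ↦ (n : ℝ) ^ r) :
    LSeries f s = abelIntegral f s :=
  LSeries_eq_mul_integral f hr hs hS hO

/-- **(B4), limit at `1⁺`.** If the partial sums of `f` are `O(n ^ r)` with `0 ≤ r < 1` and the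
L-series of `f` converges for every real `s > 1`, then `LSeries f s` tends to the finite value
`abelIntegral f 1` as `s → 1⁺`. -/
theorem tendsto_LSeries_nhdsGT_one {f : ℕ → ℂ} {r : ℝ} (hr : 0 ≤ r) (hr1 : r < 1)
    (hO : (fun n : ℕ ↦ ∑ k ∈ Icc 1 n, f k) =O[atTop] fun n : ℕ ↦ (n : ℝ) ^ r)
    (hS : ∀ s : ℝ, 1 < s → LSeriesSummable f s) :
    Tendsto (fun s : ℝ ↦ LSeries f s) (𝓝[>] 1) (𝓝 (abelIntegral f 1)) := by
  have hmem : (1 : ℂ) ∈ {s : ℂ | r < s.re} := by simpa using hr1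
  have hopen : IsOpen {s : ℂ | r < s.re} := isOpen_lt continuous_const Complex.continuous_re
  have hcont : ContinuousAt (abelIntegral f) 1 :=
    (continuousOn_abelIntegral hr hO).continuousAt (hopen.mem_nhds hmem)
  have h1 : Tendsto (fun s : ℝ ↦ abelIntegral f (s : ℂ)) (𝓝[>] 1) (𝓝 (abelIntegral f 1)) := by
    have h2 : Tendsto (fun s : ℝ ↦ (s : ℂ)) (𝓝[>] 1) (𝓝 ((1 : ℝ) : ℂ)) :=
      (Complex.continuous_ofReal.tendsto 1).mono_left nhdsWithin_le_nhds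
    rw [Complex.ofReal_one] at h2
    exact hcont.tendsto.comp h2
  refine h1.congr' ?_
  filter_upwards [self_mem_nhdsWithin] with s hs
  have hs1 : (1 : ℝ) < s := hs
  exact (LSeries_eq_abelIntegral f hr (by simpa using hr1.trans hs1) (hS s hs1) hO).symm

/-- **(B4), boundedness near `1⁺`.** -/
theorem exists_bound_LSeries_near_one {f : ℕ → ℂ} {r : ℝ} (hr : 0 ≤ r) (hr1 : r < 1)
    (hO : (fun n : ℕ ↦ ∑ k ∈ Icc 1 n, f k) =O[atTop] fun n : ℕ ↦ (n : ℝ) ^ r)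
    (hS : ∀ s : ℝ, 1 < s → LSeriesSummable f s) :
    ∃ B δ : ℝ, 0 < δ ∧ ∀ s : ℝ, 1 < s → s < 1 + δ → ‖LSeries f s‖ ≤ B := by
  have h := (tendsto_LSeries_nhdsGT_one hr hr1 hO hS).norm
  have hev : ∀ᶠ s : ℝ in 𝓝[>] 1, ‖LSeries f s‖ < ‖abelIntegral f 1‖ + 1 :=
    h.eventually (gt_mem_nhds (lt_add_one _))
  obtain ⟨u, hu, hsub⟩ := mem_nhdsGT_iff_exists_Ioo_subset.mp hev
  have hu1 : (1 : ℝ) < u := hu
  refine ⟨‖abelIntegral f 1‖ + 1, u - 1, by linarith, fun s hs1 hs2 ↦ ?_⟩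
  exact (hsub ⟨hs1, by linarith⟩).le

/-- Power-saving form of the hypothesis: an explicit bound `C * n ^ (1 - δ)` for the partial
sums gives the `O(n ^ r)` hypothesis with `r = 1 - δ`. -/
theorem isBigO_of_forall_norm_sum_le {f : ℕ → ℂ} {C r : ℝ}
    (h : ∀ n : ℕ, 1 ≤ n → ‖∑ k ∈ Icc 1 n, f k‖ ≤ C * (n : ℝ) ^ r) :
    (fun n : ℕ ↦ ∑ k ∈ Icc 1 n, f k) =O[atTop] fun n : ℕ ↦ (n : ℝ) ^ r := by
  refine IsBigO.of_bound C ?_
  filter_upwards [eventually_ge_atTop 1] with n hn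
  rw [Real.norm_of_nonneg (Real.rpow_nonneg (Nat.cast_nonneg n) r)]
  exact h n hn

end Fermat.Agent.DS.N8b
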