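/-
S48 / (N8b) (B1) (helper70): **the Lipschitz principle for lattice points, with an error term.**

Mathlib's `tendsto_card_div_pow_atTop_volume` only gives the LIMIT
`#(s ∩ n⁻¹ℤ^ι) / n^card ι → vol s`.  For abelian `L`-functions over a number field one needs a
power saving.  Here, for a bounded measurable `T ⊆ ι → ℝ` whose frontier is covered by `k` images
of the unit cube `[0,1]^κ` under maps that are `K`-Lipschitz on the cube:

* `abs_card_sub_volume_le` : for every `M ≥ 1`,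
  `|#{ν : ι → ℤ | ν + 1 ∈ T} - vol T| ≤ k * M ^ card κ * (2 * ⌈K / M⌉₊ + 1) ^ card ι`;
* `abs_card_smul_sub_le` : for `S` bounded measurable with frontier covered by `k` images of
  `[0,1]^κ` under `L`-Lipschitz maps, every `t ≥ 1` and EVERY translation `v`,
  `|#{ν : ι → ℤ | v + ν ∈ t • S} - t ^ card ι * vol S| ≤ C * t ^ card κ`,
  `C = k * 2 ^ card κ * (2 * ⌈L⌉₊ + 1) ^ card ι`.

Mathlib only.
-/
import Mathlib

set_option autoImplicit false

noncomputable section

namespace Fermat.Agent.DS.N8b.LipCount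

open MeasureTheory BoxIntegral Set Bornology
open scoped NNReal ENNReal Pointwise

variable {ι κ : Type*} [Fintype ι] [Fintype κ]

/-- the half-open unit cube `∏ (ν i, ν i + 1]` -/
abbrev cube (ν : ι → ℤ) : Set (ι → ℝ) := (unitPartition.box 1 ν : Set (ι → ℝ))

/-- its distinguished lattice point `ν + 1` -/
abbrev pt (ν : ι → ℤ) : ι → ℝ := unitPartition.tag 1 ν

omit [Fintype ι] in
theorem pt_apply (ν : ι → ℤ) (i : ι) : pt ν i = (ν i : ℝ) + 1 := by
  simp [pt, unitPartition.tag]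

omit [Fintype ι] in
theorem pt_mem_cube (ν : ι → ℤ) : pt ν ∈ cube ν := unitPartition.tag_mem 1 ν

omit [Fintype ι] in
theorem mem_cube_iff {ν : ι → ℤ} {x : ι → ℝ} :
    x ∈ cube ν ↔ ∀ i, (ν i : ℝ) < x i ∧ x i ≤ ν i + 1 := by
  have := unitPartition.mem_box_iff (n := 1) (ν := ν) (x := x)
  simp only [Nat.cast_one, div_one] at this
  exact this

omit [Fintype ι] in
theorem mem_cube_iff_index {ν : ι → ℤ} {x : ι → ℝ} :
    x ∈ cube ν ↔ unitPartition.index 1 x = ν := unitPartition.mem_box_iff_index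

omit [Fintype ι] in
theorem mem_cube_index (x : ι → ℝ) : x ∈ cube (unitPartition.index 1 x) :=
  mem_cube_iff_index.mpr rfl

omit [Fintype ι] in
theorem cube_disjoint {ν ν' : ι → ℤ} (h : ν ≠ ν') : Disjoint (cube ν) (cube ν') :=
  unitPartition.disjoint.mp h

omit [Fintype ι] in
theorem measurableSet_cube [Finite ι] (ν : ι → ℤ) : MeasurableSet (cube ν) :=
  (unitPartition.box 1 ν).measurableSet_coe

theorem volume_cube (ν : ι → ℤ) : volume (cube ν) = 1 := by
  rw [cube, unitPartition.volume_box]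
  simp

omit [Fintype ι] in
theorem isPreconnected_cube [Finite ι] (ν : ι → ℤ) : IsPreconnected (cube ν) := by
  have : Convex ℝ (cube ν) := by
    rw [cube, BoxIntegral.Box.coe_eq_pi]
    exact convex_pi fun i _ => convex_Ioc _ _
  exact this.isPreconnected

omit [Fintype ι] in
/-- a cube that misses the frontier of `T` is inside `T` or disjoint from it -/
theorem cube_subset_or_disjoint [Finite ι] {T : Set (ι → ℝ)} {ν : ι → ℤ}
    (h : Disjoint (cube ν) (frontier T)) : cube ν ⊆ T ∨ Disjoint (cube ν) T := by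
  have hcov : cube ν ⊆ interior T ∪ interior Tᶜ := by
    intro x hx
    by_contra hne
    rw [mem_union, not_or] at hne
    apply h.le_bot ⟨hx, ?_⟩
    rw [frontier, Set.mem_sdiff]
    refine ⟨?_, hne.1⟩
    by_contra hcl
    apply hne.2
    rw [interior_compl]
    exact hcl
  have hdisj : Disjoint (interior T) (interior Tᶜ) :=
    (disjoint_compl_right (a := T)).mono interior_subset interior_subset
  rcases (isPreconnected_cube ν).subset_or_subset isOpen_interior isOpen_interior hdisj hcov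
    with h1 | h2
  · exact Or.inl (h1.trans interior_subset)
  · refine Or.inr ?_
    rw [Set.disjoint_left]
    intro x hx hxT
    exact (interior_subset (h2 hx)) hxT

/-! ### cubes meeting a set of small diameter -/

omit [Fintype ι] in
theorem index_sub_le {x y : ι → ℝ} {D : ℝ} (i : ι) (h : |x i - y i| ≤ D) :
    unitPartition.index 1 x i ∈ Finset.Icc (unitPartition.index 1 y i - ⌈D⌉)
      (unitPartition.index 1 y i + ⌈D⌉) := by
  rw [Finset.mem_Icc]
  simp only [unitPartition.index_apply, Nat.cast_one, one_mul]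
  rw [abs_le] at h
  constructor
  · have h1 : y i ≤ x i + D := by linarith [h.1]
    have h2 : ⌈y i⌉ ≤ ⌈x i⌉ + ⌈D⌉ := (Int.ceil_le_ceil h1).trans (Int.ceil_add_le _ _)
    omega
  · have h1 : x i ≤ y i + D := by linarith [h.2]
    have h2 : ⌈x i⌉ ≤ ⌈y i⌉ + ⌈D⌉ := (Int.ceil_le_ceil h1).trans (Int.ceil_add_le _ _)
    omega

/-- a set of sup-diameter `≤ D` meets at most `(2⌈D⌉₊ + 1)^n` unit cubes -/
theorem exists_finset_cover_of_dist_le [DecidableEq ι] {A : Set (ι → ℝ)} {D : ℝ} (hD : 0 ≤ D)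
    (hA : ∀ x ∈ A, ∀ y ∈ A, dist x y ≤ D) :
    ∃ F : Finset (ι → ℤ), F.card ≤ (2 * ⌈D⌉₊ + 1) ^ Fintype.card ι ∧
      ∀ ν : ι → ℤ, (cube ν ∩ A).Nonempty → ν ∈ F := by
  rcases A.eq_empty_or_nonempty with rfl | ⟨a0, ha0⟩
  · exact ⟨∅, by simp, fun ν h => by simp at h⟩
  refine ⟨Fintype.piFinset fun i => Finset.Icc (unitPartition.index 1 a0 i - ⌈D⌉)
    (unitPartition.index 1 a0 i + ⌈D⌉), ?_, ?_⟩
  · rw [Fintype.card_piFinset]
    have : ∀ i : ι, (Finset.Icc (unitPartition.index 1 a0 i - ⌈D⌉)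
        (unitPartition.index 1 a0 i + ⌈D⌉)).card = 2 * ⌈D⌉₊ + 1 := by
      intro i
      rw [Int.card_Icc]
      have h0 : 0 ≤ ⌈D⌉ := Int.ceil_nonneg hD
      have h1 : (⌈D⌉₊ : ℤ) = ⌈D⌉ := by
        rw [Int.natCast_ceil_eq_ceil hD]
      have : unitPartition.index 1 a0 i + ⌈D⌉ + 1 - (unitPartition.index 1 a0 i - ⌈D⌉)
          = ((2 * ⌈D⌉₊ + 1 : ℕ) : ℤ) := by
        push_cast
        rw [h1]
        ring
      rw [this, Int.toNat_natCast]
    rw [Finset.prod_congr rfl fun i _ => this i, Finset.prod_const, Finset.card_univ]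
  · rintro ν ⟨x, hxν, hxA⟩
    rw [Fintype.mem_piFinset]
    intro i
    rw [← mem_cube_iff_index.mp hxν]
    apply index_sub_le
    have := hA x hxA a0 ha0
    rw [dist_pi_le_iff hD] at this
    have h2 := this i
    rwa [Real.dist_eq] at h2

/-! ### subdividing the parameter cube -/

/-- the small cube `∏ [μ j / M, (μ j + 1) / M]` -/
def small (M : ℕ) (μ : κ → Fin M) : Set (κ → ℝ) :=
  {x | ∀ j, ((μ j : ℕ) : ℝ) / M ≤ x j ∧ x j ≤ ((μ j : ℕ) + 1 : ℝ) / M}

omit [Fintype κ] in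
theorem Icc_subset_iUnion_small {M : ℕ} (hM : 0 < M) :
    (Icc (0 : κ → ℝ) 1) ⊆ ⋃ μ : κ → Fin M, small M μ := by
  intro x hx
  rw [mem_Icc] at hx
  have hMr : (0 : ℝ) < M := by exact_mod_cast hM
  -- index of the small cube containing `x j`
  have key : ∀ j, ∃ a : Fin M, ((a : ℕ) : ℝ) / M ≤ x j ∧ x j ≤ ((a : ℕ) + 1 : ℝ) / M := by
    intro j
    have h0 : 0 ≤ x j := hx.1 j
    have h1 : x j ≤ 1 := hx.2 j
    by_cases hlt : x j < 1
    · have hfl : ⌊x j * M⌋₊ < M := by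
        rw [Nat.floor_lt (by positivity)]
        calc x j * M < 1 * M := by gcongr
          _ = M := one_mul _
      refine ⟨⟨⌊x j * M⌋₊, hfl⟩, ?_, ?_⟩
      · rw [div_le_iff₀ hMr]
        exact Nat.floor_le (by positivity)
      · rw [le_div_iff₀ hMr]
        exact (Nat.lt_floor_add_one _).le
    · have hx1 : x j = 1 := le_antisymm h1 (not_lt.mp hlt)
      refine ⟨⟨M - 1, Nat.sub_lt hM one_pos⟩, ?_, ?_⟩
      · rw [div_le_iff₀ hMr, hx1, one_mul]
        simp
      · rw [le_div_iff₀ hMr, hx1, one_mul]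
        have : ((M - 1 : ℕ) : ℝ) + 1 = M := by
          rw [Nat.cast_sub hM]; simp
        simp only
        rw [this]
  choose μ hμ using key
  exact mem_iUnion.mpr ⟨μ, hμ⟩

theorem dist_le_of_mem_small {M : ℕ} (hM : 0 < M) {μ : κ → Fin M} {x y : κ → ℝ}
    (hx : x ∈ small M μ) (hy : y ∈ small M μ) : dist x y ≤ 1 / M := by
  have hMr : (0 : ℝ) < M := by exact_mod_cast hM
  rw [dist_pi_le_iff (by positivity)]
  intro j
  rw [Real.dist_eq, abs_le]
  have hx' := hx j
  have hy' := hy j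
  have : ((μ j : ℕ) + 1 : ℝ) / M = ((μ j : ℕ) : ℝ) / M + 1 / M := by ring
  constructor <;> linarith [hx'.1, hx'.2, hy'.1, hy'.2]

/-! ### the cubes meeting the frontier -/

/-- the frontier of `T`, covered by `k` Lipschitz images of the unit cube, meets at most
`k * M ^ d * (2⌈K/M⌉₊ + 1)^n` unit cubes -/
theorem exists_finset_cover_frontier [DecidableEq ι] {T : Set (ι → ℝ)} {k : ℕ}
    (ψ : Fin k → (κ → ℝ) → (ι → ℝ)) (K : ℝ≥0)
    (hψ : ∀ i, LipschitzOnWith K (ψ i) (Icc 0 1))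
    (hfr : frontier T ⊆ ⋃ i, ψ i '' Icc 0 1) {M : ℕ} (hM : 0 < M) :
    ∃ F : Finset (ι → ℤ),
      F.card ≤ k * M ^ Fintype.card κ * (2 * ⌈(K : ℝ) / M⌉₊ + 1) ^ Fintype.card ι ∧
      ∀ ν : ι → ℤ, (cube ν ∩ frontier T).Nonempty → ν ∈ F := by
  classical
  have hMr : (0 : ℝ) < M := by exact_mod_cast hM
  have hD : (0 : ℝ) ≤ (K : ℝ) / M := by positivity
  -- the pieces
  have hpiece : ∀ (i : Fin k) (μ : κ → Fin M),
      ∃ F : Finset (ι → ℤ), F.card ≤ (2 * ⌈(K : ℝ) / M⌉₊ + 1) ^ Fintype.card ι ∧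
        ∀ ν : ι → ℤ, (cube ν ∩ ψ i '' (small M μ ∩ Icc 0 1)).Nonempty → ν ∈ F := by
    intro i μ
    apply exists_finset_cover_of_dist_le hD
    rintro _ ⟨x, ⟨hxs, hxI⟩, rfl⟩ _ ⟨y, ⟨hys, hyI⟩, rfl⟩
    calc dist (ψ i x) (ψ i y) ≤ K * dist x y := (hψ i).dist_le_mul x hxI y hyI
      _ ≤ K * (1 / M) := by gcongr; exact dist_le_of_mem_small hM hxs hys
      _ = (K : ℝ) / M := by ring
  choose G hGcard hGmem using hpiece
  refine ⟨Finset.univ.biUnion fun i : Fin k => Finset.univ.biUnion fun μ : κ → Fin M => G i μ,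
    ?_, ?_⟩
  · calc (Finset.univ.biUnion fun i : Fin k =>
          Finset.univ.biUnion fun μ : κ → Fin M => G i μ).card
        ≤ ∑ i : Fin k, (Finset.univ.biUnion fun μ : κ → Fin M => G i μ).card :=
          Finset.card_biUnion_le
      _ ≤ ∑ _i : Fin k, M ^ Fintype.card κ * (2 * ⌈(K : ℝ) / M⌉₊ + 1) ^ Fintype.card ι := by
          refine Finset.sum_le_sum fun i _ => ?_
          calc (Finset.univ.biUnion fun μ : κ → Fin M => G i μ).card
              ≤ ∑ μ : κ → Fin M, (G i μ).card := Finset.card_biUnion_le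
            _ ≤ ∑ _μ : κ → Fin M, (2 * ⌈(K : ℝ) / M⌉₊ + 1) ^ Fintype.card ι :=
                Finset.sum_le_sum fun μ _ => hGcard i μ
            _ = M ^ Fintype.card κ * (2 * ⌈(K : ℝ) / M⌉₊ + 1) ^ Fintype.card ι := by
                rw [Finset.sum_const, Finset.card_univ, Fintype.card_fun, Fintype.card_fin,
                  smul_eq_mul]
      _ = k * M ^ Fintype.card κ * (2 * ⌈(K : ℝ) / M⌉₊ + 1) ^ Fintype.card ι := by
          rw [Finset.sum_const, Finset.card_univ, Fintype.card_fin, smul_eq_mul, mul_assoc]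
  · rintro ν ⟨x, hxν, hxT⟩
    obtain ⟨i, hi⟩ := mem_iUnion.mp (hfr hxT)
    obtain ⟨y, hyI, rfl⟩ := hi
    obtain ⟨μ, hμ⟩ := mem_iUnion.mp (Icc_subset_iUnion_small hM hyI)
    rw [Finset.mem_biUnion]
    refine ⟨i, Finset.mem_univ _, ?_⟩
    rw [Finset.mem_biUnion]
    exact ⟨μ, Finset.mem_univ _, hGmem i μ ν ⟨ψ i y, hxν, y, ⟨hμ, hyI⟩, rfl⟩⟩

/-! ### counting versus volume -/

/-- **the basic comparison**: if every unit cube meeting the frontier of the bounded measurable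
set `T` has its index in the finite set `F`, then the number of lattice points `ν + 1` in `T`
differs from the volume of `T` by at most `#F`. -/
theorem abs_ncard_sub_volume_le_card {T : Set (ι → ℝ)} (hTb : IsBounded T)
    (hTm : MeasurableSet T) (F : Finset (ι → ℤ))
    (hF : ∀ ν : ι → ℤ, (cube ν ∩ frontier T).Nonempty → ν ∈ F) :
    {ν : ι → ℤ | pt ν ∈ T}.Finite ∧
      |({ν : ι → ℤ | pt ν ∈ T}.ncard : ℝ) - (volume T).toReal| ≤ F.card := by
  classical
  have hvol : volume T ≠ ⊤ := hTb.measure_lt_top.ne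
  -- the good cubes
  have hGfin : {ν : ι → ℤ | cube ν ⊆ T}.Finite :=
    unitPartition.setFinite_index 1 hTm.nullMeasurableSet hvol
  set G : Finset (ι → ℤ) := hGfin.toFinset \ F with hG
  have hGmem : ∀ ν, ν ∈ G ↔ cube ν ⊆ T ∧ ν ∉ F := by
    intro ν
    rw [hG, Finset.mem_sdiff, Set.Finite.mem_toFinset, Set.mem_ofPred_eq]
  -- dichotomy outside `F`
  have hdich : ∀ ν, ν ∉ F → cube ν ⊆ T ∨ Disjoint (cube ν) T := by
    intro ν hν
    apply cube_subset_or_disjoint
    rw [Set.disjoint_iff_inter_eq_empty]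
    by_contra hne
    exact hν (hF ν (Set.nonempty_iff_ne_empty.mpr hne))
  -- lattice points
  have hpts : {ν : ι → ℤ | pt ν ∈ T} = (G : Set (ι → ℤ)) ∪ {ν | ν ∈ F ∧ pt ν ∈ T} := by
    ext ν
    simp only [Set.mem_ofPred_eq, Set.mem_union, Finset.mem_coe, hGmem]
    constructor
    · intro h
      by_cases hνF : ν ∈ F
      · exact Or.inr ⟨hνF, h⟩
      · rcases hdich ν hνF with h1 | h2
        · exact Or.inl ⟨h1, hνF⟩
        · exact absurd h (Set.disjoint_left.mp h2 (pt_mem_cube ν))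
    · rintro (⟨h1, -⟩ | ⟨-, h2⟩)
      · exact h1 (pt_mem_cube ν)
      · exact h2
  have hFTfin : {ν : ι → ℤ | ν ∈ F ∧ pt ν ∈ T}.Finite :=
    F.finite_toSet.subset fun ν h => h.1
  have hfin : {ν : ι → ℤ | pt ν ∈ T}.Finite := by
    rw [hpts]
    exact G.finite_toSet.union hFTfin
  refine ⟨hfin, ?_⟩
  have hdisjGF : Disjoint (G : Set (ι → ℤ)) {ν | ν ∈ F ∧ pt ν ∈ T} := by
    rw [Set.disjoint_left]
    intro ν hνG hνF
    exact ((hGmem ν).mp hνG).2 hνF.1
  have hcount : ({ν : ι → ℤ | pt ν ∈ T}.ncard : ℝ) =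
      G.card + ({ν : ι → ℤ | ν ∈ F ∧ pt ν ∈ T}.ncard : ℝ) := by
    rw [hpts, Set.ncard_union_eq hdisjGF G.finite_toSet hFTfin, Set.ncard_coe_finset]
    push_cast
    rfl
  have hcountF : ({ν : ι → ℤ | ν ∈ F ∧ pt ν ∈ T}.ncard : ℝ) ≤ F.card := by
    have : {ν : ι → ℤ | ν ∈ F ∧ pt ν ∈ T}.ncard ≤ (F : Set (ι → ℤ)).ncard :=
      Set.ncard_le_ncard (fun ν h => h.1) F.finite_toSet
    rw [Set.ncard_coe_finset] at this
    exact_mod_cast this
  -- volume
  set UG : Set (ι → ℝ) := ⋃ ν ∈ G, cube ν with hUG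
  set UF : Set (ι → ℝ) := ⋃ ν ∈ F, cube ν with hUF
  have hUGm : MeasurableSet UG := Finset.measurableSet_biUnion _ fun ν _ => measurableSet_cube ν
  have hUFm : MeasurableSet UF := Finset.measurableSet_biUnion _ fun ν _ => measurableSet_cube ν
  have hT : T = UG ∪ (T ∩ UF) := by
    ext x
    simp only [hUG, hUF, Set.mem_union, Set.mem_iUnion, Set.mem_inter_iff, exists_prop]
    constructor
    · intro hx
      by_cases hνF : unitPartition.index 1 x ∈ F
      · exact Or.inr ⟨hx, _, hνF, mem_cube_index x⟩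
      · rcases hdich _ hνF with h1 | h2
        · exact Or.inl ⟨_, (hGmem _).mpr ⟨h1, hνF⟩, mem_cube_index x⟩
        · exact absurd hx (Set.disjoint_left.mp h2 (mem_cube_index x))
    · rintro (⟨ν, hν, hx⟩ | ⟨hx, -⟩)
      · exact ((hGmem ν).mp hν).1 hx
      · exact hx
  have hdisjU : Disjoint UG (T ∩ UF) := by
    rw [Set.disjoint_left]
    intro x hx hx'
    simp only [hUG, hUF, Set.mem_iUnion, Set.mem_inter_iff, exists_prop] at hx hx'
    obtain ⟨ν, hν, hxν⟩ := hx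
    obtain ⟨-, ν', hν', hxν'⟩ := hx'
    have : ν = ν' := by
      rw [← mem_cube_iff_index.mp hxν, ← mem_cube_iff_index.mp hxν']
    subst this
    exact ((hGmem ν).mp hν).2 hν'
  have hvolUG : volume UG = G.card := by
    rw [hUG, measure_biUnion_finset (fun ν _ ν' _ h => cube_disjoint h)
      (fun ν _ => measurableSet_cube ν)]
    simp
  have hvolUF : volume UF ≤ F.card := by
    calc volume UF ≤ ∑ ν ∈ F, volume (cube ν) := measure_biUnion_finset_le _ _
      _ = F.card := by simp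
  have hvolT : volume T = G.card + volume (T ∩ UF) := by
    conv_lhs => rw [hT]
    rw [measure_union hdisjU (hTm.inter hUFm), hvolUG]
  have hTUF : volume (T ∩ UF) ≤ F.card := (measure_mono Set.inter_subset_right).trans hvolUF
  have hTUFne : volume (T ∩ UF) ≠ ⊤ := (hTUF.trans_lt (by simp)).ne
  have hvolT' : (volume T).toReal = G.card + (volume (T ∩ UF)).toReal := by
    rw [hvolT, ENNReal.toReal_add (by simp) hTUFne]
    simp
  have hTUF' : (volume (T ∩ UF)).toReal ≤ F.card := by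
    have := ENNReal.toReal_mono (by simp) hTUF
    simpa using this
  rw [hcount, hvolT', abs_le]
  have h0 : (0 : ℝ) ≤ (volume (T ∩ UF)).toReal := ENNReal.toReal_nonneg
  have h1 : (0 : ℝ) ≤ ({ν : ι → ℤ | ν ∈ F ∧ pt ν ∈ T}.ncard : ℝ) := Nat.cast_nonneg _
  constructor <;> linarith

/-- **the Lipschitz principle**, basic form (lattice points `ν + 1`). -/
theorem abs_card_sub_volume_le {T : Set (ι → ℝ)} (hTb : IsBounded T) (hTm : MeasurableSet T)
    {k : ℕ} (ψ : Fin k → (κ → ℝ) → (ι → ℝ)) (K : ℝ≥0)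
    (hψ : ∀ i, LipschitzOnWith K (ψ i) (Icc 0 1))
    (hfr : frontier T ⊆ ⋃ i, ψ i '' Icc 0 1) {M : ℕ} (hM : 0 < M) :
    {ν : ι → ℤ | pt ν ∈ T}.Finite ∧
      |({ν : ι → ℤ | pt ν ∈ T}.ncard : ℝ) - (volume T).toReal| ≤
        k * M ^ Fintype.card κ * (2 * ⌈(K : ℝ) / M⌉₊ + 1) ^ Fintype.card ι := by
  classical
  obtain ⟨F, hFcard, hF⟩ := exists_finset_cover_frontier ψ K hψ hfr hM
  obtain ⟨hfin, hle⟩ := abs_ncard_sub_volume_le_card hTb hTm F hF
  refine ⟨hfin, hle.trans ?_⟩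
  exact_mod_cast hFcard

/-! ### dilations and translations -/

/-- **the Lipschitz principle with error term**: `S` bounded measurable, `frontier S` covered by
`k` images of `[0,1]^κ` under maps that are `L`-Lipschitz on the cube.  Then for all `t ≥ 1` and
ALL translations `v`:
`|#{ν : ι → ℤ | v + ν ∈ t • S} - t ^ card ι * vol S| ≤ (k * 2^card κ * (2⌈L⌉₊+1)^card ι) * t^card κ`. -/
theorem abs_card_smul_sub_le {S : Set (ι → ℝ)} (hSb : IsBounded S) (hSm : MeasurableSet S)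
    {k : ℕ} (φ : Fin k → (κ → ℝ) → (ι → ℝ)) (L : ℝ≥0)
    (hφ : ∀ i, LipschitzOnWith L (φ i) (Icc 0 1))
    (hfr : frontier S ⊆ ⋃ i, φ i '' Icc 0 1) {t : ℝ} (ht : 1 ≤ t) (v : ι → ℝ) :
    {ν : ι → ℤ | (v + fun i => (ν i : ℝ)) ∈ t • S}.Finite ∧
      |({ν : ι → ℤ | (v + fun i => (ν i : ℝ)) ∈ t • S}.ncard : ℝ) -
          t ^ Fintype.card ι * (volume S).toReal| ≤
        (k * 2 ^ Fintype.card κ * (2 * ⌈(L : ℝ)⌉₊ + 1) ^ Fintype.card ι : ℕ) *
          t ^ Fintype.card κ := by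
  classical
  have ht0 : 0 < t := lt_of_lt_of_le one_pos ht
  have htne : t ≠ 0 := ht0.ne'
  set w : ι → ℝ := v - 1 with hw
  set T : Set (ι → ℝ) := (fun x => x + w) ⁻¹' (t • S) with hT
  -- lattice points
  have hpts : {ν : ι → ℤ | (v + fun i => (ν i : ℝ)) ∈ t • S} = {ν : ι → ℤ | pt ν ∈ T} := by
    ext ν
    simp only [Set.mem_ofPred_eq, hT, Set.mem_preimage]
    have : pt ν + w = v + fun i => (ν i : ℝ) := by
      ext i
      simp only [Pi.add_apply, pt_apply, hw, Pi.sub_apply, Pi.one_apply]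
      ring
    rw [this]
  -- `T` is bounded and measurable
  have hTeq : T = (fun x => x + (-w)) '' (t • S) := by
    ext x
    simp only [hT, Set.mem_preimage, Set.mem_image]
    constructor
    · intro hx
      exact ⟨x + w, hx, by simp⟩
    · rintro ⟨y, hy, rfl⟩
      simpa using hy
  have hTb : IsBounded T := by
    rw [hTeq]
    have h1 : IsBounded (t • S) := hSb.smul₀ t
    have : (fun x : ι → ℝ => x + (-w)) '' (t • S) = (-w) +ᵥ (t • S) := by
      ext x
      simp only [Set.mem_image, Set.mem_vadd_set, vadd_eq_add]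
      constructor
      · rintro ⟨y, hy, rfl⟩; exact ⟨y, hy, add_comm _ _⟩
      · rintro ⟨y, hy, rfl⟩; exact ⟨y, hy, add_comm _ _⟩
    rw [this]
    exact h1.vadd _
  have htSm : MeasurableSet (t • S) := hSm.const_smul₀ t
  have hTm : MeasurableSet T := by
    rw [hT]
    exact (measurable_add_const w) htSm
  -- volume
  have hvolT : (volume T).toReal = t ^ Fintype.card ι * (volume S).toReal := by
    rw [hT, measure_preimage_add_right, Measure.addHaar_smul, ENNReal.toReal_mul,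
      Module.finrank_fintype_fun_eq_card, abs_of_pos (pow_pos ht0 _),
      ENNReal.toReal_ofReal (pow_pos ht0 _).le]
  -- frontier
  have hfrT : frontier T ⊆ ⋃ i, (fun x => t • φ i x - w) '' Icc 0 1 := by
    have h1 : frontier T = (fun x => x + w) ⁻¹' frontier (t • S) := by
      rw [hT]
      exact ((Homeomorph.addRight w).preimage_frontier (t • S)).symm
    have h2 : frontier (t • S) = t • frontier S := by
      have := (Homeomorph.smulOfNeZero t htne).image_frontier S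
      simpa [Set.image_smul] using this.symm
    intro x hx
    rw [h1, Set.mem_preimage, h2, Set.mem_smul_set] at hx
    obtain ⟨y, hy, hyx⟩ := hx
    obtain ⟨i, z, hz, rfl⟩ := mem_iUnion.mp (hfr hy)
    refine mem_iUnion.mpr ⟨i, z, hz, ?_⟩
    simp only
    rw [hyx]
    simp
  -- Lipschitz constants
  have htn : ((Real.toNNReal t : ℝ≥0) : ℝ) = t := Real.coe_toNNReal t ht0.le
  set K : ℝ≥0 := Real.toNNReal t * L with hK
  have hψ : ∀ i, LipschitzOnWith K (fun x => t • φ i x - w) (Icc 0 1) := by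
    intro i
    rw [lipschitzOnWith_iff_dist_le_mul]
    intro x hx y hy
    have h1 := (hφ i).dist_le_mul x hx y hy
    calc dist (t • φ i x - w) (t • φ i y - w) = dist (t • φ i x) (t • φ i y) :=
          dist_sub_right _ _ _
      _ = |t| * dist (φ i x) (φ i y) := by
          rw [dist_smul₀, Real.norm_eq_abs]
      _ ≤ t * (L * dist x y) := by
          rw [abs_of_pos ht0]
          gcongr
      _ = K * dist x y := by
          rw [hK, NNReal.coe_mul, htn]
          ring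
  -- apply the basic form with `M = ⌈t⌉₊`
  have hM : 0 < ⌈t⌉₊ := Nat.ceil_pos.mpr ht0
  obtain ⟨hfin, hle⟩ := abs_card_sub_volume_le hTb hTm _ K hψ hfrT hM
  rw [hpts]
  refine ⟨hfin, ?_⟩
  rw [← hvolT]
  refine hle.trans ?_
  -- estimate the constants
  have hMt : (t : ℝ) ≤ ⌈t⌉₊ := Nat.le_ceil t
  have hMr : (0 : ℝ) < ⌈t⌉₊ := by exact_mod_cast hM
  have hKM : ((K : ℝ) / ⌈t⌉₊) ≤ L := by
    rw [div_le_iff₀ hMr, hK, NNReal.coe_mul, htn]
    calc t * (L : ℝ) ≤ ⌈t⌉₊ * (L : ℝ) := by gcongr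
      _ = (L : ℝ) * ⌈t⌉₊ := mul_comm _ _
  have hceil : ⌈(K : ℝ) / ⌈t⌉₊⌉₊ ≤ ⌈(L : ℝ)⌉₊ := Nat.ceil_le_ceil hKM
  have hM2 : ((⌈t⌉₊ : ℕ) : ℝ) ≤ 2 * t := by
    have := (Nat.ceil_lt_add_one ht0.le).le
    linarith
  have h1 : ((⌈t⌉₊ : ℕ) : ℝ) ^ Fintype.card κ ≤ 2 ^ Fintype.card κ * t ^ Fintype.card κ := by
    rw [← mul_pow]
    exact pow_le_pow_left₀ (by positivity) hM2 _
  have h2 : ((2 * ⌈(K : ℝ) / ⌈t⌉₊⌉₊ + 1 : ℕ) : ℝ) ^ Fintype.card ι ≤
      ((2 * ⌈(L : ℝ)⌉₊ + 1 : ℕ) : ℝ) ^ Fintype.card ι := by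
    apply pow_le_pow_left₀ (by positivity)
    exact_mod_cast Nat.add_le_add_right (Nat.mul_le_mul_left 2 hceil) 1
  push_cast at h2 ⊢
  calc (k : ℝ) * (⌈t⌉₊ : ℝ) ^ Fintype.card κ *
        (2 * (⌈(K : ℝ) / ⌈t⌉₊⌉₊ : ℝ) + 1) ^ Fintype.card ι
      ≤ (k : ℝ) * (2 ^ Fintype.card κ * t ^ Fintype.card κ) *
        (2 * (⌈(L : ℝ)⌉₊ : ℝ) + 1) ^ Fintype.card ι := by
        gcongr
    _ = (k : ℝ) * 2 ^ Fintype.card κ * (2 * (⌈(L : ℝ)⌉₊ : ℝ) + 1) ^ Fintype.card ι *
        t ^ Fintype.card κ := by ring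

end Fermat.Agent.DS.N8b.LipCount
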