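/-
S48 / (N8b) (B1') (helper70): the Lipschitz principle with error term for a general `ℤ`-lattice
`L` of a finite dimensional real inner product space `E` (same generality as Mathlib's
`ZLattice.covolume.tendsto_card_div_pow'`), and for ALL translates of `L`:

`abs_card_lattice_smul_sub_le` : `S ⊆ E` bounded measurable, `frontier S` covered by `k` images of
`[0,1]^κ` under maps Lipschitz on the cube ⟹ `∃ C, ∀ t ≥ 1, ∀ v,`
`|#{x ∈ L | v + x ∈ t • S} - t ^ dim E * vol S / covol L| ≤ C * t ^ card κ`.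

Mathlib + `LipCount`.
-/
import Mathlib
import Fermat.Agent.DS.N8b.LipCount

set_option autoImplicit false
set_option linter.unusedSectionVars false

noncomputable section

namespace Fermat.Agent.DS.N8b.LipCount

open MeasureTheory Set Bornology Module ZLattice
open scoped NNReal ENNReal Pointwise

variable {κ : Type*} [Fintype κ]

section General

variable {E : Type*} [NormedAddCommGroup E] [NormedSpace ℝ E] [FiniteDimensional ℝ E]
  [MeasurableSpace E] [BorelSpace E]
variable (L : Submodule ℤ E) [DiscreteTopology L] [IsZLattice ℝ L]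
variable {ι : Type*} [Fintype ι] (b : Basis ι ℤ L)

/-- the lattice point with coordinates `ν` -/
def latPt (ν : ι → ℤ) : E := ((b.equivFun.symm ν : L) : E)

theorem latPt_mem (ν : ι → ℤ) : latPt L b ν ∈ L := (b.equivFun.symm ν).2

theorem latPt_injective : Function.Injective (latPt L b) := by
  intro ν ν' h
  have : b.equivFun.symm ν = b.equivFun.symm ν' := Subtype.ext h
  exact b.equivFun.symm.injective this

theorem equivFun_latPt (ν : ι → ℤ) :
    (b.ofZLatticeBasis ℝ L).equivFun (latPt L b ν) = fun i => (ν i : ℝ) := by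
  ext i
  rw [Basis.equivFun_apply, latPt, Basis.ofZLatticeBasis_repr_apply]
  have : b.repr (b.equivFun.symm ν) i = ν i := by
    have := congrFun (b.equivFun.apply_symm_apply ν) i
    rwa [Basis.equivFun_apply] at this
  rw [this]

theorem exists_latPt_eq {x : E} (hx : x ∈ L) : ∃ ν : ι → ℤ, latPt L b ν = x :=
  ⟨b.equivFun ⟨x, hx⟩, by simp [latPt]⟩

/-- **the Lipschitz principle for a lattice, in coordinates** (the main term is the volume of the
image of `S` in the coordinates of a `ℤ`-basis of `L`). -/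
theorem abs_card_lattice_smul_sub_le'' {S : Set E} (hSb : IsBounded S) (hSm : MeasurableSet S)
    {k : ℕ} (φ : Fin k → (κ → ℝ) → E) (Lc : ℝ≥0)
    (hφ : ∀ i, LipschitzOnWith Lc (φ i) (Icc 0 1))
    (hfr : frontier S ⊆ ⋃ i, φ i '' Icc 0 1) :
    ∃ C : ℝ, ∀ t : ℝ, 1 ≤ t → ∀ v : E,
      {x : E | x ∈ L ∧ v + x ∈ t • S}.Finite ∧
      |({x : E | x ∈ L ∧ v + x ∈ t • S}.ncard : ℝ) -
        t ^ Fintype.card ι * (volume ((b.ofZLatticeBasis ℝ L).equivFun '' S)).toReal| ≤
          C * t ^ Fintype.card κ := by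
  classical
  set e : E ≃L[ℝ] (ι → ℝ) := (b.ofZLatticeBasis ℝ L).equivFunL with he
  have hecoe : ∀ x, e x = (b.ofZLatticeBasis ℝ L).equivFun x := fun x => rfl
  set S' : Set (ι → ℝ) := e '' S with hS'
  have hS'eq : (b.ofZLatticeBasis ℝ L).equivFun '' S = S' := rfl
  have hS'b : IsBounded S' := by
    rw [← NormedSpace.isVonNBounded_iff ℝ] at hSb ⊢
    exact Bornology.IsVonNBounded.image hSb (e : E →L[ℝ] ι → ℝ)
  have hS'm : MeasurableSet S' :=
    e.toHomeomorph.toMeasurableEquiv.measurableSet_image.mpr hSm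
  -- the Lipschitz cover of the frontier
  obtain ⟨Ke, hKe⟩ : ∃ Ke : ℝ≥0, LipschitzWith Ke e := ⟨_, (e : E →L[ℝ] ι → ℝ).lipschitz⟩
  have hφ' : ∀ i, LipschitzOnWith (Ke * Lc) (fun x => e (φ i x)) (Icc 0 1) := fun i =>
    hKe.comp_lipschitzOnWith (hφ i)
  have hfr' : frontier S' ⊆ ⋃ i, (fun x => e (φ i x)) '' Icc 0 1 := by
    have : frontier S' = e '' frontier S := (e.toHomeomorph.image_frontier S).symm
    rw [this]
    rintro _ ⟨y, hy, rfl⟩
    obtain ⟨i, z, hz, rfl⟩ := mem_iUnion.mp (hfr hy)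
    exact mem_iUnion.mpr ⟨i, z, hz, rfl⟩
  refine ⟨((k * 2 ^ Fintype.card κ * (2 * ⌈((Ke * Lc : ℝ≥0) : ℝ)⌉₊ + 1) ^ Fintype.card ι : ℕ) : ℝ),
    fun t ht v => ?_⟩
  have ht0 : t ≠ 0 := (lt_of_lt_of_le one_pos ht).ne'
  obtain ⟨hfin, hle⟩ := abs_card_smul_sub_le hS'b hS'm _ (Ke * Lc) hφ' hfr' ht (e v)
  -- transport the set of lattice points
  have hset : {x : E | x ∈ L ∧ v + x ∈ t • S} =
      latPt L b '' {ν : ι → ℤ | (e v + fun i => (ν i : ℝ)) ∈ t • S'} := by
    ext x
    simp only [Set.mem_ofPred_eq, Set.mem_image]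
    have key : ∀ ν : ι → ℤ, (e v + fun i => (ν i : ℝ)) ∈ t • S' ↔ v + latPt L b ν ∈ t • S := by
      intro ν
      have h1 : (e v + fun i => (ν i : ℝ)) = e (v + latPt L b ν) := by
        rw [map_add, hecoe (latPt L b ν), equivFun_latPt]
      rw [h1, hS', Set.mem_smul_set_iff_inv_smul_mem₀ ht0, Set.mem_smul_set_iff_inv_smul_mem₀ ht0,
        ← map_smul]
      exact e.injective.mem_set_image
    constructor
    · rintro ⟨hxL, hx⟩
      obtain ⟨ν, rfl⟩ := exists_latPt_eq L b hxL
      exact ⟨ν, (key ν).mpr hx, rfl⟩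
    · rintro ⟨ν, hν, rfl⟩
      exact ⟨latPt_mem L b ν, (key ν).mp hν⟩
  rw [hset, Set.ncard_image_of_injective _ (latPt_injective L b), hS'eq]
  exact ⟨hfin.image _, hle⟩

end General

section InnerProductSpace

variable {E : Type*} [NormedAddCommGroup E] [InnerProductSpace ℝ E] [FiniteDimensional ℝ E]
  [MeasurableSpace E] [BorelSpace E]
variable (L : Submodule ℤ E) [DiscreteTopology L] [IsZLattice ℝ L]

/-- **the Lipschitz principle with error term for a lattice of an inner product space**, all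
translates: `|#{x ∈ L | v + x ∈ t • S} - t ^ dim E * vol S / covol L| ≤ C * t ^ card κ`. -/
theorem abs_card_lattice_smul_sub_le {S : Set E} (hSb : IsBounded S) (hSm : MeasurableSet S)
    {k : ℕ} (φ : Fin k → (κ → ℝ) → E) (Lc : ℝ≥0)
    (hφ : ∀ i, LipschitzOnWith Lc (φ i) (Icc 0 1))
    (hfr : frontier S ⊆ ⋃ i, φ i '' Icc 0 1) :
    ∃ C : ℝ, ∀ t : ℝ, 1 ≤ t → ∀ v : E,
      {x : E | x ∈ L ∧ v + x ∈ t • S}.Finite ∧
      |({x : E | x ∈ L ∧ v + x ∈ t • S}.ncard : ℝ) -
        t ^ finrank ℝ E * (volume.real S / covolume L)| ≤ C * t ^ Fintype.card κ := by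
  let b := Module.Free.chooseBasis ℤ L
  obtain ⟨C, hC⟩ := abs_card_lattice_smul_sub_le'' L b hSb hSm φ Lc hφ hfr
  refine ⟨C, fun t ht v => ?_⟩
  obtain ⟨h1, h2⟩ := hC t ht v
  refine ⟨h1, ?_⟩
  have hcard : Fintype.card (Module.Free.ChooseBasisIndex ℤ L) = finrank ℝ E := by
    rw [← finrank_eq_card_chooseBasisIndex, ZLattice.rank ℝ L]
  have hvol : (volume ((b.ofZLatticeBasis ℝ L).equivFun '' S)).toReal =
      volume.real S / covolume L := by
    rw [volume_image_eq_volume_div_covolume' L b hSm.nullMeasurableSet, ENNReal.toReal_div,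
      ENNReal.toReal_ofReal (covolume_pos L volume).le, measureReal_def]
  rw [hcard, hvol] at h2
  exact h2

end InnerProductSpace

end Fermat.Agent.DS.N8b.LipCount
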