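/-
S48-(N8b)-(B4), second part: the bounded-logarithm step.

If `L s → ℓ₁ ≠ 0` as `s → 1⁺` and `w` is a continuous function on `(1, 1 + δ)` with
`exp (w s) = L s` (for instance the Euler-product logarithm of an L-function), then `w` has a
finite limit at `1⁺`.  Mathlib only.
-/
import Mathlib

set_option autoImplicit false

open Filter Topology Complex Set

namespace Fermat.Agent.DS.N8b

/-- A continuous real function with integer values on a preconnected set is constant. -/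
theorem eq_of_continuousOn_int_valued {S : Set ℝ} (hS : IsPreconnected S) {k : ℝ → ℝ}
    (hk : ContinuousOn k S) (hint : ∀ s ∈ S, ∃ n : ℤ, k s = n) {a b : ℝ} (ha : a ∈ S)
    (hb : b ∈ S) : k a = k b := by
  by_contra hne
  wlog hlt : k a < k b generalizing a b
  · exact this hb ha (Ne.symm hne) (lt_of_le_of_ne (not_lt.mp hlt) (Ne.symm hne))
  obtain ⟨m, hm⟩ := hint a ha
  obtain ⟨n, hn⟩ := hint b hb
  have hmn : m < n := by
    rw [hm, hn] at hlt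
    exact_mod_cast hlt
  have hmem : (m : ℝ) + 1 / 2 ∈ Icc (k a) (k b) := by
    constructor
    · rw [hm]; linarith
    · rw [hn]
      have : (m : ℝ) + 1 ≤ n := by exact_mod_cast hmn
      linarith
  obtain ⟨s, hs, hks⟩ := hS.intermediate_value ha hb hk hmem
  obtain ⟨j, hj⟩ := hint s hs
  rw [hj] at hks
  have h2 : (2 * j : ℤ) = 2 * m + 1 := by
    have : (2 * (j : ℝ)) = 2 * m + 1 := by linarith
    exact_mod_cast this
  omega

/-- **Bounded logarithm.** If `L s → ℓ₁ ≠ 0` as `s → 1⁺` and `w` is continuous on `(1, 1 + δ)`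
with `exp (w s) = L s` there, then `w` has a finite limit `w₁` at `1⁺`, and `exp w₁ = ℓ₁`. -/
theorem tendsto_of_exp_eq {L w : ℝ → ℂ} {ℓ₁ : ℂ} (hℓ : ℓ₁ ≠ 0)
    (hL : Tendsto L (𝓝[>] 1) (𝓝 ℓ₁)) {δ : ℝ} (hδ : 0 < δ)
    (hwc : ContinuousOn w (Ioo 1 (1 + δ)))
    (hexp : ∀ s ∈ Ioo (1 : ℝ) (1 + δ), Complex.exp (w s) = L s) :
    ∃ w₁ : ℂ, Complex.exp w₁ = ℓ₁ ∧ Tendsto w (𝓝[>] 1) (𝓝 w₁) := by
  have h1 : Tendsto (fun s ↦ L s / ℓ₁) (𝓝[>] 1) (𝓝 1) := by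
    simpa [div_self hℓ] using hL.div_const ℓ₁
  have hg : Tendsto (fun s ↦ ‖L s / ℓ₁ - 1‖) (𝓝[>] 1) (𝓝 0) := by
    have := (h1.sub_const 1).norm
    simpa using this
  have hev : ∀ᶠ s in 𝓝[>] (1 : ℝ), ‖L s / ℓ₁ - 1‖ < 1 :=
    hg.eventually (gt_mem_nhds zero_lt_one)
  obtain ⟨u₀, hu₀, hsub⟩ := mem_nhdsGT_iff_exists_Ioo_subset.mp hev
  have hu₀' : (1 : ℝ) < u₀ := hu₀
  set u := min u₀ (1 + δ) with hu
  have hu1 : 1 < u := lt_min hu₀' (by linarith)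
  have hI : ∀ s ∈ Ioo 1 u, ‖L s / ℓ₁ - 1‖ < 1 := fun s hs ↦
    hsub ⟨hs.1, hs.2.trans_le (min_le_left _ _)⟩
  have hIδ : Ioo 1 u ⊆ Ioo 1 (1 + δ) := fun s hs ↦ ⟨hs.1, hs.2.trans_le (min_le_right _ _)⟩
  have hslit : ∀ s ∈ Ioo 1 u, L s / ℓ₁ ∈ slitPlane := fun s hs ↦ by
    have := mem_slitPlane_of_norm_lt_one (hI s hs)
    simpa using this
  have hLc : ContinuousOn L (Ioo 1 u) := by
    have : ContinuousOn (fun s ↦ Complex.exp (w s)) (Ioo 1 u) := (hwc.mono hIδ).cexp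
    exact this.congr (fun s hs ↦ (hexp s (hIδ hs)).symm)
  have hlogc : ContinuousOn (fun s ↦ Complex.log (L s / ℓ₁)) (Ioo 1 u) :=
    (hLc.div_const ℓ₁).clog hslit
  set v : ℝ → ℂ := fun s ↦ w s - Complex.log (L s / ℓ₁) with hv
  have hvc : ContinuousOn v (Ioo 1 u) := (hwc.mono hIδ).sub hlogc
  have hvexp : ∀ s ∈ Ioo 1 u, Complex.exp (v s) = ℓ₁ := by
    intro s hs
    have hLs : L s ≠ 0 := by rw [← hexp s (hIδ hs)]; exact Complex.exp_ne_zero _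
    simp only [hv]
    rw [Complex.exp_sub, hexp s (hIδ hs), Complex.exp_log (div_ne_zero hLs hℓ)]
    field_simp
  set s₀ : ℝ := (1 + u) / 2 with hs₀
  have hs₀I : s₀ ∈ Ioo 1 u := ⟨by rw [hs₀]; linarith, by rw [hs₀]; linarith⟩
  have h2pi : (2 * (Real.pi : ℂ) * I) ≠ 0 := Complex.two_pi_I_ne_zero
  have hconst : ∀ s ∈ Ioo 1 u, v s = v s₀ := by
    have hk : ∀ t ∈ Ioo 1 u, ∃ n : ℤ, ((v t - v s₀) / (2 * Real.pi * I)).re = n := by
      intro t ht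
      obtain ⟨n, hn⟩ := Complex.exp_eq_exp_iff_exists_int.mp
        ((hvexp t ht).trans (hvexp s₀ hs₀I).symm)
      refine ⟨n, ?_⟩
      rw [hn, add_sub_cancel_left, mul_div_assoc, div_self h2pi, mul_one]
      simp
    have hkc : ContinuousOn (fun t ↦ ((v t - v s₀) / (2 * Real.pi * I)).re) (Ioo 1 u) :=
      Complex.continuous_re.comp_continuousOn ((hvc.sub continuousOn_const).div_const _)
    intro s hs
    have hks := eq_of_continuousOn_int_valued isPreconnected_Ioo hkc hk hs hs₀I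
    simp only [sub_self, zero_div, Complex.zero_re] at hks
    obtain ⟨n, hn⟩ := Complex.exp_eq_exp_iff_exists_int.mp
      ((hvexp s hs).trans (hvexp s₀ hs₀I).symm)
    have hn0 : (n : ℝ) = 0 := by
      rw [hn, add_sub_cancel_left, mul_div_assoc, div_self h2pi, mul_one] at hks
      simpa using hks
    have : n = 0 := by exact_mod_cast hn0
    rw [hn, this]
    simp
  refine ⟨v s₀, hvexp s₀ hs₀I, ?_⟩
  have hlog0 : Tendsto (fun s ↦ Complex.log (L s / ℓ₁)) (𝓝[>] 1) (𝓝 0) := by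
    have := (continuousAt_clog (by simp : (1 : ℂ) ∈ slitPlane)).tendsto.comp h1
    simpa [Function.comp_def] using this
  have hsum : Tendsto (fun s ↦ v s₀ + Complex.log (L s / ℓ₁)) (𝓝[>] 1) (𝓝 (v s₀ + 0)) :=
    tendsto_const_nhds.add hlog0
  rw [add_zero] at hsum
  refine hsum.congr' ?_
  filter_upwards [Ioo_mem_nhdsGT hu1] with s hs
  rw [← hconst s hs]
  simp only [hv]
  ring

/-- Bounded form: under the hypotheses of `tendsto_of_exp_eq`, `w` is bounded near `1⁺`. -/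
theorem exists_bound_of_exp_eq {L w : ℝ → ℂ} {ℓ₁ : ℂ} (hℓ : ℓ₁ ≠ 0)
    (hL : Tendsto L (𝓝[>] 1) (𝓝 ℓ₁)) {δ : ℝ} (hδ : 0 < δ)
    (hwc : ContinuousOn w (Ioo 1 (1 + δ)))
    (hexp : ∀ s ∈ Ioo (1 : ℝ) (1 + δ), Complex.exp (w s) = L s) :
    ∃ B δ' : ℝ, 0 < δ' ∧ ∀ s : ℝ, 1 < s → s < 1 + δ' → ‖w s‖ ≤ B := by
  obtain ⟨w₁, -, hw⟩ := tendsto_of_exp_eq hℓ hL hδ hwc hexp
  have hev : ∀ᶠ s : ℝ in 𝓝[>] 1, ‖w s‖ < ‖w₁‖ + 1 :=
    hw.norm.eventually (gt_mem_nhds (lt_add_one _))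
  obtain ⟨u, hu, hsub⟩ := mem_nhdsGT_iff_exists_Ioo_subset.mp hev
  have hu1 : (1 : ℝ) < u := hu
  exact ⟨‖w₁‖ + 1, u - 1, by linarith, fun s hs1 hs2 ↦ (hsub ⟨hs1, by linarith⟩).le⟩

end Fermat.Agent.DS.N8b
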