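/-
GATE-N / S48-(N8b) RAY ADAPTER (helper77): the power-saving bound for the partial sums of
`χ (N 𝔞)` over the integral ideals of a number field, for a Dirichlet character `χ` modulo `m`
which is constant on ray classes (e.g. `χ` even, or all norms positive) and nontrivial on
the norms: a direct consequence of the ray class counting theorem `rayCountStmt` of `GC/RaySI`
(every ray class modulo `(m)` has `κ x + O(x ^ (1 - 1/d))` ideals of norm at most `x`, with the
same `κ`).  No new geometry of numbers.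
-/
import Fermat.Agent.GC.RaySI.RayFinal
import Fermat.Agent.DS.N8b.DirichletPartial

set_option autoImplicit false

open NumberField Ideal Finset
open scoped nonZeroDivisors

namespace Fermat.Agent.DS.N8b.RayAdapter

open Fermat.Agent.GC.RaySI.RayClass

variable (K : Type*) [Field K] [NumberField K] (m : ℕ)

/-- The modulus `(m)` of `𝓞 K`. -/
noncomputable abbrev modulus : Ideal (𝓞 K) := Ideal.span {((m : ℕ) : 𝓞 K)}

theorem modulus_ne_bot [NeZero m] : modulus K m ≠ ⊥ := by
  rw [Ne, Ideal.span_singleton_eq_bot]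
  exact_mod_cast NeZero.ne m

variable {K m}

/-! ### norms of elements congruent to one -/

/-- If `a ≡ 1` modulo `m 𝓞 K` then `N a ≡ 1` modulo `m`. -/
theorem norm_cast_eq_one_of_sub_one_mem {a : 𝓞 K} (ha : a - 1 ∈ modulus K m) :
    ((Algebra.norm ℤ a : ℤ) : ZMod m) = 1 := by
  classical
  obtain ⟨c, hc⟩ := Ideal.mem_span_singleton'.mp ha
  have ha' : a = 1 + (m : ℤ) • c := by
    rw [zsmul_eq_mul, Int.cast_natCast, mul_comm, hc]; ring
  set b := RingOfIntegers.basis K with hb
  rw [Algebra.norm_eq_matrix_det b, ha', map_add, map_one, map_smul, Matrix.det_one_add_smul]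
  push_cast
  simp

/-- The ideal norm of `(a)` modulo `m` is `± 1` when `a ≡ 1` modulo `m`. -/
theorem absNorm_span_cast_of_sub_one_mem {a : 𝓞 K} (ha : a - 1 ∈ modulus K m) :
    ((Ideal.absNorm (Ideal.span {a}) : ℕ) : ZMod m) = 1 ∨
      ((Ideal.absNorm (Ideal.span {a}) : ℕ) : ZMod m) = -1 := by
  have h1 := norm_cast_eq_one_of_sub_one_mem ha
  rw [Ideal.absNorm_span_singleton]
  rcases Int.natAbs_eq (Algebra.norm ℤ a) with h | h
  · left
    have : ((Algebra.norm ℤ a).natAbs : ZMod m) = ((Algebra.norm ℤ a : ℤ) : ZMod m) := by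
      conv_rhs => rw [h]
      simp
    rw [this, h1]
  · right
    have : ((Algebra.norm ℤ a).natAbs : ZMod m) = -((Algebra.norm ℤ a : ℤ) : ZMod m) := by
      conv_rhs => rw [h]
      simp
    rw [this, h1]

/-! ### characters which are constant on ray classes -/

/-- `χ` kills the norms of the principal ideals `(a)`, `a ≡ 1` modulo `m`: exactly what makes
`𝔞 ↦ χ (N 𝔞)` a function on the ray class group modulo `(m)`. -/
def RayConst (K : Type*) [Field K] [NumberField K] {m : ℕ} (χ : DirichletCharacter ℂ m) : Prop :=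
  ∀ a : 𝓞 K, a ≠ 0 → a - 1 ∈ modulus K m →
    χ ((Ideal.absNorm (Ideal.span {a}) : ℕ) : ZMod m) = 1

/-- Even characters are constant on ray classes. -/
theorem rayConst_of_even {χ : DirichletCharacter ℂ m} (hχ : χ.Even) : RayConst K χ := by
  intro a _ ha
  rcases absNorm_span_cast_of_sub_one_mem ha with h | h
  · rw [h, map_one]
  · rw [h]; exact hχ

/-- If all norms are positive (e.g. `K` totally complex), every character is constant on ray
classes. -/
theorem rayConst_of_norm_pos (hpos : ∀ a : 𝓞 K, a ≠ 0 → 0 < Algebra.norm ℤ a)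
    (χ : DirichletCharacter ℂ m) : RayConst K χ := by
  intro a ha0 ha
  have h1 := norm_cast_eq_one_of_sub_one_mem ha
  rw [Ideal.absNorm_span_singleton]
  have : ((Algebra.norm ℤ a).natAbs : ZMod m) = ((Algebra.norm ℤ a : ℤ) : ZMod m) := by
    conv_rhs => rw [← Int.natAbs_of_nonneg (hpos a ha0).le]
    simp
  rw [this, h1, map_one]

/-- `𝔞 ↦ χ (N 𝔞)` on the ideals coprime to `(m)`. -/
noncomputable def normChar (χ : DirichletCharacter ℂ m) :
    coprimeSubmonoid (modulus K m) →* ℂ where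
  toFun I := χ ((Ideal.absNorm (idl I) : ℕ) : ZMod m)
  map_one' := by
    rw [idl_one, Ideal.one_eq_top, Ideal.absNorm_top, Nat.cast_one, map_one]
  map_mul' I J := by
    rw [idl_mul, map_mul, Nat.cast_mul, map_mul]

theorem normChar_apply (χ : DirichletCharacter ℂ m) (I : coprimeSubmonoid (modulus K m)) :
    normChar χ I = χ ((Ideal.absNorm (idl I) : ℕ) : ZMod m) := rfl

theorem norm_normChar_le (χ : DirichletCharacter ℂ m) (I : coprimeSubmonoid (modulus K m)) :
    ‖normChar χ I‖ ≤ 1 :=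
  DirichletCharacter.norm_le_one χ _

theorem normChar_eq_of_rayRel {χ : DirichletCharacter ℂ m} (hχ : RayConst K χ)
    {I J : coprimeSubmonoid (modulus K m)} (h : RayRel (modulus K m) I J) :
    normChar χ I = normChar χ J := by
  obtain ⟨a, b, ha, hb, ha1, hb1, h⟩ := h
  have h2 := congrArg (fun X : Ideal (𝓞 K) => χ ((Ideal.absNorm X : ℕ) : ZMod m)) h
  simp only [map_mul, Nat.cast_mul] at h2
  rw [hχ a ha ha1, hχ b hb hb1, one_mul, one_mul] at h2
  exact h2

/-- The character `c ↦ χ (N c)` of the ray class group modulo `(m)`. -/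
noncomputable def rayChar {χ : DirichletCharacter ℂ m} (hχ : RayConst K χ) :
    RayClassGroup (modulus K m) →* ℂ :=
  (rayCon (modulus K m)).lift (normChar χ) (fun _ _ h => normChar_eq_of_rayRel hχ h)

theorem rayChar_mk {χ : DirichletCharacter ℂ m} (hχ : RayConst K χ)
    (I : coprimeSubmonoid (modulus K m)) :
    rayChar hχ (mk (modulus K m) I) = normChar χ I := rfl

theorem norm_rayChar_le {χ : DirichletCharacter ℂ m} (hχ : RayConst K χ)
    (c : RayClassGroup (modulus K m)) : ‖rayChar hχ c‖ ≤ 1 := by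
  obtain ⟨I, rfl⟩ := mk_surjective (modulus K m) c
  rw [rayChar_mk]
  exact norm_normChar_le χ I

/-- A character which is nontrivial on the norms of the ideals coprime to `(m)` sums to zero over
the ray class group. -/
theorem sum_rayChar_eq_zero {χ : DirichletCharacter ℂ m} (hχ : RayConst K χ)
    (hnt : ∃ I : coprimeSubmonoid (modulus K m), normChar χ I ≠ 1)
    [Fintype (RayClassGroup (modulus K m))] :
    ∑ c : RayClassGroup (modulus K m), rayChar hχ c = 0 := by
  apply sum_hom_units_eq_zero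
  obtain ⟨I, hI⟩ := hnt
  intro h
  apply hI
  rw [← rayChar_mk hχ, h]
  rfl

/-! ### ideals of norm prime to `m` are coprime to `(m)` -/

theorem isCoprime_modulus_of_isUnit {I : Ideal (𝓞 K)}
    (h : IsUnit ((Ideal.absNorm I : ℕ) : ZMod m)) : IsCoprime I (modulus K m) := by
  have hcop : Nat.Coprime (Ideal.absNorm I) m := (ZMod.isUnit_iff_coprime _ _).mp h
  rw [Ideal.isCoprime_iff_exists]
  have hbez := Nat.isCoprime_iff_coprime.mpr hcop
  obtain ⟨u, v, huv⟩ := hbez
  refine ⟨(u : 𝓞 K) * ((Ideal.absNorm I : ℕ) : 𝓞 K), I.mul_mem_left _ ?_,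
    (v : 𝓞 K) * ((m : ℕ) : 𝓞 K), Ideal.mul_mem_left _ _ (Ideal.mem_span_singleton_self _), ?_⟩
  · have := Ideal.absNorm_mem I
    exact_mod_cast this
  · have := congrArg (fun z : ℤ => (z : 𝓞 K)) huv
    simpa using this

theorem eq_zero_of_not_isCoprime (χ : DirichletCharacter ℂ m) {I : Ideal (𝓞 K)}
    (h : ¬ IsCoprime I (modulus K m)) : χ ((Ideal.absNorm I : ℕ) : ZMod m) = 0 :=
  MulChar.map_nonunit χ fun hu => h (isCoprime_modulus_of_isUnit hu)

/-! ### the partial sums -/

section Count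

/-- The ideals of norm at most `n`. -/
noncomputable def idealsLE (K : Type*) [Field K] [NumberField K] (n : ℕ) : Finset (Ideal (𝓞 K)) :=
  (Ideal.finite_setOfPred_absNorm_le (S := 𝓞 K) n).toFinset

theorem mem_idealsLE {n : ℕ} {I : Ideal (𝓞 K)} : I ∈ idealsLE K n ↔ Ideal.absNorm I ≤ n := by
  simp [idealsLE]

theorem finite_coprime_le (n : ℕ) :
    {I : coprimeSubmonoid (modulus K m) | Ideal.absNorm (idl I) ≤ n}.Finite := by
  have hfin := Ideal.finite_setOfPred_absNorm_le (S := 𝓞 K) n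
  exact Set.Finite.of_injOn (f := fun I : coprimeSubmonoid (modulus K m) => idl I)
    (fun I hI => hI) (fun I _ J _ h => idl_injective h) hfin

/-- The ideals coprime to `(m)` of norm at most `n`. -/
noncomputable def coprimeLE (K : Type*) [Field K] [NumberField K] (m n : ℕ) :
    Finset (coprimeSubmonoid (modulus K m)) :=
  (finite_coprime_le (K := K) (m := m) n).toFinset

theorem mem_coprimeLE {n : ℕ} {I : coprimeSubmonoid (modulus K m)} :
    I ∈ coprimeLE K m n ↔ Ideal.absNorm (idl I) ≤ n := by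
  simp [coprimeLE]

/-- First form of the partial sum: a sum over the ideals coprime to `(m)`. -/
theorem sum_Icc_eq_sum_coprimeLE (χ : DirichletCharacter ℂ m) (n : ℕ) :
    ∑ k ∈ Icc 1 n, χ (k : ZMod m) * (Nat.card {I : Ideal (𝓞 K) // Ideal.absNorm I = k} : ℂ) =
      ∑ I ∈ coprimeLE K m n, normChar χ I := by
  classical
  -- step 1: cards as filters
  have h1 : ∀ k ∈ Icc 1 n, χ (k : ZMod m) *
      (Nat.card {I : Ideal (𝓞 K) // Ideal.absNorm I = k} : ℂ) =
      ∑ J ∈ (idealsLE K n).filter (fun J => Ideal.absNorm J = k),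
        χ ((Ideal.absNorm J : ℕ) : ZMod m) := by
    intro k hk
    have hkn : k ≤ n := (mem_Icc.mp hk).2
    have hcard : Nat.card {I : Ideal (𝓞 K) // Ideal.absNorm I = k} =
        ((idealsLE K n).filter (fun J => Ideal.absNorm J = k)).card := by
      apply Nat.subtype_card
      intro J
      rw [mem_filter, mem_idealsLE]
      constructor
      · rintro ⟨-, h⟩; exact h
      · intro h; exact ⟨h ▸ hkn, h⟩
    rw [hcard, Finset.sum_congr rfl (g := fun _ => χ (k : ZMod m))
      (fun J hJ => by rw [(mem_filter.mp hJ).2]), Finset.sum_const, nsmul_eq_mul, mul_comm]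
  rw [Finset.sum_congr rfl h1]
  -- step 2: fibrewise
  have h2 : ∑ k ∈ Icc 1 n, ∑ J ∈ (idealsLE K n).filter (fun J => Ideal.absNorm J = k),
      χ ((Ideal.absNorm J : ℕ) : ZMod m) =
      ∑ J ∈ (idealsLE K n).filter (fun J => 1 ≤ Ideal.absNorm J),
        χ ((Ideal.absNorm J : ℕ) : ZMod m) := by
    rw [← Finset.sum_fiberwise_of_maps_to (s := (idealsLE K n).filter
      (fun J => 1 ≤ Ideal.absNorm J)) (t := Icc 1 n) (g := fun J => Ideal.absNorm J)]
    · refine Finset.sum_congr rfl fun k hk => Finset.sum_congr ?_ fun _ _ => rfl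
      ext J
      simp only [mem_filter]
      constructor
      · rintro ⟨h1, h2⟩; exact ⟨⟨h1, h2 ▸ (mem_Icc.mp hk).1⟩, h2⟩
      · rintro ⟨⟨h1, -⟩, h2⟩; exact ⟨h1, h2⟩
    · intro J hJ
      rw [mem_filter, mem_idealsLE] at hJ
      exact mem_Icc.mpr ⟨hJ.2, hJ.1⟩
  rw [h2]
  -- step 3: restrict to the coprime ideals
  have h3 : ∑ I ∈ coprimeLE K m n, normChar χ I =
      ∑ J ∈ (coprimeLE K m n).image (fun I => idl I), χ ((Ideal.absNorm J : ℕ) : ZMod m) := by
    rw [Finset.sum_image (fun I _ J _ h => idl_injective h)]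
    rfl
  rw [h3]
  symm
  apply Finset.sum_subset
  · intro J hJ
    obtain ⟨I, hI, rfl⟩ := mem_image.mp hJ
    rw [mem_filter, mem_idealsLE]
    refine ⟨mem_coprimeLE.mp hI, ?_⟩
    rw [Nat.one_le_iff_ne_zero, Ne, Ideal.absNorm_eq_zero_iff]
    exact idl_ne_zero I
  · intro J hJ hJn
    apply eq_zero_of_not_isCoprime
    intro hcop
    apply hJn
    rw [mem_filter, mem_idealsLE] at hJ
    have hJ0 : J ≠ 0 := by
      rintro rfl
      have := hJ.2
      rw [Ideal.zero_eq_bot, Ideal.absNorm_bot] at this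
      omega
    exact mem_image.mpr ⟨ofIdeal J hJ0 hcop, mem_coprimeLE.mpr hJ.1, rfl⟩

/-- Second form: grouped by ray classes. -/
theorem sum_coprimeLE_eq_sum_classes {χ : DirichletCharacter ℂ m} (hχ : RayConst K χ) (n : ℕ)
    [Fintype (RayClassGroup (modulus K m))] :
    ∑ I ∈ coprimeLE K m n, normChar χ I =
      ∑ c : RayClassGroup (modulus K m), rayChar hχ c *
        (Nat.card {I : coprimeSubmonoid (modulus K m) //
          (Ideal.absNorm (idl I) : ℝ) ≤ (n : ℝ) ∧ mk (modulus K m) I = c} : ℂ) := by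
  classical
  have h1 : ∀ c : RayClassGroup (modulus K m), rayChar hχ c *
      (Nat.card {I : coprimeSubmonoid (modulus K m) //
        (Ideal.absNorm (idl I) : ℝ) ≤ (n : ℝ) ∧ mk (modulus K m) I = c} : ℂ) =
      ∑ I ∈ (coprimeLE K m n).filter (fun I => mk (modulus K m) I = c), normChar χ I := by
    intro c
    have hcard : Nat.card {I : coprimeSubmonoid (modulus K m) //
        (Ideal.absNorm (idl I) : ℝ) ≤ (n : ℝ) ∧ mk (modulus K m) I = c} =
        ((coprimeLE K m n).filter (fun I => mk (modulus K m) I = c)).card := by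
      apply Nat.subtype_card
      intro I
      rw [mem_filter, mem_coprimeLE, Nat.cast_le]
    rw [hcard, Finset.sum_congr rfl (g := fun _ => rayChar hχ c)
      (fun I hI => by rw [← rayChar_mk hχ, (mem_filter.mp hI).2]), Finset.sum_const,
      nsmul_eq_mul, mul_comm]
  rw [Finset.sum_congr rfl fun c _ => h1 c]
  exact (Finset.sum_fiberwise (coprimeLE K m n) (fun I => mk (modulus K m) I)
    (fun I => normChar χ I)).symm

/-- **The power-saving bound for the partial sums of `χ ∘ N`** (`= (B3)` of the `(N8b)` plan):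
if `χ` is constant on the ray classes modulo `(m)` and nontrivial on the norms of the ideals
coprime to `(m)`, then `∑_{N 𝔞 ≤ n} χ (N 𝔞) = O (n ^ (1 - 1/[K:ℚ]))`. -/
theorem exists_norm_sum_le [NeZero m] {χ : DirichletCharacter ℂ m} (hχ : RayConst K χ)
    (hnt : ∃ I : coprimeSubmonoid (modulus K m), normChar χ I ≠ 1) :
    ∃ C : ℝ, ∀ n : ℕ, 1 ≤ n →
      ‖∑ k ∈ Icc 1 n, χ (k : ZMod m) *
        (Nat.card {I : Ideal (𝓞 K) // Ideal.absNorm I = k} : ℂ)‖ ≤
        C * (n : ℝ) ^ (1 - 1 / (Module.finrank ℚ K : ℝ)) := by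
  classical
  have hm := modulus_ne_bot K m
  haveI : Finite (RayClassGroup (modulus K m)) := finite_of_ne_bot (modulus K m) hm
  haveI : Fintype (RayClassGroup (modulus K m)) := Fintype.ofFinite _
  obtain ⟨κ, C, -, hC⟩ := Fermat.Agent.GC.RaySI.rayCountStmt K (m := modulus K m) hm
  refine ⟨Fintype.card (RayClassGroup (modulus K m)) * C, fun n hn => ?_⟩
  have hn1 : (1 : ℝ) ≤ (n : ℝ) := by exact_mod_cast hn
  rw [sum_Icc_eq_sum_coprimeLE, sum_coprimeLE_eq_sum_classes hχ]
  have hzero : ∑ c : RayClassGroup (modulus K m), rayChar hχ c * ((κ * (n : ℝ) : ℝ) : ℂ) = 0 := by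
    rw [← Finset.sum_mul, sum_rayChar_eq_zero hχ hnt, zero_mul]
  rw [← sub_zero (∑ c : RayClassGroup (modulus K m), _), ← hzero, ← Finset.sum_sub_distrib]
  refine (norm_sum_le _ _).trans ?_
  have hterm : ∀ c ∈ (Finset.univ : Finset (RayClassGroup (modulus K m))),
      ‖rayChar hχ c * (Nat.card {I : coprimeSubmonoid (modulus K m) //
          (Ideal.absNorm (idl I) : ℝ) ≤ (n : ℝ) ∧ mk (modulus K m) I = c} : ℂ) -
        rayChar hχ c * ((κ * (n : ℝ) : ℝ) : ℂ)‖ ≤
      C * (n : ℝ) ^ (1 - 1 / (Module.finrank ℚ K : ℝ)) := by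
    intro c _
    rw [← mul_sub, norm_mul]
    have h1 := hC c n hn1
    have h2 : ‖((Nat.card {I : coprimeSubmonoid (modulus K m) //
          (Ideal.absNorm (idl I) : ℝ) ≤ (n : ℝ) ∧ mk (modulus K m) I = c} : ℂ)) -
        ((κ * (n : ℝ) : ℝ) : ℂ)‖ =
        |(Nat.card {I : coprimeSubmonoid (modulus K m) //
          (Ideal.absNorm (idl I) : ℝ) ≤ (n : ℝ) ∧ mk (modulus K m) I = c} : ℝ) - κ * n| := by
      rw [← Complex.ofReal_natCast, ← Complex.ofReal_sub, Complex.norm_real, Real.norm_eq_abs]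
    rw [h2]
    calc ‖rayChar hχ c‖ * _ ≤ 1 * _ :=
          mul_le_mul_of_nonneg_right (norm_rayChar_le hχ c) (abs_nonneg _)
      _ ≤ _ := by rw [one_mul]; exact h1
  refine (Finset.sum_le_sum hterm).trans ?_
  rw [Finset.sum_const, Finset.card_univ, nsmul_eq_mul, mul_assoc]

end Count

/-! ### the Dirichlet series `L_K(s, χ ∘ N)` near `s = 1` -/

section LSeries

open Filter Topology

/-- The coefficients of `L_K(s, χ ∘ N) = ∑_𝔞 χ (N 𝔞) N 𝔞 ^ (-s)` as a Dirichlet series. -/
noncomputable def coeff (K : Type*) [Field K] [NumberField K] {m : ℕ}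
    (χ : DirichletCharacter ℂ m) (k : ℕ) : ℂ :=
  χ (k : ZMod m) * (Nat.card {I : Ideal (𝓞 K) // Ideal.absNorm I = k} : ℂ)

theorem norm_coeff_le (χ : DirichletCharacter ℂ m) (k : ℕ) :
    ‖coeff K χ k‖ ≤ ‖((Fermat.Agent.S14.NonSplit.idealCount K k : ℝ) : ℂ)‖ := by
  unfold coeff Fermat.Agent.S14.NonSplit.idealCount
  rw [norm_mul, Complex.ofReal_natCast]
  calc ‖χ (k : ZMod m)‖ * _ ≤ 1 * _ :=
        mul_le_mul_of_nonneg_right (DirichletCharacter.norm_le_one χ _) (norm_nonneg _)
    _ = _ := one_mul _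

theorem lseriesSummable_coeff (χ : DirichletCharacter ℂ m) {s : ℝ} (hs : 1 < s) :
    LSeriesSummable (coeff K χ) (s : ℂ) := by
  have h := Fermat.Agent.S14.NonSplit.lseriesSummable_idealCount K hs
  unfold LSeriesSummable at h ⊢
  refine Summable.of_norm_bounded h.norm fun k => ?_
  by_cases hk : k = 0
  · subst hk; simp [LSeries.term_zero]
  · rw [LSeries.term_of_ne_zero hk, LSeries.term_of_ne_zero hk, norm_div, norm_div]
    exact div_le_div_of_nonneg_right (norm_coeff_le χ k) (norm_nonneg _)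

/-- **`L_K(s, χ ∘ N)` has a finite limit as `s → 1⁺`** when `χ` is constant on ray classes and
nontrivial on norms (plug of `exists_norm_sum_le` into `(B4)`). -/
theorem tendsto_LSeries_coeff [NeZero m] {χ : DirichletCharacter ℂ m} (hχ : RayConst K χ)
    (hnt : ∃ I : coprimeSubmonoid (modulus K m), normChar χ I ≠ 1) :
    ∃ ℓ : ℂ, Tendsto (fun s : ℝ => LSeries (coeff K χ) s) (𝓝[>] 1) (𝓝 ℓ) := by
  obtain ⟨C, hC⟩ := exists_norm_sum_le hχ hnt
  have hd : (0 : ℝ) < Module.finrank ℚ K := by exact_mod_cast Module.finrank_pos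
  have hr0 : (0 : ℝ) ≤ 1 - 1 / (Module.finrank ℚ K : ℝ) := by
    have : 1 / (Module.finrank ℚ K : ℝ) ≤ 1 := by
      rw [div_le_one hd]
      exact_mod_cast Module.finrank_pos
    linarith
  have hr1 : 1 - 1 / (Module.finrank ℚ K : ℝ) < 1 := by
    have : 0 < 1 / (Module.finrank ℚ K : ℝ) := by positivity
    linarith
  exact ⟨_, tendsto_LSeries_nhdsGT_one hr0 hr1 (isBigO_of_forall_norm_sum_le hC)
    (fun s hs => lseriesSummable_coeff χ hs)⟩

/-- The same with the limit named: it is `abelIntegral (coeff K χ) 1` of `(B4)`. -/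
theorem tendsto_LSeries_coeff_abelIntegral [NeZero m] {χ : DirichletCharacter ℂ m}
    (hχ : RayConst K χ) (hnt : ∃ I : coprimeSubmonoid (modulus K m), normChar χ I ≠ 1) :
    Tendsto (fun s : ℝ => LSeries (coeff K χ) s) (𝓝[>] 1) (𝓝 (abelIntegral (coeff K χ) 1)) := by
  obtain ⟨C, hC⟩ := exists_norm_sum_le hχ hnt
  have hd : (0 : ℝ) < Module.finrank ℚ K := by exact_mod_cast Module.finrank_pos
  have hr0 : (0 : ℝ) ≤ 1 - 1 / (Module.finrank ℚ K : ℝ) := by
    have : 1 / (Module.finrank ℚ K : ℝ) ≤ 1 := by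
      rw [div_le_one hd]
      exact_mod_cast Module.finrank_pos
    linarith
  have hr1 : 1 - 1 / (Module.finrank ℚ K : ℝ) < 1 := by
    have : 0 < 1 / (Module.finrank ℚ K : ℝ) := by positivity
    linarith
  exact tendsto_LSeries_nhdsGT_one hr0 hr1 (isBigO_of_forall_norm_sum_le hC)
    (fun s hs => lseriesSummable_coeff χ hs)

/-- Nontriviality on norms, stated with a plain ideal. -/
theorem exists_normChar_ne_one {χ : DirichletCharacter ℂ m} {I : Ideal (𝓞 K)} (hI0 : I ≠ 0)
    (hI : IsCoprime I (modulus K m)) (h : χ ((Ideal.absNorm I : ℕ) : ZMod m) ≠ 1) :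
    ∃ J : coprimeSubmonoid (modulus K m), normChar χ J ≠ 1 :=
  ⟨ofIdeal I hI0 hI, h⟩

/-- **`L_K(s, χ ∘ N)` is bounded near `1⁺`**. -/
theorem exists_bound_LSeries_coeff [NeZero m] {χ : DirichletCharacter ℂ m} (hχ : RayConst K χ)
    (hnt : ∃ I : coprimeSubmonoid (modulus K m), normChar χ I ≠ 1) :
    ∃ B δ : ℝ, 0 < δ ∧ ∀ s : ℝ, 1 < s → s < 1 + δ → ‖LSeries (coeff K χ) s‖ ≤ B := by
  obtain ⟨C, hC⟩ := exists_norm_sum_le hχ hnt
  have hd : (0 : ℝ) < Module.finrank ℚ K := by exact_mod_cast Module.finrank_pos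
  have hr0 : (0 : ℝ) ≤ 1 - 1 / (Module.finrank ℚ K : ℝ) := by
    have : 1 / (Module.finrank ℚ K : ℝ) ≤ 1 := by
      rw [div_le_one hd]
      exact_mod_cast Module.finrank_pos
    linarith
  have hr1 : 1 - 1 / (Module.finrank ℚ K : ℝ) < 1 := by
    have : 0 < 1 / (Module.finrank ℚ K : ℝ) := by positivity
    linarith
  exact exists_bound_LSeries_near_one hr0 hr1 (isBigO_of_forall_norm_sum_le hC)
    (fun s hs => lseriesSummable_coeff χ hs)

end LSeries

end Fermat.Agent.DS.N8b.RayAdapter
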