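/-
S48-(N8b)-(B4)-ADAPTER (helper98): the Dirichlet series of a ray class character from the
counting hypothesis of GC/RaySI.

For `D : PhiData m G` and an additive character `ψ` of `Additive G`, the coefficients
`chCoeff D ψ n = ∑_g ψ(g) #{I coprime to m, phi I = g, N I = n}` satisfy
`LSeries (chCoeff D ψ) s = ∑' I, fch D ψ s I` for real `s > 1`; under `CountHyp D` and `ψ ≠ 0` their
partial sums are `O(n^(1-δ))`, so (helper19's `DirichletPartial`) `L(s,ψ)` has a finite limit as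
`s → 1⁺`.  NEW file; imports only.
-/
import Fermat.Agent.GC.RaySI.RayZeta
import Fermat.Agent.DS.N8b.DirichletPartial

set_option autoImplicit false

open NumberField nonZeroDivisors Filter Topology

namespace Fermat.Agent.DS.N8b

open Fermat.Agent.GC.RaySI Fermat.Agent.S14.SIan Fermat.Agent.S14_helper57

variable {K : Type*} [Field K] [NumberField K]
variable {m : Ideal (𝓞 K)} {G : Type*} [CommGroup G] [Fintype G] (D : PhiData m G)

/-- The `n`-th Dirichlet coefficient of `L(s,ψ) = ∑' I, fch D ψ s I`. -/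
noncomputable def chCoeff (ψ : AddChar (Additive G) ℂ) (n : ℕ) : ℂ :=
  ∑ g : G, ψ (Additive.ofMul g) * ((cnt (fnrm D g) n : ℝ) : ℂ)

theorem chCoeff_zero (ψ : AddChar (Additive G) ℂ) : chCoeff D ψ 0 = 0 := by
  unfold chCoeff
  refine Finset.sum_eq_zero fun g _ => ?_
  rw [cnt_zero (fnrm D g) (fnrm_ne_zero D g)]
  simp

omit [Fintype G] in
theorem sum_Icc_cnt (g : G) (n : ℕ) :
    ∑ k ∈ Finset.Icc 1 n, cnt (fnrm D g) k =
      (({I : Fib D g | fnrm D g I ≤ n} : Set (Fib D g)).ncard : ℝ) := by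
  rw [← sum_range_cnt (fnrm D g) (finite_fnrm_eq D g) (fnrm_ne_zero D g) n]
  induction n with
  | zero => simp
  | succ n ih =>
    rw [Finset.sum_Icc_succ_top (by omega), ih, Finset.sum_range_succ]

/-- The partial sums of the coefficients count ideals of bounded norm in the fibres. -/
theorem sum_Icc_chCoeff (ψ : AddChar (Additive G) ℂ) (n : ℕ) :
    ∑ k ∈ Finset.Icc 1 n, chCoeff D ψ k =
      ∑ g : G, ψ (Additive.ofMul g) *
        ((Nat.card {I : (Ideal (𝓞 K))⁰ // Cop m I ∧ D.phi I = g ∧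
          Ideal.absNorm (I : Ideal (𝓞 K)) ≤ n} : ℝ) : ℂ) := by
  unfold chCoeff
  rw [Finset.sum_comm]
  refine Finset.sum_congr rfl fun g _ => ?_
  rw [← Finset.mul_sum, ← ncard_fnrm_le D g n, ← sum_Icc_cnt D g n]
  push_cast
  rfl

/-- **Power saving for the partial sums** of a nontrivial character. -/
theorem exists_norm_sum_chCoeff_le (h : CountHyp D) {ψ : AddChar (Additive G) ℂ} (hψ : ψ ≠ 0) :
    ∃ C δ : ℝ, 0 ≤ C ∧ 0 < δ ∧ δ ≤ 1 ∧ ∀ n : ℕ, 1 ≤ n →
      ‖∑ k ∈ Finset.Icc 1 n, chCoeff D ψ k‖ ≤ C * (n : ℝ) ^ (1 - δ) := by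
  obtain ⟨κ, C, ε, _, hε, hC⟩ := h
  refine ⟨(Fintype.card G : ℝ) * |C|, min ε 1, by positivity, lt_min hε one_pos,
    min_le_right _ _, fun n hn => ?_⟩
  have hn1 : (1 : ℝ) ≤ n := by exact_mod_cast hn
  set c : G → ℝ := fun g => (Nat.card {I : (Ideal (𝓞 K))⁰ // Cop m I ∧ D.phi I = g ∧
          Ideal.absNorm (I : Ideal (𝓞 K)) ≤ n} : ℝ) with hc
  have h0 := sum_char_ofMul_eq_zero hψ
  have h1 : ∑ g : G, ψ (Additive.ofMul g) * ((c g : ℝ) : ℂ) =
      ∑ g : G, ψ (Additive.ofMul g) * ((c g - κ * n : ℝ) : ℂ) := by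
    have : ∑ g : G, ψ (Additive.ofMul g) * ((c g - κ * n : ℝ) : ℂ) =
        ∑ g : G, ψ (Additive.ofMul g) * ((c g : ℝ) : ℂ) -
          (∑ g : G, ψ (Additive.ofMul g)) * ((κ * n : ℝ) : ℂ) := by
      rw [Finset.sum_mul, ← Finset.sum_sub_distrib]
      refine Finset.sum_congr rfl fun g _ => ?_
      push_cast
      ring
    rw [this, h0, zero_mul, sub_zero]
  rw [sum_Icc_chCoeff, h1]
  refine (norm_sum_le _ _).trans ?_
  have hle : (n : ℝ) ^ (1 - ε) ≤ (n : ℝ) ^ (1 - min ε 1) :=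
    Real.rpow_le_rpow_of_exponent_le hn1 (by linarith [min_le_left ε 1])
  have hpos : 0 ≤ (n : ℝ) ^ (1 - ε) := Real.rpow_nonneg (by linarith) _
  have hb : ∀ g ∈ (Finset.univ : Finset G),
      ‖ψ (Additive.ofMul g) * ((c g - κ * n : ℝ) : ℂ)‖ ≤ |C| * (n : ℝ) ^ (1 - min ε 1) := by
    intro g _
    rw [norm_mul, AddChar.norm_apply, one_mul, Complex.norm_real, Real.norm_eq_abs]
    calc |c g - κ * n| ≤ C * (n : ℝ) ^ (1 - ε) := hC g n hn
      _ ≤ |C| * (n : ℝ) ^ (1 - ε) := mul_le_mul_of_nonneg_right (le_abs_self C) hpos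
      _ ≤ |C| * (n : ℝ) ^ (1 - min ε 1) := mul_le_mul_of_nonneg_left hle (abs_nonneg C)
  refine (Finset.sum_le_sum hb).trans ?_
  rw [Finset.sum_const, Finset.card_univ, nsmul_eq_mul, mul_assoc]

omit [Fintype G] in
/-- summability of a fibre zeta function for `s > 1` (no counting hypothesis needed). -/
theorem summable_fnrm_rpow (g : G) {s : ℝ} (hs : 1 < s) :
    Summable fun I : Fib D g => (fnrm D g I : ℝ) ^ (-s) :=
  (summable_nrm K hs).subtype _

omit [Fintype G] in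
theorem summable_cnt_mul_rpow (g : G) {s : ℝ} (hs : 1 < s) :
    Summable fun n : ℕ => cnt (fnrm D g) n * (n : ℝ) ^ (-s) :=
  (summable_sigma_iff (fnrm D g) s (finite_fnrm_eq D g)).mp (summable_fnrm_rpow D g hs)

omit [Fintype G] in
theorem tsum_cnt_mul_rpow (g : G) {s : ℝ} (hs : 1 < s) :
    ∑' n : ℕ, cnt (fnrm D g) n * (n : ℝ) ^ (-s) = fibZeta D g s := by
  unfold fibZeta
  rw [tsum_eq (fnrm D g) s (finite_fnrm_eq D g) (fnrm_ne_zero D g),
    (summable_cnt_mul_rpow D g hs).tsum_eq_zero_add, cnt_zero (fnrm D g) (fnrm_ne_zero D g),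
    zero_mul, zero_add]
  simp only [Nat.cast_add, Nat.cast_one]

theorem term_chCoeff (ψ : AddChar (Additive G) ℂ) (s : ℝ) (n : ℕ) :
    LSeries.term (chCoeff D ψ) (s : ℂ) n =
      ∑ g : G, ψ (Additive.ofMul g) * ((cnt (fnrm D g) n * (n : ℝ) ^ (-s) : ℝ) : ℂ) := by
  rcases Nat.eq_zero_or_pos n with hn | hn
  · subst hn
    rw [LSeries.term_zero]
    symm
    refine Finset.sum_eq_zero fun g _ => ?_
    rw [cnt_zero (fnrm D g) (fnrm_ne_zero D g)]
    simp
  · rw [LSeries.term_of_ne_zero hn.ne']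
    unfold chCoeff
    rw [Finset.sum_div]
    refine Finset.sum_congr rfl fun g _ => ?_
    have h1 : ((n : ℝ) ^ (-s) : ℝ) = ((n : ℂ) ^ (s : ℂ))⁻¹ := by
      rw [Complex.ofReal_cpow (Nat.cast_nonneg n), Complex.ofReal_neg, Complex.cpow_neg]
      simp
    push_cast
    rw [h1]
    ring

theorem lseriesSummable_chCoeff (ψ : AddChar (Additive G) ℂ) {s : ℝ} (hs : 1 < s) :
    LSeriesSummable (chCoeff D ψ) (s : ℂ) := by
  unfold LSeriesSummable
  rw [funext (term_chCoeff D ψ s)]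
  refine summable_sum fun g _ => ?_
  refine Summable.mul_left _ ?_
  exact (Complex.summable_ofReal).mpr (summable_cnt_mul_rpow D g hs)

/-- **The L-series of the coefficients is the character sum over ideals.** -/
theorem LSeries_chCoeff_eq (ψ : AddChar (Additive G) ℂ) {s : ℝ} (hs : 1 < s) :
    LSeries (chCoeff D ψ) (s : ℂ) = ∑' I, fch D ψ s I := by
  rw [tsum_fch_eq D ψ hs]
  unfold LSeries
  simp only [term_chCoeff]
  rw [Summable.tsum_finsetSum]
  · refine Finset.sum_congr rfl fun g _ => ?_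
    rw [tsum_mul_left, ← Complex.ofReal_tsum, tsum_cnt_mul_rpow D g hs]
  · intro g _
    refine Summable.mul_left _ ?_
    exact (Complex.summable_ofReal).mpr (summable_cnt_mul_rpow D g hs)

/-- The `O(n^r)` hypothesis of `DirichletPartial`, with `r = 1 - δ < 1`. -/
theorem exists_isBigO_sum_chCoeff (h : CountHyp D) {ψ : AddChar (Additive G) ℂ} (hψ : ψ ≠ 0) :
    ∃ r : ℝ, 0 ≤ r ∧ r < 1 ∧
      (fun n : ℕ ↦ ∑ k ∈ Finset.Icc 1 n, chCoeff D ψ k) =O[atTop] fun n : ℕ ↦ (n : ℝ) ^ r := by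
  obtain ⟨C, δ, _, hδ, hδ1, hC⟩ := exists_norm_sum_chCoeff_le D h hψ
  exact ⟨1 - δ, by linarith, by linarith, isBigO_of_forall_norm_sum_le hC⟩

/-- **`L(s,ψ)` has a finite limit as `s → 1⁺`** for `ψ ≠ 0`, under the counting hypothesis. -/
theorem exists_tendsto_tsum_fch (h : CountHyp D) {ψ : AddChar (Additive G) ℂ} (hψ : ψ ≠ 0) :
    ∃ l : ℂ, Tendsto (fun s : ℝ ↦ ∑' I, fch D ψ s I) (𝓝[>] 1) (𝓝 l) := by
  obtain ⟨r, hr, hr1, hO⟩ := exists_isBigO_sum_chCoeff D h hψ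
  refine ⟨abelIntegral (chCoeff D ψ) 1, ?_⟩
  have h1 := tendsto_LSeries_nhdsGT_one hr hr1 hO
    (fun s hs => lseriesSummable_chCoeff D ψ hs)
  refine h1.congr' ?_
  filter_upwards [self_mem_nhdsWithin] with s hs
  exact LSeries_chCoeff_eq D ψ hs

/-- The limit is the value at `1` of a function continuous on `re s > r` (for some `r < 1`) which
agrees with `L(s,ψ)` for real `s > 1`: the form used to control a continuous logarithm. -/
theorem exists_continuousOn_extension (h : CountHyp D) {ψ : AddChar (Additive G) ℂ}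
    (hψ : ψ ≠ 0) :
    ∃ (r : ℝ) (F : ℂ → ℂ), r < 1 ∧ ContinuousOn F {s : ℂ | r < s.re} ∧
      ∀ s : ℝ, 1 < s → F (s : ℂ) = ∑' I, fch D ψ s I := by
  obtain ⟨r, hr, hr1, hO⟩ := exists_isBigO_sum_chCoeff D h hψ
  refine ⟨r, abelIntegral (chCoeff D ψ), hr1, continuousOn_abelIntegral hr hO, fun s hs => ?_⟩
  rw [← LSeries_chCoeff_eq D ψ hs]
  exact (LSeries_eq_abelIntegral _ hr (by simpa using hr1.trans hs)
    (lseriesSummable_chCoeff D ψ hs) hO).symm

end Fermat.Agent.DS.N8b
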